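import Fermat.Agent.LLp.Strong
import Fermat.Agent.BadRed.InN
import Fermat.Agent.FunField.DegreeFormula

/-!
# Contraction by the operator `U`
-/

set_option autoImplicit false

noncomputable section

open AlgebraicCurve Module IntermediateField

namespace Fermat.Agent.LLp

open Fermat.Agent.BadRed
open Fermat.Agent.FunField Fermat.Agent.FunField.PlaceLemmas Fermat.Agent.Deuring

variable {L k : Type*} [Field L] [Field k]
variable {F F₁ : Type*} [Field F] [Field F₁] [Algebra L F] [Algebra k F₁]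

/-- `D` is the divisor of `f` -/
def IsDiv (D : Divisor L F) (f : F) : Prop := f ≠ 0 ∧ ∀ v : Place L F, D v = v.ord f

namespace IsDiv

theorem mul {D E : Divisor L F} {f g : F} (hf : IsDiv D f) (hg : IsDiv E g) :
    IsDiv (D + E) (f * g) :=
  ⟨mul_ne_zero hf.1 hg.1, fun v => by rw [Finsupp.add_apply, hf.2, hg.2, v.ord_mul hf.1 hg.1]⟩

theorem inv {D : Divisor L F} {f : F} (hf : IsDiv D f) : IsDiv (-D) f⁻¹ :=
  ⟨inv_ne_zero hf.1, fun v => by rw [Finsupp.neg_apply, hf.2, v.ord_inv]⟩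

theorem pow {D : Divisor L F} {f : F} (hf : IsDiv D f) (n : ℕ) : IsDiv (n • D) (f ^ n) :=
  ⟨pow_ne_zero n hf.1, fun v => by rw [Finsupp.smul_apply, nsmul_eq_mul, hf.2, ord_pow]⟩

theorem const {c : L} (hc : c ≠ 0) : IsDiv (0 : Divisor L F) (algebraMap L F c) :=
  ⟨by rwa [Ne, map_eq_zero], fun v => by rw [ord_algebraMap]; rfl⟩

theorem one : IsDiv (0 : Divisor L F) (1 : F) :=
  ⟨one_ne_zero, fun v => by rw [v.ord_one]; rfl⟩

theorem eq_const [IsFF L F] [IsAlgClosed L] {D : Divisor L F} {f g : F} (hf : IsDiv D f)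
    (hg : IsDiv D g) : ∃ c : L, c ≠ 0 ∧ f = algebraMap L F c * g := by
  have h1 : ∀ v : Place L F, 0 ≤ v.ord (f * g⁻¹) := by
    intro v
    have := (hf.mul hg.inv).2 v
    rw [add_neg_cancel] at this
    rw [← this]
    exact le_rfl
  obtain ⟨c, hc⟩ := exists_eq_algebraMap_of_forall_ord_nonneg (K := L) h1
  refine ⟨c, ?_, ?_⟩
  · rintro rfl
    rw [map_zero] at hc
    exact mul_ne_zero hf.1 (inv_ne_zero hg.1) hc.symm
  · have hg0 := hg.1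
    rw [hc]
    field_simp

end IsDiv

/-- linear equivalence -/
def Lin (D E : Divisor L F) : Prop := ∃ h : F, IsDiv (D - E) h

theorem Lin.refl (D : Divisor L F) : Lin D D := ⟨1, by rw [sub_self]; exact IsDiv.one⟩

theorem Lin.symm {D E : Divisor L F} (h : Lin D E) : Lin E D := by
  obtain ⟨w, hw⟩ := h
  exact ⟨w⁻¹, by rw [← neg_sub]; exact hw.inv⟩

theorem Lin.trans {D E G : Divisor L F} (h : Lin D E) (h' : Lin E G) : Lin D G := by
  obtain ⟨w, hw⟩ := h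
  obtain ⟨w', hw'⟩ := h'
  exact ⟨w * w', by rw [← sub_add_sub_cancel D E G]; exact hw.mul hw'⟩

/-- the operator `U^*` on functions together with `w` -/
structure UData (T : TwoVal L k F F₁) (n : ℕ) where
  w : F ≃ₐ[L] F
  hww : ∀ f, w (w f) = f
  hO : ∀ f, f ∈ T.V₂.O ↔ w f ∈ T.V₁.O
  hr : ∀ (f : F) (h : f ∈ T.V₂.O), T.V₂.r ⟨f, h⟩ = T.V₁.r ⟨w f, (hO f).mp h⟩
  U : F →* F
  contr : ∀ x y z z' : T.A, x ^ n = y * z → n * x = y * z' → ∀ f b : F, b ∈ T.V₁.O →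
    f = 1 + algebraMap L F (x : L) * b →
      ∃ b' ∈ T.V₁.O, U f = 1 + algebraMap L F (y : L) * b'
  dU : Divisor L F →+ Divisor L F
  hdU : ∀ (D : Divisor L F) (f : F), IsDiv D f → IsDiv (dU D) (U f)

variable {T : TwoVal L k F F₁} {n : ℕ}

namespace UData

variable (𝒰 : UData T n)

theorem dU_lin {D E : Divisor L F} (h : Lin D E) : Lin (𝒰.dU D) (𝒰.dU E) := by
  obtain ⟨w, hw⟩ := h
  exact ⟨𝒰.U w, by rw [← map_sub]; exact 𝒰.hdU _ _ hw⟩

theorem dU_iter {D : Divisor L F} (h : Lin (𝒰.dU (𝒰.dU D)) D) (k : ℕ) :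
    Lin (𝒰.dU^[2 * k] D) D := by
  induction k with
  | zero => exact Lin.refl D
  | succ k ih =>
    have e : 2 * (k + 1) = 2 * k + 1 + 1 := by ring
    rw [e, Function.iterate_succ_apply', Function.iterate_succ_apply']
    exact (𝒰.dU_lin (𝒰.dU_lin ih)).trans h

theorem isDiv_iter {D : Divisor L F} {f : F} (h : IsDiv D f) (k : ℕ) :
    IsDiv (𝒰.dU^[k] D) (𝒰.U^[k] f) := by
  induction k with
  | zero => exact h
  | succ k ih =>
    rw [Function.iterate_succ_apply', Function.iterate_succ_apply']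
    exact 𝒰.hdU _ _ ih

theorem inM_w {f : F} (h : InM T.V₁ (𝒰.w f)) : InM T.V₂ f := by
  obtain ⟨h1, e⟩ := h
  exact ⟨(𝒰.hO f).mpr h1, by rw [𝒰.hr]; exact e⟩

theorem inM_w' {f : F} (h : InM T.V₁ f) : InM T.V₂ (𝒰.w f) := by
  apply 𝒰.inM_w
  rwa [𝒰.hww]

theorem hasRes_w {f : F} {a : F₁} (h : T.V₂.HasRes f a) : T.V₁.HasRes (𝒰.w f) a := by
  obtain ⟨c, hc, h1, rfl⟩ := h
  have e : 𝒰.w (c • f) = c • 𝒰.w f := map_smul 𝒰.w c f
  have h2 : c • 𝒰.w f ∈ T.V₁.O := by rw [← e]; exact (𝒰.hO _).mp h1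
  refine ⟨c, hc, h2, ?_⟩
  rw [𝒰.hr]
  congr 1
  exact Subtype.ext e.symm

theorem locFine_w {lam : L} {f : F} (h : LocFine T.V₁ n lam (𝒰.w f)) : LocFine T.V₂ n lam f := by
  obtain ⟨g, s, hg, hs, e⟩ := h
  refine ⟨𝒰.w g, 𝒰.w s, (map_ne_zero 𝒰.w).mpr hg, 𝒰.inM_w' hs, ?_⟩
  have := congrArg 𝒰.w e
  rw [map_mul, map_pow, 𝒰.hww, map_add, map_one, map_mul, map_pow, AlgEquiv.commutes] at this
  exact this

/-- iterated contraction -/
theorem iterate_aux (hn : n.Prime) (Λ : LamData T.toRData n) {μ : T.A}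
    (hμ0 : (μ : L) ≠ 0) {f b : F} (hb : b ∈ T.V₁.O) (hf : f = 1 + algebraMap L F (μ : L) * b)
    (k : ℕ) : (∃ b' ∈ T.V₁.O, 𝒰.U^[k] f = 1 + algebraMap L F ((μ : L) ^ (k + 1)) * b') ∨
      ∃ b' ∈ T.V₁.O, 𝒰.U^[k] f = 1 + algebraMap L F ((Λ.lam : L) * μ) * b' := by
  let lam : T.A := Λ.lam
  let c₀ : T.A := Λ.c₀
  have hnA : (n : T.A) = c₀ * lam ^ (n - 1) := Λ.hnA
  have hn2 := hn.two_le
  obtain ⟨n', hn'⟩ : ∃ n', n = n' + 2 := ⟨n - 2, by omega⟩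
  induction k with
  | zero => left; exact ⟨b, hb, by rw [Function.iterate_zero_apply, zero_add, pow_one]; exact hf⟩
  | succ k ih =>
    rw [Function.iterate_succ_apply']
    rcases ih with ⟨b', hb', e'⟩ | ⟨b', hb', e'⟩
    · have hlam0 : ((lam * μ : T.A) : L) ≠ 0 := mul_ne_zero Λ.lam_ne hμ0
      have hμk : ((μ ^ (k + 2) : T.A) : L) ≠ 0 := pow_ne_zero _ hμ0
      have hn1 : n - 1 = n' + 1 := by omega
      have hdv : (∃ z : T.A, μ ^ (k + 2) = lam * μ * z) ∨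
          (∃ z : T.A, lam * μ = μ ^ (k + 2) * z ∧ T.π z = 0) :=
        dvd_or (𝔇 := T.toRData) (μ ^ (k + 2)) (lam * μ) hμk hlam0
      rcases hdv with ⟨z, hz⟩ | ⟨z, hz, -⟩
      · right
        refine 𝒰.contr (μ ^ (k + 1)) (lam * μ) (z * μ ^ (n * (k + 1) - (k + 2)))
          (c₀ * lam ^ n' * μ ^ k) ?_ ?_ _ b' hb' e'
        · have e1 : n * (k + 1) = (k + 2) + (n * (k + 1) - (k + 2)) := by
            have : k + 2 ≤ n * (k + 1) := by nlinarith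
            omega
          rw [← mul_assoc, ← hz, ← pow_add, ← e1, ← pow_mul, mul_comm (k + 1) n]
        · rw [hnA, hn1, pow_succ lam, pow_succ μ]
          ring
      · left
        refine 𝒰.contr (μ ^ (k + 1)) (μ ^ (k + 2)) (μ ^ (n * (k + 1) - (k + 2)))
          (c₀ * lam ^ n' * μ ^ k * z) ?_ ?_ _ b' hb' e'
        · have e1 : n * (k + 1) = (k + 2) + (n * (k + 1) - (k + 2)) := by
            have : k + 2 ≤ n * (k + 1) := by nlinarith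
            omega
          rw [← pow_add, ← e1, ← pow_mul, mul_comm (k + 1) n]
        · have e1 : μ ^ (k + 2) * (c₀ * lam ^ n' * μ ^ k * z) =
              (μ ^ (k + 2) * z) * (c₀ * lam ^ n' * μ ^ k) := by ring
          rw [e1, ← hz, hnA, hn1, pow_succ lam, pow_succ μ]
          ring
    · right
      have hn1 : n - 1 = n' + 1 := by omega
      refine 𝒰.contr (lam * μ) (lam * μ) ((lam * μ) ^ (n' + 1)) n ?_ ?_ _ b' hb' e'
      · rw [← pow_succ', hn']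
      · ring

/-- the final contraction -/
theorem iterate_fine (harch : T.Arch) (hn : n.Prime) (Λ : LamData T.toRData n) {μ : T.A}
    (hμ0 : (μ : L) ≠ 0) (hμ : T.π μ = 0) {f b : F} (hb : b ∈ T.V₁.O)
    (hf : f = 1 + algebraMap L F (μ : L) * b) :
    ∃ k₀ : ℕ, ∀ k, k₀ ≤ k → ∃ s, InM T.V₁ s ∧
      𝒰.U^[k] f = 1 + algebraMap L F (Λ.lam : L) ^ n * s := by
  let lam : T.A := Λ.lam
  let c₀ : T.A := Λ.c₀
  have hnA : (n : T.A) = c₀ * lam ^ (n - 1) := Λ.hnA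
  obtain ⟨M, c, hc, -⟩ := T.exists_small harch hμ0 hμ
    (a := ((Λ.lam : L) * μ)⁻¹) (inv_ne_zero (mul_ne_zero Λ.lam_ne hμ0))
  have hlam0 : (Λ.lam : L) ≠ 0 := Λ.lam_ne
  have hM : (μ : L) ^ M = (Λ.lam : L) * μ * c := by
    rw [hc]; field_simp
  -- from step `M` on we are in `1 + λ μ O`
  have key : ∀ k, M ≤ k → ∃ b' ∈ T.V₁.O,
      𝒰.U^[k] f = 1 + algebraMap L F ((Λ.lam : L) * μ) * b' := by
    intro k hk
    rcases 𝒰.iterate_aux hn Λ hμ0 hb hf k with ⟨b', hb', e'⟩ | h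
    · refine ⟨algebraMap L F ((c * μ ^ (k + 1 - M) : T.A) : L) * b',
        mul_mem ((T.V₁.mem_iff _).mpr (Subtype.mem _)) hb', ?_⟩
      rw [e', ← mul_assoc, ← map_mul]
      congr 3
      have e1 : k + 1 = M + (k + 1 - M) := by omega
      show (μ : L) ^ (k + 1) = (Λ.lam : L) * μ * (c * (μ : L) ^ (k + 1 - M))
      rw [← mul_assoc, ← hM, ← pow_add, ← e1]
    · exact h
  refine ⟨M + 1, fun k hk => ?_⟩
  obtain ⟨k', rfl⟩ : ∃ k', k = k' + 1 := ⟨k - 1, by omega⟩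
  obtain ⟨b', hb', e'⟩ := key k' (by omega)
  have hl : lam ^ n = lam ^ (n - 1) * lam := by rw [← pow_succ, Nat.sub_add_cancel hn.one_le]
  obtain ⟨b'', hb'', e''⟩ := 𝒰.contr (lam * μ) (lam ^ n * μ) (μ ^ (n - 1)) c₀ (by
      rw [mul_pow, mul_assoc, ← pow_succ', Nat.sub_add_cancel hn.one_le]) (by
      rw [hnA, hl]
      ring) _ b' hb' e'
  refine ⟨algebraMap L F (μ : L) * b'', InM.mul_right (InM.const hμ) hb'', ?_⟩
  rw [Function.iterate_succ_apply', e'', ← mul_assoc]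
  congr 2
  show algebraMap L F ((Λ.lam : L) ^ n * μ) = _
  rw [map_mul, map_pow]

variable [IsFF L F] [HasPrincipalDivisors L F] [IsAlgClosed L]

/-- **Contraction**: a torsion function whose residue is an `n`-th power is locally fine. -/
theorem locFine₁ (harch : T.Arch) (hn : n.Prime) (Λ : LamData T.toRData n)
    {D : Divisor L F} {f : F} (hf : IsDiv (n • D) f) {a : F₁} (ha : a ≠ 0)
    (hr : T.V₁.HasRes f (a ^ n)) (hD : Lin (𝒰.dU (𝒰.dU D)) D) : LocFine T.V₁ n Λ.lam f := by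
  obtain ⟨c, hc, hcO, hres⟩ := hr
  obtain ⟨d, hd⟩ := IsAlgClosed.exists_pow_nat_eq c hn.pos
  have hd0 : d ≠ 0 := by
    rintro rfl
    rw [zero_pow hn.ne_zero] at hd
    exact hc hd.symm
  obtain ⟨g, hg₁, -, eg₁, -⟩ := T.surj a 0
  have hg0 : g ≠ 0 := by
    rintro rfl
    have : (⟨0, hg₁⟩ : T.V₁.O) = 0 := rfl
    rw [this, map_zero] at eg₁
    exact ha eg₁.symm
  obtain ⟨hgi, egi⟩ := T.V₁.inv_mem (f := ⟨g, hg₁⟩) (by rw [eg₁]; exact ha)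
  change g⁻¹ ∈ T.V₁.O at hgi
  have hf0 := hf.1
  set f₀ : F := f * (algebraMap L F d * g⁻¹) ^ n with hf₀
  have hdF : algebraMap L F d ≠ 0 := by rwa [Ne, map_eq_zero]
  have hf₀' : f₀ = (c • f) * g⁻¹ ^ n := by
    rw [hf₀, mul_pow, ← map_pow, hd, Algebra.smul_def]; ring
  have hf₀O : f₀ ∈ T.V₁.O := by rw [hf₀']; exact mul_mem hcO (pow_mem hgi n)
  have hf₀r : T.V₁.r ⟨f₀, hf₀O⟩ = 1 := by
    have h1 : (⟨f₀, hf₀O⟩ : T.V₁.O) = ⟨c • f, hcO⟩ * ⟨g⁻¹, hgi⟩ ^ n := Subtype.ext hf₀'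
    have h2 : T.V₁.r ⟨g⁻¹, hgi⟩ = a⁻¹ := by rw [egi, eg₁]
    rw [h1, map_mul, map_pow, hres, h2, ← mul_pow, mul_inv_cancel₀ ha, one_pow]
  have hsub : f₀ - 1 ∈ T.V₁.O := sub_mem hf₀O (one_mem _)
  have hsubr : T.V₁.r ⟨f₀ - 1, hsub⟩ = 0 := by
    have : (⟨f₀ - 1, hsub⟩ : T.V₁.O) = ⟨f₀, hf₀O⟩ - 1 := rfl
    rw [this, map_sub, hf₀r, map_one, sub_self]
  obtain ⟨μ, hμ0, hμ, b, hb, hfb⟩ : ∃ μ : T.A, (μ : L) ≠ 0 ∧ T.π μ = 0 ∧ ∃ b : F, b ∈ T.V₁.O ∧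
      f₀ = 1 + algebraMap L F (μ : L) * b := by
    by_cases h0 : f₀ - 1 = 0
    · exact ⟨Λ.lam, Λ.lam_ne, Λ.π_lam, 0, zero_mem _, by
        rw [mul_zero, add_zero]; exact sub_eq_zero.mp h0⟩
    · obtain ⟨ε, hε0, hε, y, hy⟩ := T.V₁.exists_dvd T.π_ker (f := ⟨f₀ - 1, hsub⟩) hsubr h0
      refine ⟨ε, hε0, hε, y, y.2, ?_⟩
      change f₀ - 1 = _ at hy
      linear_combination hy
  obtain ⟨k₀, hk₀⟩ := 𝒰.iterate_fine harch hn Λ hμ0 hμ hb hfb
  obtain ⟨s, hs, es⟩ := hk₀ (2 * k₀) (by omega)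
  -- divisors
  have hgd : IsDiv (dv (K := L) (algebraMap L F d * g⁻¹) (mul_ne_zero hdF (inv_ne_zero hg0)))
      (algebraMap L F d * g⁻¹) := ⟨mul_ne_zero hdF (inv_ne_zero hg0), fun v => dv_apply _ _⟩
  set G := dv (K := L) (algebraMap L F d * g⁻¹) (mul_ne_zero hdF (inv_ne_zero hg0)) with hG
  have hdiv₀ : IsDiv (n • (D + G)) f₀ := by
    rw [smul_add]
    exact hf.mul (hgd.pow n)
  have hlinG : Lin (D + G) D := ⟨_, by rw [add_sub_cancel_left]; exact hgd⟩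
  have hlin : Lin (𝒰.dU^[2 * k₀] (D + G)) D := by
    have h1 : Lin (𝒰.dU (𝒰.dU (D + G))) (D + G) :=
      ((𝒰.dU_lin (𝒰.dU_lin hlinG)).trans hD).trans hlinG.symm
    exact (𝒰.dU_iter h1 k₀).trans hlinG
  have hdivk := 𝒰.isDiv_iter hdiv₀ (2 * k₀)
  have hiter : ∀ k, 𝒰.dU^[k] (n • (D + G)) = n • 𝒰.dU^[k] (D + G) := by
    intro k
    induction k with
    | zero => rfl
    | succ k ih => rw [Function.iterate_succ_apply', ih, map_nsmul, Function.iterate_succ_apply']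
  rw [hiter] at hdivk
  obtain ⟨h, hh⟩ := hlin
  have hdiv2 : IsDiv (n • 𝒰.dU^[2 * k₀] (D + G)) (f * h ^ n) := by
    have h3 := hf.mul (hh.pow n)
    rwa [← smul_add, add_sub_cancel] at h3
  obtain ⟨c', hc', e'⟩ := hdivk.eq_const hdiv2
  obtain ⟨d', hd'⟩ := IsAlgClosed.exists_pow_nat_eq c' hn.pos
  have hd'0 : d' ≠ 0 := by
    rintro rfl
    rw [zero_pow hn.ne_zero] at hd'
    exact hc' hd'.symm
  refine ⟨algebraMap L F d' * h, s, mul_ne_zero (by rwa [Ne, map_eq_zero]) hh.1, hs, ?_⟩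
  rw [← es, e', mul_pow, ← map_pow, hd']
  ring

/-- **Contraction at both valuations.** -/
theorem isFine (harch : T.Arch) (hn : n.Prime) (Λ : LamData T.toRData n)
    {D D' : Divisor L F} {f : F} (hf : IsDiv (n • D) f) (hf' : IsDiv (n • D') (𝒰.w f))
    {a a' : F₁} (ha : a ≠ 0) (ha' : a' ≠ 0)
    (hr : T.V₁.HasRes f (a ^ n)) (hr' : T.V₁.HasRes (𝒰.w f) (a' ^ n))
    (hD : Lin (𝒰.dU (𝒰.dU D)) D) (hD' : Lin (𝒰.dU (𝒰.dU D')) D') :
    ∃ D₀ : Divisor L F, IsFine Λ D₀ ∧ Lin D D₀ := by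
  have h1 := 𝒰.locFine₁ harch hn Λ hf ha hr hD
  have h2 := 𝒰.locFine_w (𝒰.locFine₁ harch hn Λ hf' ha' hr' hD')
  obtain ⟨h, hh, hfine⟩ := isFine_of_locFine harch hn Λ (D := D) (f := f) (fun v => by
    rw [← hf.2 v, Finsupp.smul_apply, nsmul_eq_mul]) h1 h2
  exact ⟨_, hfine, h⁻¹, by
    rw [sub_add_cancel_left]
    exact IsDiv.inv ⟨hh, fun v => dv_apply _ _⟩⟩

end UData

end Fermat.Agent.LLp
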