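import Fermat.Agent.LLp.Slope

/-!
# Rational structures on the two valuations
-/

set_option autoImplicit false

noncomputable section

open AlgebraicCurve Module IntermediateField

namespace Fermat.Agent.LLp

open Fermat.Agent.BadRed
open Fermat.Agent.FunField Fermat.Agent.FunField.PlaceLemmas Fermat.Agent.Deuring

variable {L k : Type*} [Field L] [Field k]
variable {F F₁ : Type*} [Field F] [Field F₁] [Algebra L F] [Algebra k F₁]
  {T : TwoVal L k F F₁}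

/-- `c f` is a unit at `V` -/
def IsVl {A : ValuationSubring L} {π : A →+* k} (V : ResVal A π F F₁) (f : F) (c : L) : Prop :=
  c ≠ 0 ∧ Unit₁ V (c • f)

section IsVl

variable {A : ValuationSubring L} {π : A →+* k} {V : ResVal A π F F₁}

theorem Unit₁.ne_zero {f : F} (h : Unit₁ V f) : f ≠ 0 := V.ne_zero_of_r h.2

theorem Unit₁.inv {f : F} (h : Unit₁ V f) : Unit₁ V f⁻¹ := by
  obtain ⟨h1, h2⟩ := h
  obtain ⟨h3, h4⟩ := V.inv_mem h2
  exact ⟨h3, by rw [h4]; exact inv_ne_zero h2⟩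

theorem IsVl.ne_zero {f : F} {c : L} (h : IsVl V f c) : f ≠ 0 := by
  rintro rfl
  exact h.2.ne_zero (smul_zero _)

theorem IsVl.mul {f g : F} {c d : L} (hf : IsVl V f c) (hg : IsVl V g d) :
    IsVl V (f * g) (c * d) := by
  refine ⟨mul_ne_zero hf.1 hg.1, ?_⟩
  have : (c * d) • (f * g) = (c • f) * (d • g) := by
    rw [Algebra.smul_def, Algebra.smul_def, Algebra.smul_def, map_mul]
    ring
  rw [this]
  exact isUnit_mul hf.2 hg.2

theorem IsVl.inv {f : F} {c : L} (hf : IsVl V f c) : IsVl V f⁻¹ c⁻¹ := by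
  refine ⟨inv_ne_zero hf.1, ?_⟩
  have : c⁻¹ • f⁻¹ = (c • f)⁻¹ := by
    rw [Algebra.smul_def, Algebra.smul_def, mul_inv, map_inv₀]
  rw [this]
  exact hf.2.inv

theorem IsVl.pow {f : F} {c : L} (hf : IsVl V f c) (m : ℕ) : IsVl V (f ^ m) (c ^ m) := by
  induction m with
  | zero =>
    refine ⟨by simp, ?_⟩
    rw [pow_zero, pow_zero, one_smul]
    refine ⟨one_mem _, ?_⟩
    have : (⟨1, one_mem _⟩ : V.O) = 1 := rfl
    rw [this, map_one]
    exact one_ne_zero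
  | succ m ih => rw [pow_succ, pow_succ]; exact ih.mul hf

theorem IsVl.of_unit {f : F} (h : Unit₁ V f) : IsVl V f 1 :=
  ⟨one_ne_zero, by rw [one_smul]; exact h⟩

theorem unit_const {c : L} (h : Unit₁ V (algebraMap L F c)) : A.valuation c = 1 := by
  have hc0 : c ≠ 0 := by
    rintro rfl
    exact h.ne_zero (map_zero _)
  have h1 : c ∈ A := (V.mem_iff c).mp h.1
  have h2 : c⁻¹ ∈ A := by
    rw [← V.mem_iff, map_inv₀]
    exact h.inv.1
  apply le_antisymm ((A.valuation_le_one_iff c).mpr h1)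
  have h3 := (A.valuation_le_one_iff c⁻¹).mpr h2
  rw [map_inv₀] at h3
  have h4 : A.valuation c ≠ 0 := (Valuation.ne_zero_iff _).mpr hc0
  exact (inv_le_one₀ (zero_lt_iff.mpr h4)).mp h3

theorem IsVl.unique {f : F} {c d : L} (hc : IsVl V f c) (hd : IsVl V f d) :
    A.valuation c = A.valuation d := by
  have h1 := hc.mul hd.inv
  rw [mul_inv_cancel₀ hc.ne_zero] at h1
  have h2 : Unit₁ V (algebraMap L F (c * d⁻¹)) := by
    have := h1.2
    rwa [← Algebra.algebraMap_eq_smul_one] at this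
  have h3 := unit_const h2
  rw [map_mul, map_inv₀] at h3
  have h4 : A.valuation d ≠ 0 := (Valuation.ne_zero_iff _).mpr hd.1
  field_simp at h3
  exact h3

theorem exists_isVl {f : F} (hf : f ≠ 0) : ∃ c, IsVl V f c := by
  obtain ⟨c, hc, h, hr⟩ := V.scale f hf
  exact ⟨c, hc, h, hr⟩

end IsVl

variable {n : ℕ}

/-- Rational structure: `I` the inertia elements, `J` those fixing the class. -/
structure RatData (p : FrobPencil T.toRData) (𝒰 : UData T n) (Λ : LamData T.toRData n) where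
  I : Set (SemilinearAut L F)
  J : Set (SemilinearAut L F)
  hJI : J ⊆ I
  hE : ∀ s ∈ I, s • p.E = p.E
  hw : ∀ s ∈ I, ∀ f : F, s • 𝒰.w f = 𝒰.w (s • f)
  hU : ∀ s ∈ I, ∀ f : F, s • 𝒰.U f = 𝒰.U (s • f)
  hUc : ∀ c : L, c ≠ 0 → ∃ d : L, d ≠ 0 ∧ 𝒰.U (algebraMap L F c) = algebraMap L F d
  scale₁ : ∀ f : F, f ≠ 0 → (∀ s ∈ J, s • f = f) → ∃ ρ : L, IsVl T.V₁ f ρ ∧
    ∀ s ∈ J, s • algebraMap L F ρ = algebraMap L F ρ
  scale₂ : ∀ f : F, f ≠ 0 → (∀ s ∈ J, s • f = f) → ∃ ρ : L, IsVl T.V₂ f ρ ∧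
    ∀ s ∈ J, s • algebraMap L F ρ = algebraMap L F ρ
  r1₁ : ∀ f ∈ T.V₁.O, (∀ s ∈ J, s • f = f) → ∀ s ∈ I, ∃ z ∈ T.V₁.O,
    s • f = f + algebraMap L F (Λ.lam : L) * z
  r1₂ : ∀ f ∈ T.V₂.O, (∀ s ∈ J, s • f = f) → ∀ s ∈ I, ∃ z ∈ T.V₂.O,
    s • f = f + algebraMap L F (Λ.lam : L) * z
  rf : ∀ (D : Divisor L F) (h : F), IsDiv D h → (∀ s ∈ J, s • D = D) →
    ∃ h' : F, IsDiv D h' ∧ ∀ s ∈ J, s • h' = h'
  orth : ∀ V : Submodule L F, FiniteDimensional L V → (∀ s ∈ J, ∀ v ∈ V, s • v ∈ V) →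
    ∀ γ₁ γ₂ : L, γ₁ ≠ 0 → γ₂ ≠ 0 → ∃ (b : Fin (finrank L V) → F) (_ : ∀ j, b j ∈ V)
      (h₁ : ∀ j, γ₁ • b j ∈ T.V₁.O) (h₂ : ∀ j, γ₂ • b j ∈ T.V₂.O),
      LinearIndependent k (fun j => ((T.V₁.r ⟨_, h₁ j⟩, T.V₂.r ⟨_, h₂ j⟩) : F₁ × F₁)) ∧
        ∀ j, ∃ c : L, c ≠ 0 ∧ ∀ s ∈ J, s • (c • b j) = c • b j

theorem smul_isDiv (s : SemilinearAut L F) {D : Divisor L F} {f : F} (h : IsDiv D f) :
    IsDiv (s • D) (s • f) := by
  refine ⟨fun h0 => h.1 ((smul_eq_zero_iff_eq s).mp h0), fun v => ?_⟩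
  rw [SemilinearAut.divisor_smul_apply, h.2]
  have := SemilinearAut.ord_smul s (s⁻¹ • v) f
  rw [smul_inv_smul] at this
  exact this.symm

namespace RatData

variable {p : FrobPencil T.toRData} {𝒰 : UData T n} {Λ : LamData T.toRData n}
  (R : RatData p 𝒰 Λ)

theorem cc₁ {f : F} (hf : f ≠ 0) (hJ : ∀ s ∈ R.J, s • f = f) {s : SemilinearAut L F}
    (hs : s ∈ R.I) : CC T.V₁ (algebraMap L F (Λ.lam : L)) (s • f * f⁻¹) := by
  obtain ⟨ρ, hρ, hρJ⟩ := R.scale₁ f hf hJ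
  have hJ' : ∀ s ∈ R.J, s • (ρ • f) = ρ • f := by
    intro s hs
    rw [Algebra.smul_def, smul_mul', hρJ s hs, hJ s hs]
  obtain ⟨z, hz, e⟩ := R.r1₁ (ρ • f) hρ.2.1 hJ' s hs
  have hinv := hρ.2.inv.1
  have hne := hρ.2.ne_zero
  have h1 : s • f * f⁻¹ = algebraMap L F (ρ * (SemilinearAut.baseAut s ρ)⁻¹) *
      (1 + algebraMap L F (Λ.lam : L) * (z * (ρ • f)⁻¹)) := by
    have hρ0 : algebraMap L F ρ ≠ 0 := by rw [Ne, map_eq_zero]; exact hρ.1
    have hsρ : algebraMap L F (SemilinearAut.baseAut s ρ) ≠ 0 := by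
      rw [Ne, map_eq_zero, map_eq_zero]; exact hρ.1
    have e' : algebraMap L F (SemilinearAut.baseAut s ρ) * (s • f) =
        algebraMap L F ρ * f + algebraMap L F (Λ.lam : L) * z := by
      rw [← Algebra.smul_def ρ f, ← e, Algebra.smul_def, smul_mul', SemilinearAut.smul_algebraMap]
    rw [Algebra.smul_def, map_mul, map_inv₀]
    field_simp
    linear_combination e'
  rw [h1]
  exact ⟨_, mul_ne_zero hρ.1 (inv_ne_zero (by rw [Ne, map_eq_zero]; exact hρ.1)), _,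
    mul_mem hz hinv, rfl⟩

theorem cc₂ {f : F} (hf : f ≠ 0) (hJ : ∀ s ∈ R.J, s • f = f) {s : SemilinearAut L F}
    (hs : s ∈ R.I) : CC T.V₂ (algebraMap L F (Λ.lam : L)) (s • f * f⁻¹) := by
  obtain ⟨ρ, hρ, hρJ⟩ := R.scale₂ f hf hJ
  have hJ' : ∀ s ∈ R.J, s • (ρ • f) = ρ • f := by
    intro s hs
    rw [Algebra.smul_def, smul_mul', hρJ s hs, hJ s hs]
  obtain ⟨z, hz, e⟩ := R.r1₂ (ρ • f) hρ.2.1 hJ' s hs
  have hinv := hρ.2.inv.1
  have hne := hρ.2.ne_zero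
  have h1 : s • f * f⁻¹ = algebraMap L F (ρ * (SemilinearAut.baseAut s ρ)⁻¹) *
      (1 + algebraMap L F (Λ.lam : L) * (z * (ρ • f)⁻¹)) := by
    have hρ0 : algebraMap L F ρ ≠ 0 := by rw [Ne, map_eq_zero]; exact hρ.1
    have hsρ : algebraMap L F (SemilinearAut.baseAut s ρ) ≠ 0 := by
      rw [Ne, map_eq_zero, map_eq_zero]; exact hρ.1
    have e' : algebraMap L F (SemilinearAut.baseAut s ρ) * (s • f) =
        algebraMap L F ρ * f + algebraMap L F (Λ.lam : L) * z := by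
      rw [← Algebra.smul_def ρ f, ← e, Algebra.smul_def, smul_mul', SemilinearAut.smul_algebraMap]
    rw [Algebra.smul_def, map_mul, map_inv₀]
    field_simp
    linear_combination e'
  rw [h1]
  exact ⟨_, mul_ne_zero hρ.1 (inv_ne_zero (by rw [Ne, map_eq_zero]; exact hρ.1)), _,
    mul_mem hz hinv, rfl⟩

include R in
/-- `U` raises the level of congruence. -/
theorem cc_U (hn : n.Prime) {f : F} (hf : CC T.V₁ (algebraMap L F (Λ.lam : L)) f) :
    CC T.V₁ (algebraMap L F ((Λ.lam ^ n : T.A) : L)) (𝒰.U f) := by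
  obtain ⟨c, hc, b, hb, rfl⟩ := hf
  obtain ⟨d, hd, e⟩ := R.hUc c hc
  let lam : T.A := Λ.lam
  let c₀ : T.A := Λ.c₀
  have hnA : (n : T.A) = c₀ * lam ^ (n - 1) := Λ.hnA
  have hl : lam ^ n = lam ^ (n - 1) * lam := by rw [← pow_succ, Nat.sub_add_cancel hn.one_le]
  obtain ⟨b', hb', e'⟩ := 𝒰.contr lam (lam ^ n) 1 c₀ (mul_one _).symm (by
    rw [hnA, hl]; ring) _ b hb rfl
  refine ⟨d, hd, b', hb', ?_⟩
  rw [map_mul, e]
  congr 1

theorem U_inv {f : F} (hf : f ≠ 0) : 𝒰.U f⁻¹ = (𝒰.U f)⁻¹ := by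
  have h : 𝒰.U f * 𝒰.U f⁻¹ = 1 := by rw [← map_mul, mul_inv_cancel₀ hf, map_one]
  exact (eq_inv_of_mul_eq_one_right h)

/-- the cocycle of a constant -/
theorem cc_const {V : ResVal T.A T.π F F₁} (s : SemilinearAut L F) {c : L} (hc : c ≠ 0) {a : T.A} :
    CC V (algebraMap L F (a : L)) (s • algebraMap L F c * (algebraMap L F c)⁻¹) := by
  rw [SemilinearAut.smul_algebraMap, ← map_inv₀, ← map_mul]
  exact CC.const (mul_ne_zero (by rw [Ne, map_eq_zero]; exact hc) (inv_ne_zero hc))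

theorem fixed_of_nsmul {s : SemilinearAut L F} {D : Divisor L F} (hn : n ≠ 0)
    (h : s • (n • D) = n • D) : s • D = D := by
  have h1 : s • (n • D) = n • (s • D) :=
    map_nsmul (DistribSMul.toAddMonoidHom (Divisor L F) s) n D
  rw [h1] at h
  ext v
  have h2 := congrArg (fun E : Divisor L F => E v) h
  simp only [Finsupp.smul_apply, nsmul_eq_mul] at h2
  exact mul_left_cancel₀ (by exact_mod_cast hn) h2

/-- main step: a relation `g = c f^{±1} h^n` transfers the congruence. -/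
theorem cc_transfer (hn : n.Prime) [IsFF L F] [IsAlgClosed L] [HasPrincipalDivisors L F]
    {V : ResVal T.A T.π F F₁}
    (hV : ∀ h : F, h ≠ 0 → (∀ s ∈ R.J, s • h = h) → ∀ s ∈ R.I,
      CC V (algebraMap L F (Λ.lam : L)) (s • h * h⁻¹))
    {D D' : Divisor L F} {f f' : F} (hf : IsDiv (n • D) f) (hf' : IsDiv (n • D') f')
    (hD : ∀ s ∈ R.J, s • D = D) (hD' : ∀ s ∈ R.J, s • D' = D')
    (hlin : Lin D' D ∨ Lin D' (-D)) {s : SemilinearAut L F} (hs : s ∈ R.I)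
    (hcc : CC V (algebraMap L F ((Λ.lam ^ n : T.A) : L)) (s • f' * f'⁻¹)) :
    CC V (algebraMap L F ((Λ.lam ^ n : T.A) : L)) (s • f * f⁻¹) := by
  have hπ : T.π (Λ.lam ^ n : T.A) = 0 := pos_of_lam Λ hn
  rcases hlin with ⟨h, hh⟩ | ⟨h, hh⟩
  · obtain ⟨h, hh, hhJ⟩ := R.rf _ h hh (fun s hs => by rw [smul_sub, hD s hs, hD' s hs])
    have h1 : IsDiv (n • D') (f * h ^ n) := by
      have := hf.mul (hh.pow n)
      rwa [← smul_add, add_sub_cancel] at this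
    obtain ⟨c, hc, e⟩ := hf'.eq_const h1
    have hcF : algebraMap L F c ≠ 0 := by rwa [Ne, map_eq_zero]
    have hf0 := hf.1
    have hf'0 := hf'.1
    have hh0 := hh.1
    have hsc : s • algebraMap L F c ≠ 0 := fun h0 => hcF ((smul_eq_zero_iff_eq s).mp h0)
    have hsh : s • h ≠ 0 := fun h0 => hh0 ((smul_eq_zero_iff_eq s).mp h0)
    have hsf : s • f ≠ 0 := fun h0 => hf0 ((smul_eq_zero_iff_eq s).mp h0)
    have h2 : s • f * f⁻¹ = (s • f' * f'⁻¹) * (s • algebraMap L F c * (algebraMap L F c)⁻¹)⁻¹ *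
        ((s • h * h⁻¹) ^ n)⁻¹ := by
      rw [e, smul_mul', smul_mul', smul_pow', mul_pow, inv_pow]
      field_simp
    rw [h2]
    exact (hcc.mul ((cc_const s hc).inv hπ)).mul (((hV h hh0 hhJ s hs).pow_lam hn Λ).inv hπ)
  · obtain ⟨h, hh, hhJ⟩ := R.rf _ h hh (fun s hs => by rw [smul_sub, smul_neg, hD s hs, hD' s hs])
    have h1 : IsDiv (n • D') (f⁻¹ * h ^ n) := by
      have := hf.inv.mul (hh.pow n)
      rwa [← smul_neg, ← smul_add, add_sub_cancel] at this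
    obtain ⟨c, hc, e⟩ := hf'.eq_const h1
    have hcF : algebraMap L F c ≠ 0 := by rwa [Ne, map_eq_zero]
    have hf0 := hf.1
    have hf'0 := hf'.1
    have hh0 := hh.1
    have hsc : s • algebraMap L F c ≠ 0 := fun h0 => hcF ((smul_eq_zero_iff_eq s).mp h0)
    have hsh : s • h ≠ 0 := fun h0 => hh0 ((smul_eq_zero_iff_eq s).mp h0)
    have hsf : s • f ≠ 0 := fun h0 => hf0 ((smul_eq_zero_iff_eq s).mp h0)
    have h2 : s • f * f⁻¹ = (s • f' * f'⁻¹)⁻¹ * (s • algebraMap L F c * (algebraMap L F c)⁻¹) *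
        (s • h * h⁻¹) ^ n := by
      have hinv : s • f⁻¹ = (s • f)⁻¹ := smul_inv₀' s f
      rw [e, smul_mul', smul_mul', smul_pow', hinv, mul_pow, inv_pow]
      field_simp
    rw [h2]
    exact ((hcc.inv hπ).mul (cc_const s hc)).mul ((hV h hh0 hhJ s hs).pow_lam hn Λ)

/-- `dU` preserves invariance -/
theorem dU_fixed (hn : n ≠ 0) {D : Divisor L F} {f : F} (hf : IsDiv (n • D) f)
    (hfJ : ∀ s ∈ R.J, s • f = f) : ∀ s ∈ R.J, s • 𝒰.dU D = 𝒰.dU D := by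
  intro s hs
  apply fixed_of_nsmul hn
  have h1 := 𝒰.hdU _ _ hf
  rw [map_nsmul] at h1
  have h2 := smul_isDiv s h1
  rw [R.hU s (R.hJI hs), hfJ s hs] at h2
  ext v
  rw [h2.2, h1.2]

theorem isDiv_fixed {D : Divisor L F} {f : F} (hf : IsDiv D f) {s : SemilinearAut L F}
    (hs : s • f = f) : s • D = D := by
  have h2 := smul_isDiv s hf
  rw [hs] at h2
  ext v
  rw [h2.2, hf.2]

/-- **Constancy at the first valuation.** -/
theorem const₁ (hn : n.Prime) [IsFF L F] [IsAlgClosed L] [HasPrincipalDivisors L F]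
    {D : Divisor L F} {f : F} (hf : IsDiv (n • D) f) (hfJ : ∀ s ∈ R.J, s • f = f)
    (hlin : Lin (𝒰.dU D) D ∨ Lin (𝒰.dU D) (-D)) {s : SemilinearAut L F} (hs : s ∈ R.I) :
    CC T.V₁ (algebraMap L F ((Λ.lam ^ n : T.A) : L)) (s • f * f⁻¹) := by
  have hD : ∀ s ∈ R.J, s • D = D := fun s hs =>
    fixed_of_nsmul hn.ne_zero (isDiv_fixed hf (hfJ s hs))
  have h1 : IsDiv (n • 𝒰.dU D) (𝒰.U f) := by
    have := 𝒰.hdU _ _ hf
    rwa [map_nsmul] at this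
  refine R.cc_transfer hn (fun h hh hJ s hs => R.cc₁ hh hJ hs) hf h1 hD
    (R.dU_fixed hn.ne_zero hf hfJ) hlin hs ?_
  rw [R.hU s hs, ← U_inv (𝒰 := 𝒰) hf.1, ← map_mul]
  exact R.cc_U hn (R.cc₁ hf.1 hfJ hs)

/-- transport by `w` -/
theorem cc_w {a : T.A} {f : F} (h : CC T.V₁ (algebraMap L F (a : L)) (𝒰.w f)) :
    CC T.V₂ (algebraMap L F (a : L)) f := by
  obtain ⟨c, hc, b, hb, e⟩ := h
  refine ⟨c, hc, 𝒰.w b, ?_, ?_⟩
  · rw [𝒰.hO, 𝒰.hww]; exact hb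
  · have := congrArg 𝒰.w e
    rw [𝒰.hww, map_mul, AlgEquiv.commutes, map_add, map_one, map_mul, AlgEquiv.commutes] at this
    exact this

/-- **Constancy at the second valuation.** -/
theorem const₂ (hn : n.Prime) [IsFF L F] [IsAlgClosed L] [HasPrincipalDivisors L F]
    {D D' : Divisor L F} {f : F} (hf : IsDiv (n • D) f) (hfJ : ∀ s ∈ R.J, s • f = f)
    (hwf : IsDiv (n • D') (𝒰.w f)) (hlinw : Lin D' D ∨ Lin D' (-D))
    (hlin : Lin (𝒰.dU D) D ∨ Lin (𝒰.dU D) (-D)) {s : SemilinearAut L F} (hs : s ∈ R.I) :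
    CC T.V₂ (algebraMap L F ((Λ.lam ^ n : T.A) : L)) (s • f * f⁻¹) := by
  have hD : ∀ s ∈ R.J, s • D = D := fun s hs =>
    fixed_of_nsmul hn.ne_zero (isDiv_fixed hf (hfJ s hs))
  have hwfJ : ∀ s ∈ R.J, s • 𝒰.w f = 𝒰.w f := fun s hs => by
    rw [R.hw s (R.hJI hs), hfJ s hs]
  have hD' : ∀ s ∈ R.J, s • D' = D' := fun s hs =>
    fixed_of_nsmul hn.ne_zero (isDiv_fixed hwf (hwfJ s hs))
  apply cc_w (𝒰 := 𝒰)
  have e1 : 𝒰.w (s • f * f⁻¹) = s • 𝒰.w f * (𝒰.w f)⁻¹ := by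
    rw [map_mul, map_inv₀, R.hw s hs]
  rw [e1]
  -- the relation with `f`
  have hlin' : Lin D D' ∨ Lin D (-D') := by
    rcases hlinw with h | ⟨h, hh⟩
    · exact Or.inl h.symm
    · refine Or.inr ⟨h, ?_⟩
      have : D - -D' = D' - -D := by abel
      rwa [this]
  exact R.cc_transfer hn (fun h hh hJ s hs => R.cc₁ hh hJ hs) hwf hf hD' hD hlin' hs
    (R.const₁ hn hf hfJ hlin hs)

end RatData

end Fermat.Agent.LLp
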