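import Fermat.Agent.LLp.PowRes

/-!
# The main abstract theorem: existence of a class on the residual curve
-/

set_option autoImplicit false

noncomputable section

open AlgebraicCurve Module IntermediateField

namespace Fermat.Agent.LLp

open Fermat.Agent.BadRed
open Fermat.Agent.FunField Fermat.Agent.FunField.PlaceLemmas Fermat.Agent.Deuring

variable {L k : Type*} [Field L] [Field k]
variable {F F₁ : Type*} [Field F] [Field F₁] [Algebra L F] [Algebra k F₁]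
  {T : TwoVal L k F F₁} {n : ℕ} {p : FrobPencil T.toRData} {𝒰 : UData T n}
  {Λ : LamData T.toRData n}

/-- inertia acts trivially on residues, and on `λ` through the cyclotomic character `χ`. -/
structure InData (R : RatData p 𝒰 Λ) where
  hγ : ∀ s ∈ R.I, ∃ γ : TwoVal.GalV T, γ.g = s ∧ ∀ a, γ.σ a = a
  ht : ∀ s ∈ R.I, s • (p.t : F) = p.t
  χ : SemilinearAut L F → ℕ
  hχ : ∀ s ∈ R.I, ∃ c : T.toRData.A, s • algebraMap L F (Λ.lam : L) =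
    algebraMap L F ((Λ.lam * c : T.toRData.A) : L) ∧ T.toRData.π c = χ s
  s₀ : SemilinearAut L F
  hs₀ : s₀ ∈ R.I
  hχ₀ : ¬ (n : ℤ) ∣ (χ s₀ : ℤ) - 1

variable {R : RatData p 𝒰 Λ} (ID : InData R)

section Easy

variable [IsFF L F] [IsAlgClosed L]

include ID in
/-- invariance of the residue under inertia -/
theorem powRes_of_char (hn : n.Prime) {D : Divisor L F} {f : F} (hf : IsDiv (n • D) f)
    (h : Lin (ID.s₀ • D) (ID.χ ID.s₀ • D)) : PowRes T.V₁ n f := by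
  obtain ⟨γ, hγ, hσ⟩ := ID.hγ _ ID.hs₀
  obtain ⟨a, ha, hr⟩ := ResVal.exists_hasRes (V := T.V₁) hf.1
  obtain ⟨g, hg⟩ := h
  -- `s₀ f = c f ^ χ g ^ n`
  have h1 : IsDiv (n • (ID.s₀ • D)) (f ^ (ID.χ ID.s₀) * g ^ n) := by
    have := (hf.pow (ID.χ ID.s₀)).mul (hg.pow n)
    have e : ID.χ ID.s₀ • n • D + n • (ID.s₀ • D - ID.χ ID.s₀ • D) = n • (ID.s₀ • D) := by
      rw [smul_sub, smul_comm]; abel
    rwa [e] at this
  have h2 : IsDiv (n • (ID.s₀ • D)) (ID.s₀ • f) := by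
    have := smul_isDiv ID.s₀ hf
    have e : ID.s₀ • (n • D) = n • (ID.s₀ • D) :=
      map_nsmul (DistribSMul.toAddMonoidHom (Divisor L F) ID.s₀) n D
    rwa [e] at this
  obtain ⟨c, hc, e⟩ := h2.eq_const h1
  have h3 : T.V₁.HasRes (ID.s₀ • f) a := by
    have := γ.hasRes₁ hr
    rw [hγ, hσ] at this
    exact this
  -- `s₀ f / f` has residue one
  have hf0 := hf.1
  have hsf0 : ID.s₀ • f ≠ 0 := h2.1
  have h4 : PowRes T.V₁ n (ID.s₀ • f * f⁻¹) := by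
    refine ⟨1, one_ne_zero, ?_⟩
    have := h3.mul (hr.inv ha)
    rwa [mul_inv_cancel₀ ha, ← one_pow n] at this
  have hcF : algebraMap L F c ≠ 0 := by rwa [Ne, map_eq_zero]
  have hg0 := hg.1
  have h5 : f ^ ((ID.χ ID.s₀ : ℤ) - 1) = (algebraMap L F c)⁻¹ * (ID.s₀ • f * f⁻¹) * (g ^ n)⁻¹ := by
    rw [e, zpow_sub₀ hf0, zpow_natCast, zpow_one]
    field_simp
  apply PowRes.of_zpow hf0 (m := (ID.χ ID.s₀ : ℤ) - 1)
  · exact ((Int.prime_iff_natAbs_prime.mpr (by simpa using hn)).coprime_iff_not_dvd.mpr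
      ID.hχ₀).symm
  · rw [h5]
    exact (((PowRes.const hc).inv).mul h4).mul (PowRes.of_pow hg0).inv

/-- **`PowRes` classes are fine.** -/
theorem fine_of_powRes (harch : T.Arch) (hn : n.Prime) {D : Divisor L F} [HasPrincipalDivisors L F]
    {f : F} (hf : IsDiv (n • D) f) (hp : PowRes T.V₁ n f)
    (hU : Sg (𝒰.dU D) D) (hw : Sg (SemilinearAut.ofAlgAut 𝒰.w • D) D) :
    ∃ D₀ : Divisor L F, IsFine Λ D₀ ∧ Lin D D₀ := by
  have hf' : IsDiv (n • (SemilinearAut.ofAlgAut 𝒰.w • D)) (𝒰.w f) := by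
    have := smul_isDiv (SemilinearAut.ofAlgAut 𝒰.w) hf
    have e : SemilinearAut.ofAlgAut 𝒰.w • (n • D) = n • (SemilinearAut.ofAlgAut 𝒰.w • D) :=
      map_nsmul (DistribSMul.toAddMonoidHom (Divisor L F) (SemilinearAut.ofAlgAut 𝒰.w)) n D
    rwa [e] at this
  have hp' : PowRes T.V₁ n (𝒰.w f) := hp.of_lin hf hf' hw
  obtain ⟨a, ha, hr⟩ := hp
  obtain ⟨a', ha', hr'⟩ := hp'
  have hΦ : ∀ {D E : Divisor L F}, Lin D E → Lin (𝒰.dU D) (𝒰.dU E) := fun h => 𝒰.dU_lin h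
  exact 𝒰.isFine harch hn Λ hf hf' ha ha' hr hr' (hU.twice hΦ) ((hw.transfer hΦ hU).twice hΦ)

end Easy

section Main

variable [IsFF L F] [IsFF k F₁] [HasPrincipalDivisors L F] [IsAlgClosed L]
    [HasPrincipalDivisors k F₁] [IsAlgClosed k]

include ID in
/-- **inertia acts on fine classes through `χ`.** -/
theorem lin_of_fine (hn : n.Prime) [CharP k n] {G g₁ : ℤ} (H : FrobPencil.Hyp p G g₁)
    {D D₀ : Divisor L F} (hD₀ : IsFine Λ D₀) (hlin : Lin D D₀) {s : SemilinearAut L F}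
    (hs : s ∈ R.I) : Lin (s • D) (ID.χ s • D) := by
  obtain ⟨γ, rfl, hσ⟩ := ID.hγ _ hs
  obtain ⟨c, hc, hcχ⟩ := ID.hχ _ hs
  obtain ⟨w, hw0, hw⟩ := hD₀.inertia H hn (γ.toGalEl (ID.ht _ hs)) hσ hc hcχ
  have h1 : Lin (γ.g • D₀) (ID.χ γ.g • D₀) := ⟨w, hw0, hw⟩
  exact ((hlin.smul γ.g).trans h1).trans (hlin.nsmul _).symm

/-- **The main theorem, abstract form.** -/
theorem main_abs (harch : T.Arch) (hn : n.Prime) [CharP k n]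
    {G g₁ : ℤ} (H : FrobPencil.Hyp p G g₁)
    (hr2 : ∀ a : L, a ≠ 0 → (∀ s ∈ R.J, s • algebraMap L F a = algebraMap L F a) →
      (∀ s ∈ R.I, T.A.valuation (SemilinearAut.baseAut s a / a - 1) ≤ T.A.valuation Λ.lam) →
        ∃ l : ℤ, T.A.valuation a = T.A.valuation (n : L) ^ l)
    {pl₁ pl₂ : p.Pt → Place k F₁} (hpl₁ : ∀ x, At p.toPencil (p.frPt x) (pl₁ x))
    (hpl₂ : ∀ x : p.Pt, At p.toPencil x.1 (pl₂ x))
    -- the classes `e` and `x`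
    {De : Divisor L F} {fe : F} (hfe : IsDiv (n • De) fe)
    (hUe : Sg (𝒰.dU De) De) (hwe : Sg (SemilinearAut.ofAlgAut 𝒰.w • De) De)
    (hse : ∀ s ∈ R.I, Lin (s • De) (ID.χ s • De))
    {D : Divisor L F} {f : F} (hf : IsDiv (n • D) f) (hfJ : ∀ s ∈ R.J, s • f = f)
    (hU : Sg (𝒰.dU D) D) (hw : Sg (SemilinearAut.ofAlgAut 𝒰.w • D) D)
    (hs : ∀ s ∈ R.I, ∃ b : ℕ, Lin (s • D) (D + b • De))
    (hind : ∀ a b : ℤ, Lin (a • D) (b • De) → (n : ℤ) ∣ a)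
    -- the modular unit
    {u : F} {c : ℕ} (hu0 : u ≠ 0)
    (hu : u⁻¹ ∈ riemannRochSpace (c • p.E)) {b₁ b₂ : F₁} (hb₁ : b₁ ≠ 0) (hb₂ : b₂ ≠ 0)
    (hs₁ : T.V₁.HasRes u b₁) (hs₂ : T.V₂.HasRes u b₂) [Fintype p.Pt]
    (hδ₁ : ∀ x, ¬ (n : ℤ) ∣ (pl₁ x).ord b₁) (hδ₂ : ∀ x, ¬ (n : ℤ) ∣ (pl₂ x).ord b₂)
    (hΔ : 0 ≤ ∑ x, (pl₁ x).ord b₁ + ∑ x, (pl₂ x).ord b₂)
    {υ₁ υ₂ : L} (hυ₁ : IsVl T.V₁ u υ₁) (hυ₂ : IsVl T.V₂ u υ₂) {m₀ : ℤ}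
    (hm₀ : ¬ (n : ℤ) ∣ m₀)
    (hυ : T.A.valuation υ₂ = T.A.valuation υ₁ * T.A.valuation (n : L) ^ m₀) :
    ∃ a₁ : F₁, a₁ ≠ 0 ∧ T.V₁.HasRes f a₁ ∧ (∀ (κ : k) (b : F₁), a₁ ≠ κ • b ^ n) ∧
      (∀ v, (∀ x, pl₁ x ≠ v) → (n : ℤ) ∣ v.ord a₁) ∧
      ∃ j < n, ∀ x, (n : ℤ) ∣ (pl₁ x).ord a₁ - j * (pl₁ x).ord b₁ := by
  obtain ⟨a₁, ha₁, hr₁⟩ := ResVal.exists_hasRes (V := T.V₁) hf.1
  obtain ⟨a₂, ha₂, hr₂⟩ := ResVal.exists_hasRes (V := T.V₂) hf.1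
  -- `e` is fine
  obtain ⟨E₀, hE₀, hlinE⟩ := fine_of_powRes (Λ := Λ) harch hn hfe
    (powRes_of_char ID hn hfe (hse _ ID.hs₀)) hUe hwe
  -- `x` is not
  have hx : ¬ PowRes T.V₁ n f := by
    intro hp
    obtain ⟨D₀, hD₀, hlinD⟩ := fine_of_powRes (Λ := Λ) harch hn hf hp hU hw
    have h1 := lin_of_fine ID hn H hD₀ hlinD ID.hs₀
    obtain ⟨b, h2⟩ := hs _ ID.hs₀
    obtain ⟨g, hg⟩ := h2.symm.trans h1
    apply ID.hχ₀
    apply hind _ (b : ℤ)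
    refine ⟨g⁻¹, ?_⟩
    have h3 := hg.inv
    have e : -(D + b • De - ID.χ ID.s₀ • D) =
        ((ID.χ ID.s₀ : ℤ) - 1) • D - (b : ℤ) • De := by
      rw [sub_smul, one_smul, natCast_zsmul, natCast_zsmul]
      abel
    rwa [e] at h3
  have hE : ∀ s ∈ R.I, ∃ E, IsFine Λ E ∧ Lin (s • D) (D + E) := by
    intro s hsI
    obtain ⟨b, hb⟩ := hs s hsI
    exact ⟨b • E₀, hE₀.nsmul hn b, hb.trans ((Lin.refl D).add (hlinE.nsmul b))⟩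
  have hD : ∀ s ∈ R.J, s • D = D := fun s hs =>
    RatData.fixed_of_nsmul hn.ne_zero (RatData.isDiv_fixed hf (hfJ s hs))
  have hf' : IsDiv (n • (SemilinearAut.ofAlgAut 𝒰.w • D)) (𝒰.w f) := by
    have := smul_isDiv (SemilinearAut.ofAlgAut 𝒰.w) hf
    have e : SemilinearAut.ofAlgAut 𝒰.w • (n • D) = n • (SemilinearAut.ofAlgAut 𝒰.w • D) :=
      map_nsmul (DistribSMul.toAddMonoidHom (Divisor L F) (SemilinearAut.ofAlgAut 𝒰.w)) n D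
    rwa [e] at this
  have hc₁ := fun s hs => R.const₁ hn hf hfJ hU (s := s) hs
  have hc₂ := fun s hs => R.const₂ hn hf hfJ hf' hw hU (s := s) hs
  obtain ⟨h1, -, j, hj, h2⟩ := exists_slope harch hn H R hr2 hpl₁ hpl₂ hf hD ha₁ ha₂ hr₁ hr₂ hE
    hc₁ hc₂ hu0 hu hb₁ hb₂ hs₁ hs₂ hδ₁ hδ₂ hΔ hυ₁ hυ₂ hm₀ hυ
  refine ⟨a₁, ha₁, hr₁, fun κ b hκ => hx ?_, h1, j, hj, fun x => (h2 x).1⟩
  obtain ⟨κ', hκ'⟩ := IsAlgClosed.exists_pow_nat_eq κ hn.pos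
  refine ⟨κ' • b, ?_, ?_⟩
  · rintro h0
    apply ha₁
    rw [hκ, ← hκ', ← smul_pow, h0, zero_pow hn.ne_zero]
  · rw [smul_pow, hκ', ← hκ]
    exact hr₁

end Main

end Fermat.Agent.LLp
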