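import Fermat.Agent.LLp.Contract

/-!
# Places attached to the points of the affine ring; poles of normalised residues
-/

set_option autoImplicit false

noncomputable section

open AlgebraicCurve Module IntermediateField

namespace Fermat.Agent.LLp

open Fermat.Agent.BadRed
open Fermat.Agent.FunField Fermat.Agent.FunField.PlaceLemmas Fermat.Agent.Deuring

section Place

variable {L k F F₁ : Type*} [Field L] [Field k] [Field F] [Field F₁] [Algebra L F] [Algebra k F₁]
  {𝔇 : RData L k F (F₁ × F₁)} (p : Pencil 𝔇)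

/-- `v` is the place at the point `φ` of the affine ring -/
def At (φ : p.OO →ₐ[k] k) (v : Place k F₁) : Prop :=
  (∀ a : p.OO, 0 ≤ v.ord (a : F₁)) ∧ ∀ a : p.OO, a ≠ 0 → (φ a = 0 ↔ 0 < v.ord (a : F₁))

variable {p}

theorem At.Eb_eq {φ : p.OO →ₐ[k] k} {v : Place k F₁} (h : At p φ v) : p.Eb v = 0 := by
  rw [p.hEb]
  have h1 : 0 ≤ v.ord p.tb := h.1 ⟨p.tb, 1, by rw [one_smul]; exact p.tb_mem⟩
  exact max_eq_left (by omega)

theorem At.inj {φ ψ : p.OO →ₐ[k] k} {v : Place k F₁} (h : At p φ v) (h' : At p ψ v) : φ = ψ := by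
  ext a
  set b : p.OO := a - algebraMap k p.OO (φ a) with hb
  have h1 : φ b = 0 := by rw [hb, map_sub, AlgHom.commutes]; exact sub_self _
  have h2 : ψ b = 0 := by
    by_cases hb0 : b = 0
    · rw [hb0, map_zero]
    · rw [h'.2 b hb0, ← h.2 b hb0]; exact h1
  rw [hb, map_sub, AlgHom.commutes] at h2
  exact (sub_eq_zero.mp h2).symm

theorem exists_at [IsFF k F₁] (hpos : 0 < Divisor.degree p.Eb) (φ : p.OO →ₐ[k] k) :
    ∃ v : Place k F₁, At p φ v := by
  classical
  let A₀ : Subring F₁ := p.OO.toSubring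
  let I : Ideal A₀ := RingHom.ker (φ : p.OO →+* k)
  have hI : I ≠ ⊤ := RingHom.ker_ne_top _
  obtain ⟨B, hB, hBI⟩ := Ideal.image_subset_nonunits_valuationSubring I hI
  have hK : ∀ c : k, algebraMap k F₁ c ∈ B := fun c => hB (p.OO.algebraMap_mem c)
  have hmem : ∀ a : p.OO, (a : F₁) ∈ B := fun a => hB a.2
  have hnon : ∀ a : p.OO, φ a = 0 → (a : F₁) ∈ B.nonunits := fun a ha =>
    hBI ⟨⟨(a : F₁), a.2⟩, ha, rfl⟩
  have hlt : ∀ a : p.OO, φ a = 0 → B.valuation (a : F₁) < 1 := fun a ha =>
    (ValuationSubring.mem_nonunits_iff (A := B)).mp (hnon a ha)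
  -- a nonzero element of the kernel
  obtain ⟨a₀, ha₀, ha₀0⟩ : ∃ a : p.OO, φ a = 0 ∧ (a : F₁) ≠ 0 := by
    let tO : p.OO := ⟨p.tb, 1, by rw [one_smul]; exact p.tb_mem⟩
    refine ⟨tO - algebraMap k p.OO (φ tO), ?_, ?_⟩
    · rw [map_sub, AlgHom.commutes]; exact sub_self _
    · intro h
      have h1 : p.tb = algebraMap k F₁ (φ tO) := sub_eq_zero.mp h
      have h2 : p.Eb = 0 := by
        ext v
        rw [p.hEb, h1, ord_algebraMap]
        rfl
      rw [h2, map_zero] at hpos
      exact lt_irrefl _ hpos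
  have hBtop : B ≠ ⊤ := by
    intro htop
    have h1 : (a₀ : F₁)⁻¹ ∈ B := by rw [htop]; exact ValuationSubring.mem_top _
    have h2 := (B.valuation_le_one_iff _).mpr h1
    rw [map_inv₀, inv_le_one₀ (zero_lt_iff.mpr ((Valuation.ne_zero_iff _).mpr ha₀0))] at h2
    exact absurd (hlt a₀ ha₀) (not_lt.mpr h2)
  refine ⟨placeOfValuationSubring B hK hBtop, ?_, ?_⟩
  · intro a
    by_cases h0 : (a : F₁) = 0
    · rw [h0]; simp
    rw [← mem_iff_ord_nonneg _ h0]
    exact hmem a
  · intro a ha
    have h0 : (a : F₁) ≠ 0 := fun h => ha (Subtype.ext h)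
    set v := placeOfValuationSubring B hK hBtop with hv
    have hge : 0 ≤ v.ord (a : F₁) := by
      rw [← mem_iff_ord_nonneg _ h0]
      exact hmem a
    -- `0 < ord a ↔ valuation a < 1`
    have hiff : 0 < v.ord (a : F₁) ↔ B.valuation (a : F₁) < 1 := by
      constructor
      · intro h
        by_contra hcon
        push Not at hcon
        have h4 : (a : F₁)⁻¹ ∈ B := by
          rw [← B.valuation_le_one_iff, map_inv₀]
          exact inv_le_one_of_one_le₀ hcon
        have h5 : 0 ≤ v.ord (a : F₁)⁻¹ := by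
          rw [← mem_iff_ord_nonneg _ (inv_ne_zero h0)]
          exact h4
        rw [v.ord_inv] at h5
        omega
      · intro h
        rcases hge.lt_or_eq with h2 | h2
        · exact h2
        exfalso
        have h3 : (a : F₁)⁻¹ ∈ v.toValuationSubring := by
          rw [mem_iff_ord_nonneg v (inv_ne_zero h0), v.ord_inv]; omega
        have h5 := (B.valuation_le_one_iff _).mpr h3
        rw [map_inv₀, inv_le_one₀ (zero_lt_iff.mpr ((Valuation.ne_zero_iff _).mpr h0))] at h5
        exact absurd h (not_lt.mpr h5)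
    rw [hiff]
    refine ⟨hlt a, fun h => ?_⟩
    by_contra hne
    -- `a - φ a` has valuation `< 1`, so the constant `φ a` has
    have h1 := hlt (a - algebraMap k p.OO (φ a)) (by
      rw [map_sub, AlgHom.commutes]; exact sub_self _)
    have h2 : B.valuation (algebraMap k F₁ (φ a)) < 1 := by
      have h3 : algebraMap k F₁ (φ a) = (a : F₁) - ((a - algebraMap k p.OO (φ a) : p.OO) : F₁) := by
        push_cast
        rw [sub_sub_cancel]
      rw [h3]
      exact (Valuation.map_sub _ _ _).trans_lt (max_lt h h1)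
    have h4 : (algebraMap k F₁ (φ a))⁻¹ ∈ B := by
      rw [← map_inv₀]; exact hK _
    have h5 := (B.valuation_le_one_iff _).mpr h4
    have hne' : algebraMap k F₁ (φ a) ≠ 0 := by rwa [Ne, map_eq_zero]
    rw [map_inv₀, inv_le_one₀ (zero_lt_iff.mpr ((Valuation.ne_zero_iff _).mpr hne'))] at h5
    exact absurd h2 (not_lt.mpr h5)

/-- separating function -/
theorem exists_separate [IsFF k F₁] [HasPrincipalDivisors k F₁] [IsAlgClosed k] {g₁ : ℤ}
    (hRR₁ : RRLarge k F₁ g₁)
    (hpos : 0 < Divisor.degree p.Eb) {ι : Type*} [Fintype ι] (φ : ι → (p.OO →ₐ[k] k))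
    (pl : ι → Place k F₁) (hpl : ∀ i, At p (φ i) (pl i)) {v : Place k F₁} (hv : p.Eb v = 0)
    (hne : ∀ i, pl i ≠ v) :
    ∃ a : p.OO, (∀ i, φ i a = 0) ∧ (a : F₁) ≠ 0 ∧ v.ord (a : F₁) = 0 := by
  classical
  obtain ⟨c, hc⟩ := hRR₁
  set Z : Divisor k F₁ := ∑ i, Finsupp.single (pl i) 1 with hZ
  have hdeg1 : ∀ w : Place k F₁, w.deg = 1 := fun w => by
    have : Module.Finite k w.ResidueField := inferInstance
    exact w.deg_eq_one_of_isAlgClosed_of_finite
  obtain ⟨M, hM⟩ : ∃ M : ℕ, c ≤ Divisor.degree (M • p.Eb - Z - Finsupp.single v 1) ∧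
      c ≤ Divisor.degree (M • p.Eb - Z) := by
    refine ⟨(c + Divisor.degree Z + 1).toNat, ?_⟩
    have h1 : Divisor.degree (((c + Divisor.degree Z + 1).toNat) • p.Eb - Z) =
        (c + Divisor.degree Z + 1).toNat * Divisor.degree p.Eb - Divisor.degree Z := by
      rw [map_sub, map_nsmul, nsmul_eq_mul]
    have h2 : c + Divisor.degree Z + 1 ≤ (c + Divisor.degree Z + 1).toNat := Int.self_le_toNat _
    have h3 : ((c + Divisor.degree Z + 1).toNat : ℤ) ≤
        (c + Divisor.degree Z + 1).toNat * Divisor.degree p.Eb := by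
      nlinarith [Int.natCast_nonneg (c + Divisor.degree Z + 1).toNat]
    constructor
    · rw [map_sub, h1, Divisor.degree_single, hdeg1]
      push_cast
      linarith
    · rw [h1]
      linarith
  obtain ⟨hf1, hr1⟩ := hc _ hM.1
  obtain ⟨hf2, hr2⟩ := hc _ hM.2
  have hlt : finrank k (riemannRochSpace (M • p.Eb - Z - Finsupp.single v 1)) <
      finrank k (riemannRochSpace (M • p.Eb - Z)) := by
    have h3 : (finrank k (riemannRochSpace (M • p.Eb - Z - Finsupp.single v 1)) : ℤ) <
        finrank k (riemannRochSpace (M • p.Eb - Z)) := by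
      rw [hr1, hr2, map_sub (Divisor.degree) (M • p.Eb - Z), Divisor.degree_single, hdeg1]
      push_cast
      linarith
    exact_mod_cast h3
  obtain ⟨a, ha, ha'⟩ : ∃ a ∈ riemannRochSpace (M • p.Eb - Z),
      a ∉ riemannRochSpace (M • p.Eb - Z - Finsupp.single v 1) := by
    by_contra hcon
    push Not at hcon
    exact absurd (Submodule.finrank_mono hcon) (not_le.mpr hlt)
  have ha0 : a ≠ 0 := by rintro rfl; exact ha' (Submodule.zero_mem _)
  rw [mem_rr_of_ne ha0] at ha ha'
  have hZ0 : 0 ≤ Z := Finset.sum_nonneg fun i _ => Finsupp.single_nonneg.mpr zero_le_one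
  have hZv : ∀ w, 0 ≤ Z w := fun w => Finsupp.le_def.mp hZ0 w
  have haO : a ∈ riemannRochSpace (M • p.Eb) := by
    rw [mem_rr_of_ne ha0]
    intro w
    have h1 := ha w
    rw [Finsupp.sub_apply] at h1
    have := hZv w
    linarith
  refine ⟨⟨a, M, haO⟩, fun i => ?_, ha0, ?_⟩
  · rw [(hpl i).2 _ (fun h => ha0 (congrArg Subtype.val h))]
    have h1 := ha (pl i)
    rw [Finsupp.sub_apply, Finsupp.smul_apply, (hpl i).Eb_eq, smul_zero] at h1
    have h2 : 1 ≤ Z (pl i) := by
      rw [hZ, Finsupp.finsetSum_apply]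
      have h3 := Finset.single_le_sum (f := fun j => (Finsupp.single (pl j) (1 : ℤ)) (pl i))
        (fun j _ => by
          have : (0 : Place k F₁ →₀ ℤ) ≤ Finsupp.single (pl j) 1 :=
            Finsupp.single_nonneg.mpr zero_le_one
          exact Finsupp.le_def.mp this (pl i)) (Finset.mem_univ i)
      simpa using h3
    show 0 < (pl i).ord a
    omega
  · push Not at ha'
    obtain ⟨w, hw⟩ := ha'
    have h1 := ha w
    have hwv : w = v := by
      by_contra hwv
      rw [Finsupp.sub_apply, Finsupp.single_apply, if_neg (fun h => hwv h.symm), sub_zero] at hw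
      linarith
    subst hwv
    have hZw : Z w = 0 := by
      rw [hZ, Finsupp.finsetSum_apply]
      refine Finset.sum_eq_zero fun i _ => ?_
      rw [Finsupp.single_apply, if_neg (hne i)]
    rw [Finsupp.sub_apply, Finsupp.sub_apply, Finsupp.smul_apply, hv, smul_zero, hZw,
      Finsupp.single_eq_same] at hw
    rw [Finsupp.sub_apply, Finsupp.smul_apply, hv, smul_zero, hZw] at h1
    show w.ord a = 0
    omega

end Place

end Fermat.Agent.LLp
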