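import Fermat.Agent.BadRed.Newton

/-!
# Newton iteration for `p`-th roots close to `1`, in residue characteristic `p`

Variant of `BadRed.theoremK` where `n` is the residue characteristic: everything is measured
relative to `λ ^ n` (`λ = ζ - 1`, `n = c₀ λ ^ (n - 1)` with `c₀` a unit).
-/

set_option autoImplicit false

namespace Fermat.Agent.LLp

open Fermat.Agent.BadRed

/-- second order expansion of `x ↦ x ^ p`, `p` prime. -/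
theorem exists_add_pow_prime_eq₂ {R : Type*} [CommRing R] {p : ℕ} (hp : p.Prime) (a b : R) :
    ∃ Q : R, (a + b) ^ p = a ^ p + p * a ^ (p - 1) * b + p * b ^ 2 * Q + b ^ p := by
  obtain ⟨n, rfl⟩ : ∃ n, p = n + 2 := ⟨p - 2, by have := hp.two_le; omega⟩
  have hdvd : ∀ m ∈ Finset.range n, ∃ c : ℕ, (n + 2).choose (m + 1) = (n + 2) * c := by
    intro m hm
    rw [Finset.mem_range] at hm
    exact hp.dvd_choose_self (by omega) (by omega)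
  choose! c hc using hdvd
  refine ⟨∑ m ∈ Finset.range n, a ^ (m + 1) * b ^ (n - 1 - m) * (c m : R), ?_⟩
  rw [add_pow, Finset.sum_range_succ, Finset.sum_range_succ, Finset.sum_range_succ']
  have h1 : ∀ m ∈ Finset.range n, a ^ (m + 1) * b ^ (n + 2 - (m + 1)) * ((n + 2).choose (m + 1) : R)
      = ((n + 2 : ℕ) : R) * b ^ 2 * (a ^ (m + 1) * b ^ (n - 1 - m) * (c m : R)) := by
    intro m hm
    rw [hc m hm]
    rw [Finset.mem_range] at hm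
    have h2 : n + 2 - (m + 1) = 2 + (n - 1 - m) := by omega
    rw [h2, pow_add b]
    push_cast
    ring
  rw [Finset.sum_congr rfl h1, ← Finset.mul_sum]
  have h3 : n + 2 - (n + 1) = 1 := by omega
  simp only [h3, Nat.choose_self, Nat.choose_zero_right, Nat.cast_one, mul_one, tsub_self,
    pow_zero, one_mul, Nat.sub_zero, pow_one]
  have h4 : ((n + 1 + 1).choose (n + 1) : R) = ((n + 2 : ℕ) : R) := by
    rw [Nat.choose_succ_self_right]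
  rw [show n + 2 = n + 1 + 1 from rfl] at *
  rw [h4]
  simp only [Nat.add_sub_cancel]
  ring

section Step

variable {L : Type*} [Field L] {F : Type*} [Field F] [Algebra L F] {B : Subring F}

lemma exists_pow_add_prime {n : ℕ} (hn : n.Prime) {a b : F} (ha : a ∈ B) (hb : b ∈ B) :
    ∃ Q ∈ B, (a + b) ^ n = a ^ n + n * a ^ (n - 1) * b + n * b ^ 2 * Q + b ^ n := by
  obtain ⟨Q, hQ⟩ := exists_add_pow_prime_eq₂ hn (⟨a, ha⟩ : B) ⟨b, hb⟩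
  refine ⟨Q, Q.2, ?_⟩
  have h := congrArg (fun x : B => (x : F)) hQ
  simpa using h

/-- half of the Newton step: improves `u` -/
lemma newton_half {n : ℕ} (hn : n.Prime) {lam c₀ : L} (hlam0 : lam ≠ 0) (hc₀0 : c₀ ≠ 0)
    (hlam : algebraMap L F lam ∈ B) (hc₀ : algebraMap L F c₀ ∈ B)
    (hc₀' : algebraMap L F c₀⁻¹ ∈ B) (hnc : (n : L) = c₀ * lam ^ (n - 1))
    {U U' V1 V1' W1 E1 X1 Y : Submodule L F} {f : F} (hf : f ∈ B)
    (hone : (1 : F) ∈ V1) (hone' : (1 : F) ∈ V1')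
    (hUV : ∀ x ∈ U, x ^ n * f ∈ V1) (hUV' : ∀ x ∈ U', x ^ n * f ∈ V1')
    (hUY : U ≤ Y) (hUY' : U' ≤ Y) (hVW : V1' ≤ W1)
    (hYW : ∀ y ∈ Y, ∀ x ∈ U', y * x ^ (n - 1) * f ∈ W1)
    (hEX : ∀ e ∈ E1, ∀ x ∈ U, e * x ∈ X1) (hEY : ∀ e ∈ E1, ∀ x ∈ U', e * x ∈ Y)
    {ε : L} (hε0 : ε ≠ 0) (hε : algebraMap L F ε ∈ B)
    (ip1 : InterProp B ε V1 W1 E1) (ip2 : InterProp B ε X1 Y U)
    {u u' : F} (hu : u ∈ U) (huB : u ∈ B) (hu' : u' ∈ U') (huB' : u' ∈ B)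
    (h1 : DivBy B (lam ^ n * ε) (u ^ n * f - 1)) (h1' : DivBy B (lam ^ n * ε) (u' ^ n * f - 1))
    (h2 : DivBy B (lam * ε) (u - u')) :
    ∃ v ∈ U, v ∈ B ∧ DivBy B (lam * ε) (u - v) ∧
      DivBy B (lam ^ n * (ε * ε)) (v ^ n * f - 1) := by
  have hn1 : n ≠ 0 := hn.ne_zero
  have h2n : 2 ≤ n := hn.two_le
  obtain ⟨z, hzB, hz⟩ := h1
  obtain ⟨z', hzB', hz'⟩ := h1'
  obtain ⟨w, hwB, hw⟩ := h2
  have hs0 : lam ^ n * ε ≠ 0 := mul_ne_zero (pow_ne_zero _ hlam0) hε0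
  have ht0 : lam * ε ≠ 0 := mul_ne_zero hlam0 hε0
  have hinv : ∀ (s : L) (_ : s ≠ 0) (t r : F), t = algebraMap L F s * r → r = s⁻¹ • t := by
    intro s hs t r htr
    rw [htr, Algebra.smul_def, ← mul_assoc, ← map_mul, inv_mul_cancel₀ hs, map_one, one_mul]
  have hzV : z ∈ V1 := by
    rw [hinv _ hs0 _ _ hz]
    exact V1.smul_mem _ (V1.sub_mem (hUV u hu) hone)
  have hzV' : z' ∈ V1' := by
    rw [hinv _ hs0 _ _ hz']
    exact V1'.smul_mem _ (V1'.sub_mem (hUV' u' hu') hone')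
  have hwY : w ∈ Y := by
    rw [hinv _ ht0 _ _ hw]
    exact Y.smul_mem _ (Y.sub_mem (hUY hu) (hUY' hu'))
  set l : F := algebraMap L F lam with hl
  set e : F := algebraMap L F ε with he
  set c : F := algebraMap L F c₀ with hc
  set c' : F := algebraMap L F c₀⁻¹ with hc'
  have hl0 : l ≠ 0 := by simpa [hl] using hlam0
  have he0 : e ≠ 0 := by simpa [he] using hε0
  have hcc : c' * c = 1 := by
    rw [hc, hc', ← map_mul, inv_mul_cancel₀ hc₀0, map_one]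
  have hncF : (n : F) = c * l ^ (n - 1) := by
    rw [hc, hl, ← map_pow, ← map_mul, ← hnc, map_natCast]
  have hpl : l ^ (n - 1) * l = l ^ n := by rw [← pow_succ, Nat.sub_add_cancel (by omega)]
  obtain ⟨m, rfl⟩ : ∃ m, n = m + 2 := ⟨n - 2, by omega⟩
  rw [map_mul, map_pow, ← hl, ← he] at hz hz'
  rw [map_mul, ← hl, ← he] at hw
  have hleB : l * e ∈ B := B.mul_mem hlam hε
  -- comparison of z and z'
  obtain ⟨Q, hQB, hQ⟩ := exists_pow_add_prime hn huB' (B.mul_mem hleB hwB)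
  have hueq : u' + l * e * w = u := by rw [← hw]; ring
  rw [hueq] at hQ
  set y₁ : F := z' + c * (w * u' ^ (m + 2 - 1) * f) with hy₁
  have hy₁W : y₁ ∈ W1 := by
    refine W1.add_mem (hVW hzV') ?_
    rw [hc, ← Algebra.smul_def]
    exact W1.smul_mem _ (hYW w hwY u' hu')
  have hy₁B : y₁ ∈ B :=
    B.add_mem hzB' (B.mul_mem hc₀ (B.mul_mem (B.mul_mem hwB (B.pow_mem huB' _)) hf))
  have hcmp : DivBy B ε (z - y₁) := by
    refine ⟨c * l * w ^ 2 * Q * f + e ^ m * w ^ (m + 2) * f, ?_, ?_⟩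
    · refine B.add_mem ?_ ?_
      · exact B.mul_mem (B.mul_mem (B.mul_mem (B.mul_mem hc₀ hlam) (B.pow_mem hwB 2)) hQB) hf
      · exact B.mul_mem (B.mul_mem (B.pow_mem hε _) (B.pow_mem hwB _)) hf
    · apply mul_left_cancel₀ (mul_ne_zero (pow_ne_zero (m + 2) hl0) he0)
      rw [hy₁, ← he]
      rw [hncF] at hQ
      simp only [show m + 2 - 1 = m + 1 from rfl] at hQ ⊢
      linear_combination (-1 : F) * hz + hz' + f * hQ
  obtain ⟨z₁, hz₁E, hz₁B, hz₁⟩ := ip1 z hzV hzB y₁ hy₁W hy₁B hcmp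
  -- lift
  obtain ⟨v₀, hv₀U, hv₀B, hv₀⟩ := ip2 (z₁ * u) (hEX _ hz₁E _ hu) (B.mul_mem hz₁B huB)
    (z₁ * u') (hEY _ hz₁E _ hu') (B.mul_mem hz₁B huB')
    ⟨z₁ * (l * w), B.mul_mem hz₁B (B.mul_mem hlam hwB), by
      rw [← he]; linear_combination z₁ * hw⟩
  refine ⟨u - l * e * (c' * v₀), ?_, ?_, ⟨c' * v₀, B.mul_mem hc₀' hv₀B, by
    rw [map_mul]; ring⟩, ?_⟩
  · refine U.sub_mem hu ?_
    rw [← mul_assoc, hc', hl, he, ← map_mul, ← map_mul, ← Algebra.smul_def]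
    exact U.smul_mem _ hv₀U
  · exact B.sub_mem huB (B.mul_mem hleB (B.mul_mem hc₀' hv₀B))
  · obtain ⟨Q2, hQ2B, hQ2⟩ := exists_pow_add_prime hn huB
      (b := -(l * e * (c' * v₀))) (B.neg_mem (B.mul_mem hleB (B.mul_mem hc₀' hv₀B)))
    obtain ⟨p, hpB, hp⟩ := hz₁
    obtain ⟨s, hsB, hs⟩ := hv₀
    rw [← he] at hp hs
    refine ⟨p - l ^ (m + 2) * z₁ * z + u ^ (m + 1) * f * s + l * (c' * v₀ ^ 2) * Q2 * f +
      e ^ m * (-(c' * v₀)) ^ (m + 2) * f, ?_, ?_⟩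
    · refine B.add_mem (B.add_mem (B.add_mem (B.sub_mem hpB ?_) ?_) ?_) ?_
      · exact B.mul_mem (B.mul_mem (B.pow_mem hlam _) hz₁B) hzB
      · exact B.mul_mem (B.mul_mem (B.pow_mem huB _) hf) hsB
      · exact B.mul_mem (B.mul_mem (B.mul_mem hlam (B.mul_mem hc₀' (B.pow_mem hv₀B 2))) hQ2B) hf
      · exact B.mul_mem (B.mul_mem (B.pow_mem hε _)
          (B.pow_mem (B.neg_mem (B.mul_mem hc₀' hv₀B)) _)) hf
    · rw [map_mul, map_pow, map_mul, ← hl, ← he, sub_eq_add_neg u]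
      rw [hncF] at hQ2
      simp only [show m + 2 - 1 = m + 1 from rfl] at hQ2 ⊢
      linear_combination f * hQ2 + hz + l ^ (m + 2) * e * hp +
        l ^ (m + 2) * e * u ^ (m + 1) * f * hs - l ^ (m + 2) * e * z₁ * hz +
        (-(l ^ (m + 2) * e * u ^ (m + 1) * v₀ * f) +
          l ^ (m + 2) * e ^ 2 * l * c' * v₀ ^ 2 * Q2 * f) * hcc

/-- The full Newton step: improves `u` and `u'` simultaneously. -/
lemma newton_step {n : ℕ} (hn : n.Prime) {lam c₀ : L} (hlam0 : lam ≠ 0) (hc₀0 : c₀ ≠ 0)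
    (hlam : algebraMap L F lam ∈ B) (hc₀ : algebraMap L F c₀ ∈ B)
    (hc₀' : algebraMap L F c₀⁻¹ ∈ B) (hnc : (n : L) = c₀ * lam ^ (n - 1))
    {U U' V1 V1' W1 W1' E1 E1' X1 X1' Y : Submodule L F} {f : F} (hf : f ∈ B)
    (hone : (1 : F) ∈ V1) (hone' : (1 : F) ∈ V1')
    (hUV : ∀ x ∈ U, x ^ n * f ∈ V1) (hUV' : ∀ x ∈ U', x ^ n * f ∈ V1')
    (hUY : U ≤ Y) (hUY' : U' ≤ Y) (hVW : V1' ≤ W1) (hVW' : V1 ≤ W1')
    (hYW : ∀ y ∈ Y, ∀ x ∈ U', y * x ^ (n - 1) * f ∈ W1)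
    (hYW' : ∀ y ∈ Y, ∀ x ∈ U, y * x ^ (n - 1) * f ∈ W1')
    (hEX : ∀ e ∈ E1, ∀ x ∈ U, e * x ∈ X1) (hEY : ∀ e ∈ E1, ∀ x ∈ U', e * x ∈ Y)
    (hEX' : ∀ e ∈ E1', ∀ x ∈ U', e * x ∈ X1') (hEY' : ∀ e ∈ E1', ∀ x ∈ U, e * x ∈ Y)
    {ε : L} (hε0 : ε ≠ 0) (hε : algebraMap L F ε ∈ B)
    (ip1 : InterProp B ε V1 W1 E1) (ip2 : InterProp B ε X1 Y U)
    (ip1' : InterProp B ε V1' W1' E1') (ip2' : InterProp B ε X1' Y U')
    {u u' : F} (hu : u ∈ U) (huB : u ∈ B) (hu' : u' ∈ U') (huB' : u' ∈ B)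
    (h1 : DivBy B (lam ^ n * ε) (u ^ n * f - 1)) (h1' : DivBy B (lam ^ n * ε) (u' ^ n * f - 1))
    (h2 : DivBy B (lam * ε) (u - u')) :
    ∃ v ∈ U, v ∈ B ∧ ∃ v' ∈ U', v' ∈ B ∧ DivBy B (lam ^ n * (ε * ε)) (v ^ n * f - 1) ∧
      DivBy B (lam ^ n * (ε * ε)) (v' ^ n * f - 1) ∧ DivBy B (lam * (ε * ε)) (v - v') := by
  obtain ⟨v, hvU, hvB, hv, hv1⟩ := newton_half hn hlam0 hc₀0 hlam hc₀ hc₀' hnc hf hone hone' hUV
    hUV' hUY hUY' hVW hYW hEX hEY hε0 hε ip1 ip2 hu huB hu' huB' h1 h1' h2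
  obtain ⟨v', hvU', hvB', hv', hv1'⟩ := newton_half hn hlam0 hc₀0 hlam hc₀ hc₀' hnc hf hone' hone
    hUV' hUV hUY' hUY hVW' hYW' hEX' hEY' hε0 hε ip1' ip2' hu' huB' hu huB h1' h1 (by
      have := h2.neg; rwa [neg_sub] at this)
  refine ⟨v, hvU, hvB, v', hvU', hvB', hv1, hv1', ?_⟩
  have h2n : 2 ≤ n := hn.two_le
  -- v - v' is divisible by λ ε
  have h3 : DivBy B (lam * ε) (v - v') := by
    have h := (h2.sub hv).add hv'
    have heq : u - u' - (u - v) + (u' - v') = v - v' := by ring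
    rwa [heq] at h
  obtain ⟨w, hwB, hw⟩ := h3
  set l : F := algebraMap L F lam with hl
  set e : F := algebraMap L F ε with he
  set c : F := algebraMap L F c₀ with hc
  set c' : F := algebraMap L F c₀⁻¹ with hc'
  have hl0 : l ≠ 0 := by simpa [hl] using hlam0
  have he0 : e ≠ 0 := by simpa [he] using hε0
  have hcc : c' * c = 1 := by
    rw [hc, hc', ← map_mul, inv_mul_cancel₀ hc₀0, map_one]
  have hncF : (n : F) = c * l ^ (n - 1) := by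
    rw [hc, hl, ← map_pow, ← map_mul, ← hnc, map_natCast]
  obtain ⟨m, rfl⟩ : ∃ m, n = m + 2 := ⟨n - 2, by omega⟩
  have hleB : l * e ∈ B := B.mul_mem hlam hε
  obtain ⟨Q, hQB, hQ⟩ := exists_pow_add_prime hn hvB' (B.mul_mem hleB hwB)
  rw [map_mul, ← hl, ← he] at hw
  have hveq : v' + l * e * w = v := by rw [← hw]; ring
  rw [hveq, hncF] at hQ
  obtain ⟨a, haB, ha⟩ := hv1
  obtain ⟨a', haB', ha'⟩ := hv1'
  rw [map_mul, map_pow, map_mul, ← hl, ← he] at ha ha'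
  have hwdiv : DivBy B ε w := by
    refine ⟨c' * v' * (a - a') - v' * (l * w ^ 2) * Q * f - c' * v' * (e ^ m * w ^ (m + 2)) * f
      - l ^ (m + 2) * (e * a') * w, ?_, ?_⟩
    · refine B.sub_mem (B.sub_mem (B.sub_mem ?_ ?_) ?_) ?_
      · exact B.mul_mem (B.mul_mem hc₀' hvB') (B.sub_mem haB haB')
      · exact B.mul_mem (B.mul_mem (B.mul_mem hvB' (B.mul_mem hlam (B.pow_mem hwB 2))) hQB) hf
      · exact B.mul_mem (B.mul_mem (B.mul_mem hc₀' hvB')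
          (B.mul_mem (B.pow_mem hε _) (B.pow_mem hwB _))) hf
      · exact B.mul_mem (B.mul_mem (B.pow_mem hlam _) (B.mul_mem hε haB')) hwB
    · apply mul_left_cancel₀ (mul_ne_zero (pow_ne_zero (m + 2) hl0) he0)
      rw [← he]
      simp only [show m + 2 - 1 = m + 1 from rfl] at hQ ⊢
      linear_combination (c' * v') * ha - (c' * v') * ha' - (c' * v' * f) * hQ
        - l ^ (m + 2) * e * w * ha'
        + (-(l ^ (m + 2) * e * w * v' ^ (m + 1) * v' * f)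
          - l ^ (m + 2) * e ^ 2 * l * w ^ 2 * Q * v' * f) * hcc
  obtain ⟨w₂, hw₂B, hw₂⟩ := hwdiv
  exact ⟨w₂, hw₂B, by rw [hw, hw₂, map_mul, map_mul]; ring⟩

end Step

section Main

variable {L : Type*} [Field L] [IsAlgClosed L] {F : Type*} [Field F] [Algebra L F] {B : Subring F}
  (A : ValuationSubring L)

/-- **Theorem K in residue characteristic `n`**. -/
theorem theoremK {n : ℕ} (hn : n.Prime) {lam c₀ : L} (hlam0 : lam ≠ 0) (hc₀0 : c₀ ≠ 0)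
    (hlam : lam ∈ A) (hc₀ : c₀ ∈ A) (hc₀' : c₀⁻¹ ∈ A) (hnc : (n : L) = c₀ * lam ^ (n - 1))
    (hAB : ∀ a ∈ A, algebraMap L F a ∈ B)
    {U U' V1 V1' W1 W1' E1 E1' X1 X1' Y : Submodule L F} {f : F} (hf : f ∈ B)
    (hone : (1 : F) ∈ V1) (hone' : (1 : F) ∈ V1')
    (hUV : ∀ x ∈ U, x ^ n * f ∈ V1) (hUV' : ∀ x ∈ U', x ^ n * f ∈ V1')
    (hUY : U ≤ Y) (hUY' : U' ≤ Y) (hVW : V1' ≤ W1) (hVW' : V1 ≤ W1')
    (hYW : ∀ y ∈ Y, ∀ x ∈ U', y * x ^ (n - 1) * f ∈ W1)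
    (hYW' : ∀ y ∈ Y, ∀ x ∈ U, y * x ^ (n - 1) * f ∈ W1')
    (hEX : ∀ e ∈ E1, ∀ x ∈ U, e * x ∈ X1) (hEY : ∀ e ∈ E1, ∀ x ∈ U', e * x ∈ Y)
    (hEX' : ∀ e ∈ E1', ∀ x ∈ U', e * x ∈ X1') (hEY' : ∀ e ∈ E1', ∀ x ∈ U, e * x ∈ Y)
    (ip1 : ∀ ε ∈ A, ε ≠ 0 → InterProp B ε V1 W1 E1) (ip2 : ∀ ε ∈ A, ε ≠ 0 → InterProp B ε X1 Y U)
    (ip1' : ∀ ε ∈ A, ε ≠ 0 → InterProp B ε V1' W1' E1')
    (ip2' : ∀ ε ∈ A, ε ≠ 0 → InterProp B ε X1' Y U')
    {ι κ : Type*} [Fintype ι] [Fintype κ] (e : ι → F) (φ : κ → F →ₗ[L] L) (heU : ∀ i, e i ∈ U)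
    (hspan : ∀ u ∈ U, u ∈ B → ∃ x : ι → L, (∀ i, x i ∈ A) ∧ u = ∑ i, x i • e i)
    (hφ : ∀ v ∈ V1, (∀ j, φ j v = 0) → v = 0)
    (hφA : ∀ v ∈ V1, v ∈ B → ∀ j, φ j v ∈ A)
    {ε : L} (hεA : ε ∈ A) (hε0 : ε ≠ 0) (harch : ∀ a : L, a ≠ 0 → ∃ k : ℕ, a * (ε ^ k)⁻¹ ∉ A)
    {u u' : F} (hu : u ∈ U) (huB : u ∈ B) (hu' : u' ∈ U') (huB' : u' ∈ B)
    (h1 : DivBy B (lam ^ n * ε) (u ^ n * f - 1)) (h1' : DivBy B (lam ^ n * ε) (u' ^ n * f - 1))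
    (h2 : DivBy B (lam * ε) (u - u')) :
    ∃ w ∈ U, w ^ n * f = 1 := by
  have hstep : ∀ k : ℕ, ∃ v ∈ U, v ∈ B ∧ ∃ v' ∈ U', v' ∈ B ∧
      DivBy B (lam ^ n * ε ^ (2 ^ k)) (v ^ n * f - 1) ∧
      DivBy B (lam ^ n * ε ^ (2 ^ k)) (v' ^ n * f - 1) ∧
      DivBy B (lam * ε ^ (2 ^ k)) (v - v') := by
    intro k
    induction k with
    | zero => exact ⟨u, hu, huB, u', hu', huB', by simpa using h1, by simpa using h1',
        by simpa using h2⟩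
    | succ k ih =>
      obtain ⟨v, hv, hvB, v', hv', hvB', h3, h3', h4⟩ := ih
      have hA : ε ^ (2 ^ k) ∈ A := pow_mem hεA _
      have h0 : ε ^ (2 ^ k) ≠ 0 := pow_ne_zero _ hε0
      have := newton_step hn hlam0 hc₀0 (hAB _ hlam) (hAB _ hc₀) (hAB _ hc₀') hnc hf hone hone'
        hUV hUV' hUY hUY' hVW hVW' hYW hYW' hEX hEY
        hEX' hEY' h0 (hAB _ hA) (ip1 _ hA h0) (ip2 _ hA h0) (ip1' _ hA h0) (ip2' _ hA h0)
        hv hvB hv' hvB' h3 h3' h4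
      rwa [← pow_add, ← two_mul, ← pow_succ'] at this
  refine exists_pow_mul_eq_one (B := B) A e φ heU hspan hone hUV hφ hφA hε0 harch fun k => ?_
  obtain ⟨v, hv, hvB, _, _, _, h3, _, _⟩ := hstep k
  refine ⟨v, hv, hvB, ?_⟩
  have hle : k ≤ 2 ^ k := (Nat.lt_two_pow_self).le
  obtain ⟨d, hd⟩ := Nat.exists_eq_add_of_le hle
  rw [hd, pow_add, ← mul_assoc, mul_comm (lam ^ n), mul_assoc] at h3
  exact h3.weaken (hAB _ (mul_mem (pow_mem hlam _) (pow_mem hεA _)))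

end Main

end Fermat.Agent.LLp
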