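import Fermat.Agent.LLp.Dist
import Fermat.Agent.LLp.Newton
import Fermat.Agent.BadRed.Galois

/-!
# Torsion classes of order the residue characteristic: approximation of `1`
-/

set_option autoImplicit false

noncomputable section

open AlgebraicCurve Module IntermediateField

namespace Fermat.Agent.LLp

open Fermat.Agent.BadRed
open Fermat.Agent.FunField Fermat.Agent.FunField.PlaceLemmas Fermat.Agent.Deuring

section Lam

variable {L k F R : Type*} [Field L] [Field k] [Field F] [CommRing R] [Algebra L F] [Algebra k R]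

/-- `λ = ζ - 1` and `n = c₀ λ ^ (n - 1)`, `c₀ ≡ -1`. -/
structure LamData (𝔇 : RData L k F R) (n : ℕ) where
  lam : 𝔇.A
  lam_ne : (lam : L) ≠ 0
  π_lam : 𝔇.π lam = 0
  c₀ : 𝔇.A
  π_c₀ : 𝔇.π c₀ = -1
  hn : (n : L) = (c₀ : L) * (lam : L) ^ (n - 1)

variable {𝔇 : RData L k F R}

namespace LamData

variable {n : ℕ} (Λ : LamData 𝔇 n)

theorem isUnit_c₀ : IsUnit Λ.c₀ := by
  by_contra h
  have h1 := (𝔇.π_ker _).mpr h
  rw [Λ.π_c₀] at h1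
  have h2 : (1 : k) = 0 := by
    rw [← neg_eq_zero]; exact h1
  exact one_ne_zero h2

theorem c₀_ne : (Λ.c₀ : L) ≠ 0 := by
  obtain ⟨d, hd⟩ := Λ.isUnit_c₀.exists_right_inv
  have hd' : (Λ.c₀ : L) * (d : L) = 1 := congrArg Subtype.val hd
  exact left_ne_zero_of_mul_eq_one hd'

theorem c₀_inv_mem : (Λ.c₀ : L)⁻¹ ∈ 𝔇.A := by
  obtain ⟨d, hd⟩ := Λ.isUnit_c₀.exists_right_inv
  have hd' : (Λ.c₀ : L) * (d : L) = 1 := congrArg Subtype.val hd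
  rw [inv_eq_of_mul_eq_one_right hd']
  exact d.2

end LamData

/-- constants as a ring homomorphism -/
def cstHom (𝔇 : RData L k F R) : 𝔇.A →+* 𝔇.O where
  toFun := 𝔇.cst
  map_one' := Subtype.ext (map_one (algebraMap L F))
  map_mul' a b := Subtype.ext (map_mul (algebraMap L F) (a : L) (b : L))
  map_zero' := Subtype.ext (map_zero (algebraMap L F))
  map_add' a b := Subtype.ext (map_add (algebraMap L F) (a : L) (b : L))

theorem cst_mul (a b : 𝔇.A) : 𝔇.cst (a * b) = 𝔇.cst a * 𝔇.cst b := map_mul (cstHom 𝔇) a b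

theorem cst_add (a b : 𝔇.A) : 𝔇.cst (a + b) = 𝔇.cst a + 𝔇.cst b := map_add (cstHom 𝔇) a b

theorem cst_pow (a : 𝔇.A) (n : ℕ) : 𝔇.cst (a ^ n) = 𝔇.cst a ^ n := map_pow (cstHom 𝔇) a n

theorem cst_one : 𝔇.cst 1 = 1 := map_one (cstHom 𝔇)

theorem cst_zero : 𝔇.cst 0 = 0 := map_zero (cstHom 𝔇)

theorem cst_natCast (n : ℕ) : 𝔇.cst (n : 𝔇.A) = n := map_natCast (cstHom 𝔇) n

theorem LamData.hnA {n : ℕ} (Λ : LamData 𝔇 n) : (n : 𝔇.A) = Λ.c₀ * Λ.lam ^ (n - 1) := by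
  apply Subtype.ext
  have h : (((n : 𝔇.A)) : L) = (n : L) := by simp
  rw [h, Λ.hn]
  rfl

/-- divisibility by a constant, inside `O`. -/
theorem divBy_iff {x : 𝔇.O} {a : 𝔇.A} :
    DivBy 𝔇.O (a : L) (x : F) ↔ ∃ y : 𝔇.O, x = 𝔇.cst a * y := by
  constructor
  · rintro ⟨y, hy, h⟩
    exact ⟨⟨y, hy⟩, Subtype.ext h⟩
  · rintro ⟨y, rfl⟩
    exact ⟨y, y.2, rfl⟩

/-- `x = a y` or `a = y x` with `x`, `y` in the valuation ring: comparison of constants. -/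
theorem dvd_or (x y : 𝔇.A) (hx : (x : L) ≠ 0) (hy : (y : L) ≠ 0) :
    (∃ z : 𝔇.A, x = y * z) ∨ (∃ z : 𝔇.A, y = x * z ∧ 𝔇.π z = 0) := by
  by_cases h : (x : L) / (y : L) ∈ 𝔇.A
  · left
    exact ⟨⟨_, h⟩, Subtype.ext (by
      show (x : L) = (y : L) * ((x : L) / (y : L))
      field_simp)⟩
  · right
    have h1 : (y : L) / (x : L) ∈ 𝔇.A := by
      have := (𝔇.A.mem_or_inv_mem ((x : L) / (y : L))).resolve_left h
      rwa [inv_div] at this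
    refine ⟨⟨_, h1⟩, Subtype.ext (by
      show (y : L) = (x : L) * ((y : L) / (x : L))
      field_simp), ?_⟩
    rw [𝔇.π_ker]
    intro hu
    apply h
    obtain ⟨d, hd⟩ := hu.exists_right_inv
    have hd' : (y : L) / (x : L) * (d : L) = 1 := congrArg Subtype.val hd
    have : (x : L) / (y : L) = (d : L) := by
      field_simp at hd'
      field_simp
      exact hd'.symm
    rw [this]
    exact d.2

end Lam

variable {L k F F₁ : Type*} [Field L] [Field k] [Field F] [Field F₁] [Algebra L F] [Algebra k F₁]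
  {𝔇 : RData L k F (F₁ × F₁)}

/-- torsion data, `f ≡ 1` modulo `λ ^ n ε`. -/
structure FTors (𝔇 : RData L k F (F₁ × F₁)) (n : ℕ) (Λ : LamData 𝔇 n) extends Tors 𝔇 n where
  ε : 𝔇.A
  ε_ne : (ε : L) ≠ 0
  π_ε : 𝔇.π ε = 0
  g : 𝔇.O
  hg : f = 1 + 𝔇.cst (Λ.lam ^ n * ε) * g

/-- power formula for elements close to `1`. -/
theorem pow_one_add {n : ℕ} (hn : n.Prime) (Λ : LamData 𝔇 n) (y μ : 𝔇.A) (b : 𝔇.O)
    (h : Λ.lam = y * μ) :
    ∃ Q : 𝔇.O, (1 + 𝔇.cst y * b) ^ n = 1 + 𝔇.cst y ^ n *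
      (b ^ n + 𝔇.cst Λ.c₀ * 𝔇.cst μ ^ (n - 1) * (b + 𝔇.cst y * b ^ 2 * Q)) := by
  obtain ⟨Q, hQ⟩ := exists_add_pow_prime_eq₂ hn (1 : 𝔇.O) (𝔇.cst y * b)
  refine ⟨Q, ?_⟩
  have hnc : ((n : ℕ) : 𝔇.O) * 𝔇.cst y = 𝔇.cst y ^ n * (𝔇.cst Λ.c₀ * 𝔇.cst μ ^ (n - 1)) := by
    rw [← cst_natCast, Λ.hnA, h, cst_mul, cst_pow, cst_mul]
    have h2 : 𝔇.cst y ^ n = 𝔇.cst y ^ (n - 1) * 𝔇.cst y := by
      rw [← pow_succ, Nat.sub_add_cancel hn.one_le]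
    rw [h2]
    ring
  rw [hQ, one_pow, one_pow, mul_pow (𝔇.cst y) b n]
  linear_combination (b + 𝔇.cst y * b ^ 2 * Q) * hnc

namespace FTors

variable {n : ℕ} {Λ : LamData 𝔇 n} (τ : FTors 𝔇 n Λ)

/-- the power of an approximation of `1`. -/
theorem pow_mul_eq (hn : n.Prime) {y μ : 𝔇.A} {b : 𝔇.O} (h : Λ.lam = y * μ) (hy : 𝔇.π y = 0) :
    ∃ r : 𝔇.O, (1 + 𝔇.cst y * b) ^ n * τ.f = 1 + 𝔇.cst y ^ n *
      (b ^ n + 𝔇.cst Λ.c₀ * 𝔇.cst μ ^ (n - 1) * b + r) ∧ 𝔇.res r = 0 := by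
  obtain ⟨Q, hQ⟩ := pow_one_add hn Λ y μ b h
  refine ⟨𝔇.cst Λ.c₀ * 𝔇.cst μ ^ (n - 1) * (𝔇.cst y * b ^ 2 * Q) +
    𝔇.cst τ.ε * (𝔇.cst μ ^ n * τ.g * (1 + 𝔇.cst y * b) ^ n), ?_, ?_⟩
  · rw [τ.hg, h, mul_pow, hQ, cst_mul, cst_mul, cst_pow, cst_pow]
    ring
  · rw [map_add, map_mul, map_mul, map_mul, map_mul, map_mul, 𝔇.res_cst y, hy, 𝔇.res_cst τ.ε,
      τ.π_ε, map_zero]
    ring

end FTors

end Fermat.Agent.LLp
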