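import Fermat.Agent.LLp.Witness

/-!
# Comparison of the slopes at the different crossing points
-/

set_option autoImplicit false

noncomputable section

open AlgebraicCurve Module IntermediateField

namespace Fermat.Agent.LLp

open Fermat.Agent.BadRed
open Fermat.Agent.FunField Fermat.Agent.FunField.PlaceLemmas Fermat.Agent.Deuring

variable {L k : Type*} [Field L] [Field k]
variable {F F₁ : Type*} [Field F] [Field F₁] [Algebra L F] [Algebra k F₁]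
  {T : TwoVal L k F F₁} {n : ℕ} {p : FrobPencil T.toRData} {𝒰 : UData T n}
  {Λ : LamData T.toRData n}

theorem mem_rr_mul_isDiv {D E : Divisor L F} {w r : F} (hw : w ∈ riemannRochSpace D)
    (hr : IsDiv E r) : w * r ∈ riemannRochSpace (D - E) := by
  rcases eq_or_ne w 0 with rfl | hw0
  · rw [zero_mul]; exact Submodule.zero_mem _
  rw [mem_rr_of_ne hw0] at hw
  rw [mem_rr_of_ne (mul_ne_zero hw0 hr.1)]
  intro v
  rw [v.ord_mul hw0 hr.1, ← hr.2 v, Finsupp.sub_apply]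
  have := hw v
  omega

/-- comparison of `s • w` and `w`. -/
theorem smul_wit_eq {V : ResVal T.A T.π F F₁} (R : RatData p 𝒰 Λ)
    (h1 : ∀ f ∈ V.O, (∀ s ∈ R.J, s • f = f) → ∀ s ∈ R.I, ∃ z ∈ V.O,
      s • f = f + algebraMap L F (Λ.lam : L) * z)
    {w : F} (hw : ∀ s ∈ R.J, s • w = w) {ρ : L} (hρ : IsVl V w ρ)
    (hρJ : ∀ s ∈ R.J, s • algebraMap L F ρ = algebraMap L F ρ) {s : SemilinearAut L F}
    (hs : s ∈ R.I) : ∃ z ∈ V.O, s • w =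
      algebraMap L F (ρ * (SemilinearAut.baseAut s ρ)⁻¹) * w *
        (1 + algebraMap L F (Λ.lam : L) * z) := by
  obtain ⟨z, hz, e⟩ := h1 (ρ • w) hρ.2.1 (fun s hs => by
    rw [Algebra.smul_def, smul_mul', hρJ s hs, hw s hs]) s hs
  have hinv := hρ.2.inv.1
  have hne := hρ.2.ne_zero
  refine ⟨z * (ρ • w)⁻¹, mul_mem hz hinv, ?_⟩
  have hρ0 : algebraMap L F ρ ≠ 0 := by rw [Ne, map_eq_zero]; exact hρ.1
  have hw0 : w ≠ 0 := hρ.ne_zero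
  have hsρ : algebraMap L F (SemilinearAut.baseAut s ρ) ≠ 0 := by
    rw [Ne, map_eq_zero, map_eq_zero]; exact hρ.1
  have e' : algebraMap L F (SemilinearAut.baseAut s ρ) * (s • w) =
      algebraMap L F ρ * w + algebraMap L F (Λ.lam : L) * z := by
    rw [← Algebra.smul_def ρ w, ← e, Algebra.smul_def, smul_mul', SemilinearAut.smul_algebraMap]
  rw [Algebra.smul_def, map_mul, map_inv₀]
  field_simp
  linear_combination e'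

/-- the constants attached to `s`. -/
theorem exists_consts [IsFF L F] [IsFF k F₁] [HasPrincipalDivisors L F] [IsAlgClosed L]
    [HasPrincipalDivisors k F₁] [IsAlgClosed k] (hn : n.Prime) [CharP k n]
    {G g₁ : ℤ} (H : FrobPencil.Hyp p G g₁)
    {D : Divisor L F} {f : F} (hf : IsDiv (n • D) f) {s : SemilinearAut L F}
    {E : Divisor L F} (hE : IsFine Λ E) (hlin : Lin (s • D) (D + E))
    (hc₁ : CC T.V₁ (algebraMap L F ((Λ.lam ^ n : T.A) : L)) (s • f * f⁻¹))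
    (hc₂ : CC T.V₂ (algebraMap L F ((Λ.lam ^ n : T.A) : L)) (s • f * f⁻¹)) :
    ∃ (m : ℕ) (q : F) (c₁ c₂ : L), c₁ ≠ 0 ∧ c₂ ≠ 0 ∧
      (∀ (m' : ℕ) (w : F), w ∈ riemannRochSpace (m' • p.E + s • D) →
        w * q ∈ riemannRochSpace ((m' + m) • p.E + D)) ∧
      (∃ y ∈ T.V₁.O, q = algebraMap L F c₁ * (1 + algebraMap L F (Λ.lam : L) * y)) ∧
      (∃ y ∈ T.V₂.O, q = algebraMap L F c₂ * (1 + algebraMap L F (Λ.lam : L) * y)) := by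
  have hπ : T.π (Λ.lam ^ n : T.A) = 0 := pos_of_lam Λ hn
  obtain ⟨r, hr⟩ := hlin
  obtain ⟨fe, se, hse, hfe, hfeD⟩ := hE
  have hfe0 : (fe : F) ≠ 0 :=
    T.toRData.coe_ne_zero (by rw [IsFine.res_eq hn hfe]; exact one_ne_zero)
  have hfeDiv : IsDiv (n • E) (fe : F) := ⟨hfe0, fun v => by
    rw [Finsupp.smul_apply, nsmul_eq_mul]; exact hfeD v⟩
  -- the relation
  have h1 : IsDiv (n • (s • D - (D + E))) (s • f * f⁻¹ * (fe : F)⁻¹) := by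
    have h2 := ((smul_isDiv s hf).mul hf.inv).mul hfeDiv.inv
    have e : s • (n • D) + -(n • D) + -(n • E) = n • (s • D - (D + E)) := by
      have h3 : s • (n • D) = n • (s • D) :=
        map_nsmul (DistribSMul.toAddMonoidHom (Divisor L F) s) n D
      rw [h3, smul_sub, smul_add]
      abel
    rwa [e] at h2
  obtain ⟨c, hc, e⟩ := (hr.pow n).eq_const h1
  -- `fe` is congruent to `1` modulo `λ ^ n`
  have hfeF : (fe : F) = 1 + algebraMap L F ((Λ.lam ^ n : T.A) : L) * (se : F) := by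
    have h3 := congrArg (fun z : T.toRData.O => (z : F)) hfe
    simpa [T.toRData.coe_cst] using h3
  have hfe₁ : CC T.V₁ (algebraMap L F ((Λ.lam ^ n : T.A) : L)) (fe : F) :=
    ⟨1, one_ne_zero, (se : F), se.2.1, by rw [map_one, one_mul]; exact hfeF⟩
  have hfe₂ : CC T.V₂ (algebraMap L F ((Λ.lam ^ n : T.A) : L)) (fe : F) :=
    ⟨1, one_ne_zero, (se : F), se.2.2, by rw [map_one, one_mul]; exact hfeF⟩
  have hr₁ : CC T.V₁ (algebraMap L F (Λ.lam : L)) r := by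
    apply CC.of_pow hn Λ
    rw [e]
    exact ((CC.const hc).mul (hc₁.mul (hfe₁.inv hπ)))
  have hr₂ : CC T.V₂ (algebraMap L F (Λ.lam : L)) r := by
    apply CC.of_pow hn Λ
    rw [e]
    exact ((CC.const hc).mul (hc₂.mul (hfe₂.inv hπ)))
  -- the approximation of `1`
  obtain ⟨τ, hτ⟩ := (IsFine.neg hn ⟨fe, se, hse, hfe, hfeD⟩ : IsFine Λ (-E)).exists_ftors H hn
  obtain ⟨m₁, h₁⟩ := τ.exists_trivGlue p H hn
  obtain ⟨m₀, h₀⟩ := p.exists_saturated H.hRR H.hRR₁ H.hpos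
  obtain ⟨u, b, hu, hub⟩ := τ.exists_approx p H hn h₁ h₀ (a := max m₁ m₀) (b := 0)
    (by simp) (by simp) (good_one_left _)
  have hG : p.G (max m₁ m₀) 0 = (max m₁ m₀) • p.E := by
    rw [Pencil.G, zero_smul, add_zero]
  rw [hG, hτ] at hu
  have huF : (u : F) = 1 + algebraMap L F (Λ.lam : L) * (b : F) := by
    have h3 := congrArg (fun z : T.toRData.O => (z : F)) hub
    simpa [T.toRData.coe_cst] using h3
  obtain ⟨c₁, hc₁', y₁, hy₁, e₁⟩ := hr₁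
  obtain ⟨c₂, hc₂', y₂, hy₂, e₂⟩ := hr₂
  refine ⟨max m₁ m₀, r * u, c₁, c₂, hc₁', hc₂', fun m' w hw => ?_, ?_, ?_⟩
  · have h3 := Deuring.mul_mem_rr (mem_rr_mul_isDiv hw hr) hu
    have e3 : m' • p.E + s • D - (s • D - (D + E)) + ((max m₁ m₀) • p.E + -E) =
        (m' + max m₁ m₀) • p.E + D := by
      rw [add_smul]; abel
    rwa [e3, mul_assoc] at h3
  · have hlO : algebraMap L F (Λ.lam : L) ∈ T.V₁.O := (T.V₁.mem_iff _).mpr Λ.lam.2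
    refine ⟨y₁ + (b : F) + algebraMap L F (Λ.lam : L) * (y₁ * (b : F)),
      add_mem (add_mem hy₁ b.2.1) (mul_mem hlO (mul_mem hy₁ b.2.1)), ?_⟩
    rw [e₁, huF]
    ring
  · have hlO : algebraMap L F (Λ.lam : L) ∈ T.V₂.O := (T.V₂.mem_iff _).mpr Λ.lam.2
    refine ⟨y₂ + (b : F) + algebraMap L F (Λ.lam : L) * (y₂ * (b : F)),
      add_mem (add_mem hy₂ b.2.2) (mul_mem hlO (mul_mem hy₂ b.2.2)), ?_⟩
    rw [e₂, huF]
    ring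

theorem inv_mem_of_not_mem {x : L} (hx : x ∉ T.A) : ∃ h : x⁻¹ ∈ T.A, T.π ⟨x⁻¹, h⟩ = 0 := by
  have h := (T.A.mem_or_inv_mem x).resolve_left hx
  refine ⟨h, ?_⟩
  rw [T.π_ker]
  intro hu
  apply hx
  obtain ⟨d, hd⟩ := hu.exists_right_inv
  have hd' : x⁻¹ * (d : L) = 1 := congrArg Subtype.val hd
  have hx0 : x ≠ 0 := by
    rintro rfl
    rw [inv_zero, zero_mul] at hd'
    exact zero_ne_one hd'
  have : x = (d : L) := by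
    field_simp at hd'
    exact hd'.symm
  rw [this]
  exact d.2

/-- **The key estimate**: the two constants agree modulo `λ`. -/
theorem theta_close (R : RatData p 𝒰 Λ) {D : Divisor L F} {g : F} (W : Wit R D g)
    {s : SemilinearAut L F} (hs : s ∈ R.I) {m : ℕ} {q : F} {c₁ c₂ : L} (hc₁ : c₁ ≠ 0)
    (hc₂ : c₂ ≠ 0)
    (hq : ∀ (m' : ℕ) (w : F), w ∈ riemannRochSpace (m' • p.E + s • D) →
        w * q ∈ riemannRochSpace ((m' + m) • p.E + D))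
    (hq₁ : ∃ y ∈ T.V₁.O, q = algebraMap L F c₁ * (1 + algebraMap L F (Λ.lam : L) * y))
    (hq₂ : ∃ y ∈ T.V₂.O, q = algebraMap L F c₂ * (1 + algebraMap L F (Λ.lam : L) * y))
    {ρ₁ ρ₂ : L} (hρ₁ : IsVl T.V₁ W.w ρ₁) (hρ₂ : IsVl T.V₂ W.w ρ₂)
    (hρJ₁ : ∀ s ∈ R.J, s • algebraMap L F ρ₁ = algebraMap L F ρ₁)
    (hρJ₂ : ∀ s ∈ R.J, s • algebraMap L F ρ₂ = algebraMap L F ρ₂) :
    ∃ z : T.A, (ρ₂ * (SemilinearAut.baseAut s ρ₂)⁻¹) * c₂ =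
      (ρ₁ * (SemilinearAut.baseAut s ρ₁)⁻¹) * c₁ * (1 + Λ.lam * z) := by
  obtain ⟨z₁, hz₁, e₁⟩ := smul_wit_eq R R.r1₁ W.hJ hρ₁ hρJ₁ hs
  obtain ⟨z₂, hz₂, e₂⟩ := smul_wit_eq R R.r1₂ W.hJ hρ₂ hρJ₂ hs
  obtain ⟨y₁, hy₁, f₁⟩ := hq₁
  obtain ⟨y₂, hy₂, f₂⟩ := hq₂
  let lam : T.A := Λ.lam
  have hl0 : (Λ.lam : L) ≠ 0 := Λ.lam_ne
  set t₁ : L := ρ₁ * (SemilinearAut.baseAut s ρ₁)⁻¹ * c₁ with ht₁
  set t₂ : L := ρ₂ * (SemilinearAut.baseAut s ρ₂)⁻¹ * c₂ with ht₂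
  have ht₁0 : t₁ ≠ 0 :=
    mul_ne_zero (mul_ne_zero hρ₁.1 (inv_ne_zero (by rw [Ne, map_eq_zero]; exact hρ₁.1))) hc₁
  have ht₂0 : t₂ ≠ 0 :=
    mul_ne_zero (mul_ne_zero hρ₂.1 (inv_ne_zero (by rw [Ne, map_eq_zero]; exact hρ₂.1))) hc₂
  have hlO₁ : algebraMap L F (Λ.lam : L) ∈ T.V₁.O := (T.V₁.mem_iff _).mpr Λ.lam.2
  have hlO₂ : algebraMap L F (Λ.lam : L) ∈ T.V₂.O := (T.V₂.mem_iff _).mpr Λ.lam.2
  by_cases hA₁ : (t₂ - t₁) * (t₁ * (Λ.lam : L))⁻¹ ∈ T.A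
  · refine ⟨⟨_, hA₁⟩, ?_⟩
    field_simp
    ring
  by_cases hA₂ : (t₂ - t₁) * (t₂ * (Λ.lam : L))⁻¹ ∈ T.A
  · let z : T.A := ⟨_, hA₂⟩
    have hz : t₁ = t₂ * (1 - (Λ.lam : L) * (z : L)) := by
      show t₁ = t₂ * (1 - (Λ.lam : L) * ((t₂ - t₁) * (t₂ * (Λ.lam : L))⁻¹))
      field_simp
      ring
    have hu : IsUnit (1 - lam * z) := by
      by_contra hcon
      have h1 := (T.π_ker _).mpr hcon
      have h2 : T.π lam = 0 := Λ.π_lam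
      rw [map_sub, map_one, map_mul, h2, zero_mul, sub_zero] at h1
      exact one_ne_zero h1
    obtain ⟨d, hd⟩ := hu.exists_right_inv
    have hd' : (1 - (Λ.lam : L) * (z : L)) * (d : L) = 1 := congrArg Subtype.val hd
    refine ⟨z * d, ?_⟩
    have h3 : t₂ = t₁ * (d : L) := by
      rw [hz, mul_assoc, hd', mul_one]
    have h4 : (d : L) = 1 + (Λ.lam : L) * ((z : L) * (d : L)) := by linear_combination hd'
    rw [h3]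
    congr 1
  exfalso
  have hδ0 : t₂ - t₁ ≠ 0 := by
    intro h0
    apply hA₁
    rw [h0, zero_mul]
    exact zero_mem _
  obtain ⟨hB₁, hB₁π⟩ := inv_mem_of_not_mem (T := T) hA₁
  obtain ⟨hB₂, hB₂π⟩ := inv_mem_of_not_mem (T := T) hA₂
  set β₁ : L := ((t₂ - t₁) * (t₁ * (Λ.lam : L))⁻¹)⁻¹ with hβ₁
  set β₂ : L := ((t₂ - t₁) * (t₂ * (Λ.lam : L))⁻¹)⁻¹ with hβ₂
  obtain ⟨hU₁, hr₁⟩ := W.h₁
  obtain ⟨hU₂, hr₂⟩ := W.h₂
  set x₁ : F := z₁ + y₁ + algebraMap L F (Λ.lam : L) * (z₁ * y₁) with hx₁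
  set x₂ : F := z₂ + y₂ + algebraMap L F (Λ.lam : L) * (z₂ * y₂) with hx₂
  have hx₁O : x₁ ∈ T.V₁.O := add_mem (add_mem hz₁ hy₁) (mul_mem hlO₁ (mul_mem hz₁ hy₁))
  have hx₂O : x₂ ∈ T.V₂.O := add_mem (add_mem hz₂ hy₂) (mul_mem hlO₂ (mul_mem hz₂ hy₂))
  have hW₁ : s • W.w * q = algebraMap L F t₁ * W.w * (1 + algebraMap L F (Λ.lam : L) * x₁) := by
    rw [e₁, f₁, ht₁, map_mul (algebraMap L F) (ρ₁ * _) c₁]
    ring
  have hW₂ : s • W.w * q = algebraMap L F t₂ * W.w * (1 + algebraMap L F (Λ.lam : L) * x₂) := by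
    rw [e₂, f₂, ht₂, map_mul (algebraMap L F) (ρ₂ * _) c₂]
    ring
  set W' : F := (W.c * (t₂ - t₁)⁻¹) • (s • W.w * q - t₁ • W.w) with hW'
  have hW'mem : W' ∈ riemannRochSpace ((W.m + m) • p.E + D) := by
    refine Submodule.smul_mem _ _ (Submodule.sub_mem _ (hq W.m _ ?_) (Submodule.smul_mem _ _ ?_))
    · have := smul_mem_rr s W.hw
      rwa [smul_E_add R hs] at this
    · exact FunField.rr_mono (add_le_add_left (p.E_mono (Nat.le_add_right _ _)) _) W.hw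
  have hδF : algebraMap L F (t₂ - t₁) ≠ 0 := by rwa [Ne, map_eq_zero]
  have ht₁F : algebraMap L F t₁ ≠ 0 := by rwa [Ne, map_eq_zero]
  have ht₂F : algebraMap L F t₂ ≠ 0 := by rwa [Ne, map_eq_zero]
  have hlF : algebraMap L F (Λ.lam : L) ≠ 0 := by rwa [Ne, map_eq_zero]
  have hβ₁F : algebraMap L F β₁ = algebraMap L F t₁ * algebraMap L F (Λ.lam : L) *
      (algebraMap L F (t₂ - t₁))⁻¹ := by
    rw [hβ₁, mul_inv, inv_inv, ← map_mul, ← map_inv₀, ← map_mul]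
    congr 1
    ring
  have hβ₂F : algebraMap L F β₂ = algebraMap L F t₂ * algebraMap L F (Λ.lam : L) *
      (algebraMap L F (t₂ - t₁))⁻¹ := by
    rw [hβ₂, mul_inv, inv_inv, ← map_mul, ← map_inv₀, ← map_mul]
    congr 1
    ring
  have hW'₁ : W' * g = algebraMap L F β₁ * (x₁ * (W.c • W.w * g)) := by
    rw [hW', hW₁, hβ₁F, Algebra.smul_def, Algebra.smul_def, Algebra.smul_def, map_mul, map_inv₀]
    field_simp
    ring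
  have hW'₂ : W' * g = W.c • W.w * g + algebraMap L F β₂ * (x₂ * (W.c • W.w * g)) := by
    rw [hW', hW₂, hβ₂F, Algebra.smul_def, Algebra.smul_def, Algebra.smul_def, map_mul, map_inv₀]
    field_simp
    rw [map_sub]
    ring
  have hm₁ : W' * g ∈ T.V₁.O := by
    rw [hW'₁]
    exact mul_mem ((T.V₁.mem_iff _).mpr hB₁) (mul_mem hx₁O hU₁)
  have hm₂ : W' * g ∈ T.V₂.O := by
    rw [hW'₂]
    exact add_mem hU₂ (mul_mem ((T.V₂.mem_iff _).mpr hB₂) (mul_mem hx₂O hU₂))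
  refine W.hns (W.m + m) W' hW'mem hm₁ hm₂ ?_ ?_
  · have e : (⟨_, hm₁⟩ : T.V₁.O) = T.V₁.cst ⟨β₁, hB₁⟩ * ⟨_, mul_mem hx₁O hU₁⟩ :=
      Subtype.ext hW'₁
    rw [e, map_mul, T.V₁.r_cst, hB₁π, map_zero, zero_mul]
  · have e : (⟨_, hm₂⟩ : T.V₂.O) = ⟨_, hU₂⟩ + T.V₂.cst ⟨β₂, hB₂⟩ * ⟨_, mul_mem hx₂O hU₂⟩ :=
      Subtype.ext hW'₂
    rw [e, map_add, map_mul, T.V₂.r_cst, hB₂π, map_zero, zero_mul, add_zero]

theorem alg_aux₁ {G : Type*} [CommGroupWithZero G] {υ γ φ ρ c : G} {j n : ℕ} (hυ : υ ≠ 0)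
    (hγ : γ ≠ 0) (h2 : c = ρ * γ) (h3 : 1 = φ * (υ ^ j)⁻¹ * (γ ^ n)⁻¹) :
    φ * ρ ^ n = υ ^ j * c ^ n := by
  have h4 : υ ^ j * γ ^ n = φ := by
    field_simp at h3
    exact h3
  rw [h2, mul_pow, ← h4]
  simp only [mul_comm, mul_left_comm, mul_assoc]

theorem alg_aux₂ {G : Type*} [CommGroupWithZero G] {N φ₁ φ₂ υ₁ υ₂ ρ₁ ρ₂ σ₁ σ₂ c d : G}
    {j j' n : ℕ} {l m : ℤ} (hN : N ≠ 0) (n1 : ρ₁ ≠ 0) (n4 : σ₂ ≠ 0)
    (n5 : φ₁ ≠ 0) (n6 : φ₂ ≠ 0) (n7 : υ₁ ≠ 0) (n9 : c ≠ 0) (n10 : d ≠ 0)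
    (v1 : φ₁ * ρ₁ ^ n = υ₁ ^ j * c ^ n) (v2 : φ₂ * ρ₂ ^ n = υ₂ ^ j * c ^ n)
    (v3 : φ₁ * σ₁ ^ n = υ₁ ^ j' * d ^ n) (v4 : φ₂ * σ₂ ^ n = υ₂ ^ j' * d ^ n)
    (hυ : υ₂ = υ₁ * N ^ m) (hal : ρ₂ * σ₁ = N ^ l * (ρ₁ * σ₂)) :
    N ^ (l * n + m * j') = N ^ (m * j) := by
  have e1 : (ρ₂ ^ n * σ₁ ^ n) * (υ₁ ^ j * υ₂ ^ j') = (ρ₁ ^ n * σ₂ ^ n) * (υ₂ ^ j * υ₁ ^ j') := by
    apply mul_left_cancel₀ (mul_ne_zero (mul_ne_zero n5 n6)
      (mul_ne_zero (pow_ne_zero n n9) (pow_ne_zero n n10)))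
    have l1 : φ₁ * φ₂ * (c ^ n * d ^ n) * (ρ₂ ^ n * σ₁ ^ n * (υ₁ ^ j * υ₂ ^ j')) =
        (φ₂ * ρ₂ ^ n) * (φ₁ * σ₁ ^ n) * (υ₁ ^ j * c ^ n) * (υ₂ ^ j' * d ^ n) := by simp only [mul_comm, mul_left_comm, mul_assoc]
    rw [l1, v2, v3, ← v1, ← v4]
    simp only [mul_comm, mul_left_comm, mul_assoc]
  rw [hυ, mul_pow, mul_pow, ← mul_pow, hal, mul_pow, mul_pow] at e1
  have e2 : (N ^ l) ^ n * (N ^ m) ^ j' = (N ^ m) ^ j := by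
    apply mul_left_cancel₀ (mul_ne_zero (mul_ne_zero (pow_ne_zero n n1) (pow_ne_zero n n4))
      (mul_ne_zero (pow_ne_zero j n7) (pow_ne_zero j' n7)))
    calc _ = (N ^ l) ^ n * (ρ₁ ^ n * σ₂ ^ n) * (υ₁ ^ j * (υ₁ ^ j' * (N ^ m) ^ j')) := by simp only [mul_comm, mul_left_comm, mul_assoc]
      _ = _ := by
          rw [e1]
          simp only [mul_comm, mul_left_comm, mul_assoc]
  rw [zpow_add₀ hN, zpow_mul, zpow_mul, zpow_mul, zpow_natCast, zpow_natCast, zpow_natCast]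
  exact e2

/-- The valuations of the normalising constants of a witness. -/
theorem val_of_wit {V : ResVal T.A T.π F F₁} {f u g w : F} {c ρ φ υ : L} {j : ℕ} (hc : c ≠ 0)
    (hU : Unit₁ V (c • w * g)) (hρ : IsVl V w ρ) (hφ : IsVl V f φ) (hυ : IsVl V u υ)
    (hV : Unit₁ V (f * (u ^ j)⁻¹ * (g ^ n)⁻¹)) :
    T.A.valuation φ * T.A.valuation ρ ^ n = T.A.valuation υ ^ j * T.A.valuation c ^ n := by
  have hg0 : g ≠ 0 := right_ne_zero_of_mul hU.ne_zero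
  obtain ⟨γ, hγ⟩ := exists_isVl (V := V) hg0
  have h1 : IsVl V (w * g) c := ⟨hc, by rwa [← smul_mul_assoc]⟩
  have h2 := h1.unique (hρ.mul hγ)
  have h3 := (IsVl.of_unit hV).unique ((hφ.mul (hυ.pow j).inv).mul (hγ.pow n).inv)
  rw [map_mul] at h2
  rw [map_one, map_mul, map_mul, map_inv₀, map_inv₀, map_pow, map_pow] at h3
  have hυ0 : T.A.valuation υ ≠ 0 := (Valuation.ne_zero_iff _).mpr hυ.1
  have hγ0 : T.A.valuation γ ≠ 0 := (Valuation.ne_zero_iff _).mpr hγ.1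
  exact alg_aux₁ hυ0 hγ0 h2 h3

/-- **Equality of the slopes.** -/
theorem slope_eq [IsFF L F] [IsFF k F₁] [HasPrincipalDivisors L F] [IsAlgClosed L]
    [HasPrincipalDivisors k F₁] [IsAlgClosed k] (hn : n.Prime) [CharP k n]
    {G g₁ : ℤ} (H : FrobPencil.Hyp p G g₁) (R : RatData p 𝒰 Λ)
    (hr2 : ∀ a : L, a ≠ 0 → (∀ s ∈ R.J, s • algebraMap L F a = algebraMap L F a) →
      (∀ s ∈ R.I, T.A.valuation (SemilinearAut.baseAut s a / a - 1) ≤ T.A.valuation Λ.lam) →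
        ∃ l : ℤ, T.A.valuation a = T.A.valuation (n : L) ^ l)
    {D : Divisor L F} {f : F} (hf : IsDiv (n • D) f)
    (hE : ∀ s ∈ R.I, ∃ E, IsFine Λ E ∧ Lin (s • D) (D + E))
    (hc₁ : ∀ s ∈ R.I, CC T.V₁ (algebraMap L F ((Λ.lam ^ n : T.A) : L)) (s • f * f⁻¹))
    (hc₂ : ∀ s ∈ R.I, CC T.V₂ (algebraMap L F ((Λ.lam ^ n : T.A) : L)) (s • f * f⁻¹))
    {u : F} {υ₁ υ₂ : L} (hυ₁ : IsVl T.V₁ u υ₁) (hυ₂ : IsVl T.V₂ u υ₂) {m₀ : ℤ}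
    (hm₀ : ¬ (n : ℤ) ∣ m₀)
    (hυ : T.A.valuation υ₂ = T.A.valuation υ₁ * T.A.valuation (n : L) ^ m₀)
    {g g' : F} (W : Wit R D g) (W' : Wit R D g') {j j' : ℕ} (hj : j < n) (hj' : j' < n)
    (hg₁ : Unit₁ T.V₁ (f * (u ^ j)⁻¹ * (g ^ n)⁻¹)) (hg₂ : Unit₁ T.V₂ (f * (u ^ j)⁻¹ * (g ^ n)⁻¹))
    (hg'₁ : Unit₁ T.V₁ (f * (u ^ j')⁻¹ * (g' ^ n)⁻¹))
    (hg'₂ : Unit₁ T.V₂ (f * (u ^ j')⁻¹ * (g' ^ n)⁻¹)) : j = j' := by
  have hw0 : W.w ≠ 0 := by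
    rintro h0
    have := W.h₁.ne_zero
    rw [h0, smul_zero, zero_mul] at this
    exact this rfl
  have hw0' : W'.w ≠ 0 := by
    rintro h0
    have := W'.h₁.ne_zero
    rw [h0, smul_zero, zero_mul] at this
    exact this rfl
  obtain ⟨ρ₁, hρ₁, hρJ₁⟩ := R.scale₁ _ hw0 W.hJ
  obtain ⟨ρ₂, hρ₂, hρJ₂⟩ := R.scale₂ _ hw0 W.hJ
  obtain ⟨σ₁, hσ₁, hσJ₁⟩ := R.scale₁ _ hw0' W'.hJ
  obtain ⟨σ₂, hσ₂, hσJ₂⟩ := R.scale₂ _ hw0' W'.hJ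
  have hl0 : (Λ.lam : L) ≠ 0 := Λ.lam_ne
  let lam : T.A := Λ.lam
  let c₀ : T.A := Λ.c₀
  -- the ratio of the slopes
  set a : L := ρ₂ * σ₁ * (ρ₁ * σ₂)⁻¹ with ha
  have ha0 : a ≠ 0 := mul_ne_zero (mul_ne_zero hρ₂.1 hσ₁.1) (inv_ne_zero (mul_ne_zero hρ₁.1 hσ₂.1))
  obtain ⟨l, hl⟩ := hr2 a ha0 (fun s hs => by
    rw [ha, map_mul, map_inv₀, map_mul, map_mul, smul_mul', smul_inv₀', smul_mul', smul_mul',
      hρJ₁ s hs, hρJ₂ s hs, hσJ₁ s hs, hσJ₂ s hs]) (fun s hs => by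
    obtain ⟨E, hEf, hlin⟩ := hE s hs
    obtain ⟨m, q, c₁, c₂, hc₁0, hc₂0, hq, hq₁, hq₂⟩ :=
      exists_consts hn H hf hEf hlin (hc₁ s hs) (hc₂ s hs)
    obtain ⟨z, hz⟩ := theta_close R W hs hc₁0 hc₂0 hq hq₁ hq₂ hρ₁ hρ₂ hρJ₁ hρJ₂
    obtain ⟨z', hz'⟩ := theta_close R W' hs hc₁0 hc₂0 hq hq₁ hq₂ hσ₁ hσ₂ hσJ₁ hσJ₂
    have hu : ∀ x : T.A, IsUnit (1 + lam * x) := by
      intro x
      by_contra hcon
      have h1 := (T.π_ker _).mpr hcon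
      have h2 : T.π lam = 0 := Λ.π_lam
      rw [map_add, map_one, map_mul, h2, zero_mul, add_zero] at h1
      exact one_ne_zero h1
    obtain ⟨d, hd⟩ := (hu z).exists_right_inv
    have hd' : (1 + (Λ.lam : L) * (z : L)) * (d : L) = 1 := congrArg Subtype.val hd
    have hz0 : (1 + (Λ.lam : L) * (z : L)) ≠ 0 := left_ne_zero_of_mul_eq_one hd'
    have b₁ : SemilinearAut.baseAut s ρ₁ ≠ 0 := by rw [Ne, map_eq_zero]; exact hρ₁.1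
    have b₂ : SemilinearAut.baseAut s ρ₂ ≠ 0 := by rw [Ne, map_eq_zero]; exact hρ₂.1
    have b₃ : SemilinearAut.baseAut s σ₁ ≠ 0 := by rw [Ne, map_eq_zero]; exact hσ₁.1
    have b₄ : SemilinearAut.baseAut s σ₂ ≠ 0 := by rw [Ne, map_eq_zero]; exact hσ₂.1
    have e1 := hρ₁.1
    have e2 := hρ₂.1
    have e3 := hσ₁.1
    have e4 := hσ₂.1
    have key : SemilinearAut.baseAut s a / a - 1 =
        (Λ.lam : L) * (((z' : L) - (z : L)) * (d : L)) := by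
      have k1 : SemilinearAut.baseAut s a / a * (1 + (Λ.lam : L) * (z : L)) =
          1 + (Λ.lam : L) * (z' : L) := by
        rw [ha, map_mul, map_inv₀, map_mul, map_mul]
        field_simp at hz hz' ⊢
        have := congrArg₂ (fun x y : L => x * y) hz.symm hz'
        beta_reduce at this
        apply mul_left_cancel₀ (mul_ne_zero hc₁0 hc₂0)
        linear_combination this
      have k2 : SemilinearAut.baseAut s a / a = (1 + (Λ.lam : L) * (z' : L)) * (d : L) := by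
        rw [← k1, mul_assoc, hd', mul_one]
      rw [k2]
      linear_combination hd'
    rw [key, map_mul]
    have hle : T.A.valuation (((z' : L) - (z : L)) * (d : L)) ≤ 1 :=
      (T.A.valuation_le_one_iff _).mpr (mul_mem (sub_mem z'.2 z.2) d.2)
    calc T.A.valuation (Λ.lam : L) * T.A.valuation (((z' : L) - (z : L)) * (d : L))
        ≤ T.A.valuation (Λ.lam : L) * 1 := by gcongr
      _ = _ := mul_one _)
  -- the valuations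
  obtain ⟨φ₁, hφ₁⟩ := exists_isVl (V := T.V₁) hf.1
  obtain ⟨φ₂, hφ₂⟩ := exists_isVl (V := T.V₂) hf.1
  have v1 := val_of_wit W.hc W.h₁ hρ₁ hφ₁ hυ₁ hg₁
  have v2 := val_of_wit W.hc W.h₂ hρ₂ hφ₂ hυ₂ hg₂
  have v3 := val_of_wit W'.hc W'.h₁ hσ₁ hφ₁ hυ₁ hg'₁
  have v4 := val_of_wit W'.hc W'.h₂ hσ₂ hφ₂ hυ₂ hg'₂
  have nz : ∀ {x : L}, x ≠ 0 → T.A.valuation x ≠ 0 := fun h => (Valuation.ne_zero_iff _).mpr h
  have n1 := nz hρ₁.1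
  have n2 := nz hρ₂.1
  have n3 := nz hσ₁.1
  have n4 := nz hσ₂.1
  have n5 := nz hφ₁.1
  have n6 := nz hφ₂.1
  have n7 := nz hυ₁.1
  have n8 := nz hυ₂.1
  have n9 := nz W.hc
  have n10 := nz W'.hc
  have hn0 : (n : L) ≠ 0 := by
    rw [Λ.hn]
    refine mul_ne_zero ?_ (pow_ne_zero _ hl0)
    intro h0
    have h1 : c₀ = 0 := Subtype.ext h0
    have h2 : T.π c₀ = -1 := Λ.π_c₀
    rw [h1, map_zero] at h2
    exact one_ne_zero (neg_eq_zero.mp h2.symm)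
  have hN0 := nz hn0
  have hN1 : T.A.valuation (n : L) ≠ 1 := by
    intro h1
    have h2 : T.A.valuation ((n : T.A) : L) = 1 := by
      rw [← h1]
      congr 1
    rw [← ValuationSubring.valuation_eq_one_iff] at h2
    have h3 : T.π (n : T.A) = 0 := by rw [map_natCast]; exact CharP.cast_eq_zero k n
    exact (T.π_ker _).mp h3 h2
  have hal : T.A.valuation ρ₂ * T.A.valuation σ₁ =
      T.A.valuation (n : L) ^ l * (T.A.valuation ρ₁ * T.A.valuation σ₂) := by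
    rw [← hl, ha, map_mul, map_inv₀, map_mul, map_mul]
    field_simp
  have e3 : l * n + m₀ * j' = m₀ * j := by
    apply zpow_right_injective₀ (zero_lt_iff.mpr hN0) hN1
    exact alg_aux₂ hN0 n1 n4 n5 n6 n7 n9 n10 v1 v2 v3 v4 hυ hal
  have h4 : (n : ℤ) ∣ m₀ * ((j : ℤ) - j') := ⟨l, by linear_combination -e3⟩
  have h5 := (Int.Prime.dvd_mul' hn h4).resolve_left hm₀
  obtain ⟨q, hq⟩ := h5
  have hq0 : q = 0 := by
    by_contra hq0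
    rcases lt_or_gt_of_ne hq0 with h5 | h5
    · have : (n : ℤ) * q ≤ n * (-1) := by
        apply mul_le_mul_of_nonneg_left (by omega) (by omega)
      omega
    · have : (n : ℤ) * 1 ≤ n * q := by
        apply mul_le_mul_of_nonneg_left (by omega) (by omega)
      omega
  rw [hq0, mul_zero] at hq
  omega

/-- **A single slope for all crossing points.** -/
theorem exists_slope [IsFF L F] [IsFF k F₁] [HasPrincipalDivisors L F] [IsAlgClosed L]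
    [HasPrincipalDivisors k F₁] [IsAlgClosed k] (harch : T.Arch) (hn : n.Prime) [CharP k n]
    {G g₁ : ℤ} (H : FrobPencil.Hyp p G g₁) (R : RatData p 𝒰 Λ)
    (hr2 : ∀ a : L, a ≠ 0 → (∀ s ∈ R.J, s • algebraMap L F a = algebraMap L F a) →
      (∀ s ∈ R.I, T.A.valuation (SemilinearAut.baseAut s a / a - 1) ≤ T.A.valuation Λ.lam) →
        ∃ l : ℤ, T.A.valuation a = T.A.valuation (n : L) ^ l)
    {pl₁ pl₂ : p.Pt → Place k F₁} (hpl₁ : ∀ x, At p.toPencil (p.frPt x) (pl₁ x))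
    (hpl₂ : ∀ x : p.Pt, At p.toPencil x.1 (pl₂ x))
    {D : Divisor L F} {f : F} (hf : IsDiv (n • D) f) (hD : ∀ s ∈ R.J, s • D = D)
    {a₁ a₂ : F₁} (ha₁ : a₁ ≠ 0) (ha₂ : a₂ ≠ 0) (hr₁ : T.V₁.HasRes f a₁)
    (hr₂ : T.V₂.HasRes f a₂)
    (hE : ∀ s ∈ R.I, ∃ E, IsFine Λ E ∧ Lin (s • D) (D + E))
    (hc₁ : ∀ s ∈ R.I, CC T.V₁ (algebraMap L F ((Λ.lam ^ n : T.A) : L)) (s • f * f⁻¹))
    (hc₂ : ∀ s ∈ R.I, CC T.V₂ (algebraMap L F ((Λ.lam ^ n : T.A) : L)) (s • f * f⁻¹))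
    {u : F} {c : ℕ} (hu0 : u ≠ 0)
    (hu : u⁻¹ ∈ riemannRochSpace (c • p.E)) {b₁ b₂ : F₁} (hb₁ : b₁ ≠ 0) (hb₂ : b₂ ≠ 0)
    (hs₁ : T.V₁.HasRes u b₁) (hs₂ : T.V₂.HasRes u b₂) [Fintype p.Pt]
    (hδ₁ : ∀ x, ¬ (n : ℤ) ∣ (pl₁ x).ord b₁) (hδ₂ : ∀ x, ¬ (n : ℤ) ∣ (pl₂ x).ord b₂)
    (hΔ : 0 ≤ ∑ x, (pl₁ x).ord b₁ + ∑ x, (pl₂ x).ord b₂)
    {υ₁ υ₂ : L} (hυ₁ : IsVl T.V₁ u υ₁) (hυ₂ : IsVl T.V₂ u υ₂) {m₀ : ℤ}
    (hm₀ : ¬ (n : ℤ) ∣ m₀)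
    (hυ : T.A.valuation υ₂ = T.A.valuation υ₁ * T.A.valuation (n : L) ^ m₀) :
    (∀ v, (∀ x, pl₁ x ≠ v) → (n : ℤ) ∣ v.ord a₁) ∧ (∀ v, (∀ x, pl₂ x ≠ v) → (n : ℤ) ∣ v.ord a₂) ∧
      ∃ j < n, ∀ x, (n : ℤ) ∣ (pl₁ x).ord a₁ - j * (pl₁ x).ord b₁ ∧
        (n : ℤ) ∣ (pl₂ x).ord a₂ - j * (pl₂ x).ord b₂ := by
  obtain ⟨h1, h2, h3⟩ := count p H harch hn hpl₁ hpl₂ hf ha₁ ha₂ hr₁ hr₂ hu0 hu hb₁ hb₂ hs₁ hs₂
    hδ₁ hδ₂ hΔ
  refine ⟨h1, h2, ?_⟩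
  choose j hj hj₁ hj₂ g hg0 hg₁ hg₂ hns using h3
  have W : ∀ x, Nonempty (Wit R D (g x)) := fun x => exists_wit H R hD (hg0 x) (hns x)
  by_cases hemp : Nonempty p.Pt
  · obtain ⟨x₀⟩ := hemp
    refine ⟨j x₀, hj x₀, fun x => ?_⟩
    obtain ⟨W₀⟩ := W x₀
    obtain ⟨Wx⟩ := W x
    have := slope_eq hn H R hr2 hf hE hc₁ hc₂ hυ₁ hυ₂ hm₀ hυ W₀ Wx (hj x₀) (hj x)
      (hg₁ x₀) (hg₂ x₀) (hg₁ x) (hg₂ x)
    rw [this]
    exact ⟨hj₁ x, hj₂ x⟩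
  · exact ⟨0, hn.pos, fun x => absurd ⟨x⟩ hemp⟩

end Fermat.Agent.LLp
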