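import Fermat.Agent.LLp.Ineq

/-!
# Counting: the orders of the residues of a torsion function at the nodes
-/

set_option autoImplicit false

noncomputable section

open AlgebraicCurve Module IntermediateField

namespace Fermat.Agent.LLp

open Fermat.Agent.BadRed
open Fermat.Agent.FunField Fermat.Agent.FunField.PlaceLemmas Fermat.Agent.Deuring

section OneSide

variable {k F₁ : Type*} [Field k] [Field F₁] [Algebra k F₁] [IsFF k F₁]
  [HasPrincipalDivisors k F₁] [IsAlgClosed k]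

/-- the sum over `j` of the degrees of the bounding divisors. -/
theorem sum_degree {n : ℕ} (hn : n.Prime) {P : Type*} [Fintype P] {pl : P → Place k F₁}
    (hinj : Function.Injective pl) {S : Finset (Place k F₁)} (hS : ∀ v, v ∈ S ↔ ∃ x, pl x = v)
    {a b : F₁} (ha : a ≠ 0) (hδ : ∀ x, ¬ (n : ℤ) ∣ (pl x).ord b) :
    ∃ d : Place k F₁ → ℤ, (∀ v, 0 ≤ d v) ∧ (∀ v, v ∉ S → d v = 0 → (n : ℤ) ∣ v.ord a) ∧
      ∃ W : Finset (Place k F₁), (∀ v, v ∉ S → v ∉ W → (n : ℤ) ∣ v.ord a) ∧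
      2 * ∑ j ∈ Finset.range n,
        Divisor.degree (bdDiv S (fun v => (v.ord a - j * v.ord b - 1) / n) n a ha) =
      -(2 * ∑ v ∈ W, d v) - (n - 1) * ∑ x, (pl x).ord b - (n + 1) * Fintype.card P := by
  classical
  set W : Finset (Place k F₁) := (dv (K := k) a ha).support ∪ S with hW
  let d : Place k F₁ → ℤ := fun v => if v ∈ S then 0 else v.ord a - n * (v.ord a / n)
  have hd0 : ∀ v, 0 ≤ d v := by
    intro v
    by_cases hv : v ∈ S
    · show 0 ≤ if v ∈ S then 0 else _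
      rw [if_pos hv]
    · show 0 ≤ if v ∈ S then 0 else _
      rw [if_neg hv]
      have := (le_of_floor hn.pos (v.ord a)).1
      linarith
  refine ⟨d, hd0, ?_, W, ?_, ?_⟩
  · intro v hv h
    change (if v ∈ S then 0 else _) = (0 : ℤ) at h
    rw [if_neg hv] at h
    exact (le_of_floor hn.pos (v.ord a)).2 (by linarith)
  · intro v _ hvW
    rw [hW, Finset.mem_union, not_or] at hvW
    have h1 : v.ord a = 0 := by
      have := Finsupp.notMem_support_iff.mp hvW.1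
      rwa [dv_apply] at this
    rw [h1]
    exact dvd_zero _
  · have hdeg : ∀ j ∈ Finset.range n,
        Divisor.degree (bdDiv S (fun v => (v.ord a - j * v.ord b - 1) / n) n a ha) =
          ∑ v ∈ W, (if v ∈ S then (v.ord a - j * v.ord b - 1) / n else v.ord a / n) := by
      intro j _
      rw [degree_eq_sum _ W]
      · refine Finset.sum_congr rfl fun v _ => ?_
        rw [bdDiv_apply]
      · intro v hv
        by_contra h
        rw [hW, Finset.mem_union, not_or] at h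
        have h1 : v.ord a = 0 := by
          have := Finsupp.notMem_support_iff.mp h.1
          rwa [dv_apply] at this
        apply Finsupp.mem_support_iff.mp hv
        rw [bdDiv_apply, if_neg h.2, h1]
        simp
    rw [Finset.sum_congr rfl hdeg, Finset.sum_comm, Finset.mul_sum]
    have hterm : ∀ v ∈ W, 2 * ∑ j ∈ Finset.range n,
        (if v ∈ S then (v.ord a - j * v.ord b - 1) / (n : ℤ) else v.ord a / n) =
        2 * v.ord a - 2 * d v - (if v ∈ S then (n - 1) * v.ord b + (n + 1) else 0) := by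
      intro v _
      by_cases hv : v ∈ S
      · obtain ⟨x, rfl⟩ := (hS v).mp hv
        have h1 := sum_floor hn ((pl x).ord a) ((pl x).ord b) (hδ x)
        have hdv : d (pl x) = 0 := if_pos hv
        simp only [if_pos hv]
        rw [h1, hdv]
        ring
      · have hdv : d v = v.ord a - n * (v.ord a / n) := if_neg hv
        simp only [if_neg hv]
        rw [Finset.sum_const, Finset.card_range, nsmul_eq_mul, hdv]
        ring
    rw [Finset.sum_congr rfl hterm, Finset.sum_sub_distrib, Finset.sum_sub_distrib,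
      ← Finset.mul_sum, ← Finset.mul_sum]
    have hzero : ∑ v ∈ W, v.ord a = 0 := by
      have h1 := degree_eq_sum (dv (K := k) a ha) W Finset.subset_union_left
      rw [degree_dv] at h1
      rw [h1]
      exact Finset.sum_congr rfl fun v _ => (dv_apply ha v).symm
    have hSsum : ∑ v ∈ W, (if v ∈ S then ((n : ℤ) - 1) * v.ord b + (n + 1) else 0) =
        (n - 1) * ∑ x, (pl x).ord b + (n + 1) * Fintype.card P := by
      rw [← Finset.sum_filter]
      have h1 : W.filter (fun v => v ∈ S) = Finset.univ.image pl := by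
        ext v
        rw [Finset.mem_filter, Finset.mem_image]
        constructor
        · rintro ⟨-, h⟩
          obtain ⟨x, hx⟩ := (hS v).mp h
          exact ⟨x, Finset.mem_univ _, hx⟩
        · rintro ⟨x, -, hx⟩
          have h := (hS v).mpr ⟨x, hx⟩
          exact ⟨Finset.mem_union_right _ h, h⟩
      rw [h1, Finset.sum_image (fun x _ y _ h => hinj h), Finset.sum_add_distrib,
        ← Finset.mul_sum, Finset.sum_const, Finset.card_univ, nsmul_eq_mul]
      ring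
    rw [hzero, hSsum]
    ring

end OneSide

variable {L k : Type*} [Field L] [Field k]
variable {F F₁ : Type*} [Field F] [Field F₁] [Algebra L F] [Algebra k F₁]
  {T : TwoVal L k F F₁} (p : FrobPencil T.toRData)

variable [IsFF L F] [IsFF k F₁] [HasPrincipalDivisors L F] [HasPrincipalDivisors k F₁]
  [IsAlgClosed k] {g g₁ : ℤ} (H : FrobPencil.Hyp p g g₁)

omit [IsFF L F] [IsFF k F₁] [HasPrincipalDivisors L F] [HasPrincipalDivisors k F₁]
  [IsAlgClosed k] in
theorem pl_injective {φ : p.Pt → (p.OO →ₐ[k] k)} (hφ : Function.Injective φ)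
    {pl : p.Pt → Place k F₁} (hpl : ∀ x, At p.toPencil (φ x) (pl x)) : Function.Injective pl := by
  intro x y h
  apply hφ
  have h1 := hpl x
  rw [h] at h1
  exact h1.inj (hpl y)

include H in
/-- **Counting theorem.** -/
theorem count [IsAlgClosed L] (harch : T.Arch) {n : ℕ} (hn : n.Prime) [CharP k n]
    {pl₁ pl₂ : p.Pt → Place k F₁} (hpl₁ : ∀ x, At p.toPencil (p.frPt x) (pl₁ x))
    (hpl₂ : ∀ x : p.Pt, At p.toPencil x.1 (pl₂ x)) {D : Divisor L F} {f : F}
    (hf : IsDiv (n • D) f) {a₁ a₂ : F₁} (ha₁ : a₁ ≠ 0) (ha₂ : a₂ ≠ 0) (hr₁ : T.V₁.HasRes f a₁)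
    (hr₂ : T.V₂.HasRes f a₂) {u : F} {c : ℕ} (hu0 : u ≠ 0)
    (hu : u⁻¹ ∈ riemannRochSpace (c • p.E)) {b₁ b₂ : F₁} (hb₁ : b₁ ≠ 0) (hb₂ : b₂ ≠ 0)
    (hs₁ : T.V₁.HasRes u b₁) (hs₂ : T.V₂.HasRes u b₂) [Fintype p.Pt]
    (hδ₁ : ∀ x, ¬ (n : ℤ) ∣ (pl₁ x).ord b₁) (hδ₂ : ∀ x, ¬ (n : ℤ) ∣ (pl₂ x).ord b₂)
    (hΔ : 0 ≤ ∑ x, (pl₁ x).ord b₁ + ∑ x, (pl₂ x).ord b₂) :
    (∀ v, (∀ x, pl₁ x ≠ v) → (n : ℤ) ∣ v.ord a₁) ∧ (∀ v, (∀ x, pl₂ x ≠ v) → (n : ℤ) ∣ v.ord a₂) ∧
      ∀ x, ∃ j < n, (n : ℤ) ∣ (pl₁ x).ord a₁ - j * (pl₁ x).ord b₁ ∧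
        (n : ℤ) ∣ (pl₂ x).ord a₂ - j * (pl₂ x).ord b₂ ∧
        ∃ g : F, g ≠ 0 ∧ Unit₁ T.V₁ (f * (u ^ j)⁻¹ * (g ^ n)⁻¹) ∧
          Unit₁ T.V₂ (f * (u ^ j)⁻¹ * (g ^ n)⁻¹) ∧ NonSplit p D g := by
  classical
  have hinj₁ := pl_injective p p.frPt_injective hpl₁
  have hinj₂ := pl_injective p (φ := fun x => x.1) Subtype.val_injective hpl₂
  set S₁ : Finset (Place k F₁) := Finset.univ.image pl₁ with hS₁
  set S₂ : Finset (Place k F₁) := Finset.univ.image pl₂ with hS₂
  have hmS₁ : ∀ v, v ∈ S₁ ↔ ∃ x, pl₁ x = v := fun v => by simp [hS₁]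
  have hmS₂ : ∀ v, v ∈ S₂ ↔ ∃ x, pl₂ x = v := fun v => by simp [hS₂]
  choose B hB hBle using fun j : ℕ => ineq p H harch hn hpl₁ hpl₂ hf ha₁ ha₂ hr₁ hr₂ hu0 hu hb₁ hb₂
    hs₁ hs₂ j S₁ S₂ hmS₁ hmS₂
  obtain ⟨d₁, hd₁, hd₁', W₁, hW₁, e₁⟩ := sum_degree hn hinj₁ hmS₁ ha₁ (b := b₁) hδ₁
  obtain ⟨d₂, hd₂, hd₂', W₂, hW₂, e₂⟩ := sum_degree hn hinj₂ hmS₂ ha₂ (b := b₂) hδ₂
  set N : ℤ := (Fintype.card p.Pt : ℤ) with hN
  -- sum of the inequalities
  have hsum := Finset.sum_le_sum fun j (_ : j ∈ Finset.range n) => hBle j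
  rw [Finset.sum_const, Finset.card_range, nsmul_eq_mul, Finset.sum_add_distrib,
    Finset.sum_add_distrib] at hsum
  -- each point is in at most one `B j`
  have huniq : ∀ x, ∀ j ∈ Finset.range n, ∀ j' ∈ Finset.range n, x ∈ B j → x ∈ B j' → j = j' := by
    intro x j hj j' hj' h h'
    have h1 := (hB j x h).1
    have h2 := (hB j' x h').1
    have h3 : (n : ℤ) ∣ ((j : ℤ) - j') * (pl₁ x).ord b₁ := by
      have := dvd_sub h2 h1
      have e : (pl₁ x).ord a₁ - j' * (pl₁ x).ord b₁ - ((pl₁ x).ord a₁ - j * (pl₁ x).ord b₁) =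
        ((j : ℤ) - j') * (pl₁ x).ord b₁ := by ring
      rwa [e] at this
    have h4 := (Int.Prime.dvd_mul' hn h3).resolve_right (hδ₁ x)
    rw [Finset.mem_range] at hj hj'
    obtain ⟨q, hq⟩ := h4
    have hq0 : q = 0 := by
      by_contra hq0
      rcases lt_or_gt_of_ne hq0 with h5 | h5
      · have : (n : ℤ) * q ≤ n * (-1) := by
          apply mul_le_mul_of_nonneg_left (by omega) (by omega)
        omega
      · have : (n : ℤ) * 1 ≤ n * q := by
          apply mul_le_mul_of_nonneg_left (by omega) (by omega)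
        omega
    rw [hq0, mul_zero] at hq
    omega
  have hcardB : ∀ j, ((B j).card : ℤ) = ∑ x : p.Pt, if x ∈ B j then (1 : ℤ) else 0 := by
    intro j
    rw [Finset.sum_boole]
    simp
  have hcount : ∀ x, ∑ j ∈ Finset.range n, (if x ∈ B j then (1 : ℤ) else 0) ≤ 1 ∧
      (∑ j ∈ Finset.range n, (if x ∈ B j then (1 : ℤ) else 0) = 1 → ∃ j < n, x ∈ B j) := by
    intro x
    by_cases hx : ∃ j < n, x ∈ B j
    · obtain ⟨j, hj, hxj⟩ := hx
      have h1 : ∑ j' ∈ Finset.range n, (if x ∈ B j' then (1 : ℤ) else 0) = 1 := by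
        rw [Finset.sum_eq_single_of_mem j (Finset.mem_range.mpr hj)]
        · rw [if_pos hxj]
        · intro j' hj' hne
          rw [if_neg]
          intro h
          exact hne (huniq x j' hj' j (Finset.mem_range.mpr hj) h hxj)
      exact ⟨h1.le, fun _ => ⟨j, hj, hxj⟩⟩
    · push Not at hx
      have h1 : ∑ j' ∈ Finset.range n, (if x ∈ B j' then (1 : ℤ) else 0) = 0 :=
        Finset.sum_eq_zero fun j' hj' => if_neg (hx j' (Finset.mem_range.mp hj'))
      rw [h1]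
      exact ⟨zero_le_one, fun h => absurd h (by norm_num)⟩
  have hBsum : ∑ j ∈ Finset.range n, ((B j).card : ℤ) =
      ∑ x : p.Pt, ∑ j ∈ Finset.range n, (if x ∈ B j then (1 : ℤ) else 0) := by
    rw [Finset.sum_comm]
    exact Finset.sum_congr rfl fun j _ => hcardB j
  have hBle' : ∑ j ∈ Finset.range n, ((B j).card : ℤ) ≤ N := by
    rw [hBsum]
    refine (Finset.sum_le_sum fun x _ => (hcount x).1).trans ?_
    rw [Finset.sum_const, Finset.card_univ, nsmul_eq_mul, mul_one]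
  have hD₁ : 0 ≤ ∑ v ∈ W₁, d₁ v := Finset.sum_nonneg fun v _ => hd₁ v
  have hD₂ : 0 ≤ ∑ v ∈ W₂, d₂ v := Finset.sum_nonneg fun v _ => hd₂ v
  have hn1 : (0 : ℤ) ≤ (n : ℤ) - 1 := by have := hn.one_le; omega
  have hΔ' := mul_nonneg hn1 hΔ
  have hkey : N + ∑ v ∈ W₁, d₁ v + ∑ v ∈ W₂, d₂ v ≤ ∑ j ∈ Finset.range n, ((B j).card : ℤ) := by
    rw [mul_add] at hΔ'
    linarith
  have hz₁ : ∑ v ∈ W₁, d₁ v = 0 := by linarith
  have hz₂ : ∑ v ∈ W₂, d₂ v = 0 := by linarith
  have hzN : ∑ j ∈ Finset.range n, ((B j).card : ℤ) = N := by linarith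
  refine ⟨fun v hv => ?_, fun v hv => ?_, fun x => ?_⟩
  · have hvS : v ∉ S₁ := fun h => by
      obtain ⟨x, hx⟩ := (hmS₁ v).mp h
      exact hv x hx
    by_cases hvW : v ∈ W₁
    · exact hd₁' v hvS ((Finset.sum_eq_zero_iff_of_nonneg fun v _ => hd₁ v).mp hz₁ v hvW)
    · exact hW₁ v hvS hvW
  · have hvS : v ∉ S₂ := fun h => by
      obtain ⟨x, hx⟩ := (hmS₂ v).mp h
      exact hv x hx
    by_cases hvW : v ∈ W₂
    · exact hd₂' v hvS ((Finset.sum_eq_zero_iff_of_nonneg fun v _ => hd₂ v).mp hz₂ v hvW)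
    · exact hW₂ v hvS hvW
  · have h1 : ∑ j ∈ Finset.range n, (if x ∈ B j then (1 : ℤ) else 0) = 1 := by
      by_contra hne
      have hlt : ∑ j ∈ Finset.range n, (if x ∈ B j then (1 : ℤ) else 0) < 1 :=
        lt_of_le_of_ne (hcount x).1 hne
      have : ∑ x : p.Pt, ∑ j ∈ Finset.range n, (if x ∈ B j then (1 : ℤ) else 0) < N := by
        have h2 := Finset.sum_lt_sum (s := Finset.univ) (f := fun x : p.Pt =>
          ∑ j ∈ Finset.range n, (if x ∈ B j then (1 : ℤ) else 0)) (g := fun _ => (1 : ℤ))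
          (fun x _ => (hcount x).1) ⟨x, Finset.mem_univ x, hlt⟩
        rw [Finset.sum_const, Finset.card_univ, nsmul_eq_mul, mul_one] at h2
        exact h2
      rw [← hBsum, hzN] at this
      exact lt_irrefl _ this
    obtain ⟨j, hj, hxj⟩ := (hcount x).2 h1
    obtain ⟨h2, h3, h4⟩ := hB j x hxj
    exact ⟨j, hj, h2, h3, h4⟩

end Fermat.Agent.LLp
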