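import Fermat.Agent.BadRed.Principal

/-!
# Best approximation in lattices
-/

set_option autoImplicit false

noncomputable section

open AlgebraicCurve Module

namespace Fermat.Agent.LLp

open Fermat.Agent.BadRed

variable {L k F R : Type*} [Field L] [Field k] [Field F] [CommRing R] [Algebra L F] [Algebra k R]
  [Nontrivial R] (𝔇 : RData L k F R)

/-- **Best approximation**: the distance from `w` to a finite dimensional space is attained. -/
theorem exists_dist (V : Submodule L F) [FiniteDimensional L V] (w : 𝔇.O)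
    (hw : 𝔇.res w ∈ 𝔇.red V) :
    ∃ (u : 𝔇.O) (y : 𝔇.A) (b : 𝔇.O), (u : F) ∈ V ∧ 𝔇.π y = 0 ∧ u = w + 𝔇.cst y * b ∧
      ((y : L) = 0 ∨ 𝔇.res b ∉ 𝔇.red V) := by
  classical
  by_cases hwV : (w : F) ∈ V
  · exact ⟨w, 0, 0, hwV, map_zero _, by simp, Or.inl rfl⟩
  set W : Submodule L F := V ⊔ Submodule.span L {(w : F)} with hW
  have hw0 : (w : F) ≠ 0 := fun h => hwV (h ▸ V.zero_mem)
  have hinf : V ⊓ Submodule.span L {(w : F)} = ⊥ := by
    rw [eq_bot_iff]
    rintro x ⟨hx, hx'⟩
    obtain ⟨c, rfl⟩ := Submodule.mem_span_singleton.mp hx'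
    by_cases hc : c = 0
    · simp [hc]
    · exfalso
      apply hwV
      have := V.smul_mem c⁻¹ hx
      rwa [smul_smul, inv_mul_cancel₀ hc, one_smul] at this
  have hdim : finrank L W = finrank L V + 1 := by
    have h1 := Submodule.finrank_sup_add_finrank_inf_eq V (Submodule.span L {(w : F)})
    rw [hinf, finrank_bot, add_zero, finrank_span_singleton hw0] at h1
    exact h1
  have hlt : ¬ 𝔇.red W ≤ 𝔇.red V := by
    intro h
    have := Submodule.finrank_mono h
    rw [𝔇.finrank_red, 𝔇.finrank_red, hdim] at this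
    omega
  obtain ⟨x, hxW, hxV⟩ := SetLike.not_le_iff_exists.mp hlt
  obtain ⟨b₀, hb₀W, rfl⟩ := hxW
  obtain ⟨e, heV, heli, hespan, hered⟩ := 𝔇.exists_orthonormal V
  let c : Option (Fin (finrank L V)) → 𝔇.O := fun o => o.elim b₀ e
  have hcli : LinearIndependent k (fun o => 𝔇.res (c o)) := by
    rw [linearIndependent_option]
    refine ⟨heli, ?_⟩
    show 𝔇.res b₀ ∉ Submodule.span k (Set.range fun i => 𝔇.res (e i))
    rw [← hered]
    exact hxV
  have hcL := 𝔇.linearIndependent_of_res c hcli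
  have hcW : ∀ o, ((c o : 𝔇.O) : F) ∈ W := by
    rintro (_ | i)
    · exact hb₀W
    · exact Submodule.mem_sup_left (heV i)
  have hcL' : LinearIndependent L (fun o => (⟨((c o : 𝔇.O) : F), hcW o⟩ : W)) := by
    apply LinearIndependent.of_comp W.subtype
    exact hcL
  have htop := hcL'.span_eq_top_of_card_eq_finrank' (by simp [hdim])
  have hwW : (⟨(w : F), Submodule.mem_sup_right (Submodule.mem_span_singleton_self _)⟩ : W) ∈
      Submodule.span L (Set.range fun o => (⟨((c o : 𝔇.O) : F), hcW o⟩ : W)) := by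
    rw [htop]; trivial
  obtain ⟨x, hx⟩ := (Submodule.mem_span_range_iff_exists_fun L).mp hwW
  have hx' : (w : F) = ∑ o, x o • ((c o : 𝔇.O) : F) := by
    have := congrArg Subtype.val hx
    simpa using this.symm
  have hxA : ∀ o, x o ∈ 𝔇.A := 𝔇.coeff_mem c hcli x (by rw [← hx']; exact w.2)
  rw [Fintype.sum_option] at hx'
  change (w : F) = x none • (b₀ : F) + ∑ i, x (some i) • (e i : F) at hx'
  let u : 𝔇.O := ∑ i, 𝔇.cst ⟨x (some i), hxA _⟩ * e i
  have hu : (u : F) = ∑ i, x (some i) • (e i : F) := by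
    simp only [u]
    push_cast
    refine Finset.sum_congr rfl fun i _ => ?_
    rw [Algebra.smul_def]; rfl
  let y : 𝔇.A := -⟨x none, hxA none⟩
  have huw : u = w + 𝔇.cst y * b₀ := by
    apply Subtype.ext
    push_cast
    rw [hu, hx', 𝔇.coe_cst, Algebra.smul_def]
    have : ((y : 𝔇.A) : L) = - x none := rfl
    rw [this, map_neg]
    ring
  have huV : (u : F) ∈ V := by
    rw [hu]
    exact V.sum_mem fun i _ => V.smul_mem _ (heV i)
  refine ⟨u, y, b₀, huV, ?_, huw, Or.inr hxV⟩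
  by_contra hy
  apply hxV
  have h1 : 𝔇.π y • 𝔇.res b₀ = 𝔇.res u - 𝔇.res w := by
    rw [huw, map_add, map_mul, 𝔇.res_cst, Algebra.smul_def]
    ring
  have h2 : 𝔇.π y • 𝔇.res b₀ ∈ 𝔇.red V := by
    rw [h1]
    exact (𝔇.red V).sub_mem (𝔇.res_mem_red huV) hw
  have h3 := (𝔇.red V).smul_mem (𝔇.π y)⁻¹ h2
  rwa [smul_smul, inv_mul_cancel₀ hy, one_smul] at h3

end Fermat.Agent.LLp
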