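import Fermat.Agent.LLp.HasT

/-!
# Finely normalised torsion divisors; inertia acts through the cyclotomic character
-/

set_option autoImplicit false

noncomputable section

open AlgebraicCurve Module IntermediateField

namespace Fermat.Agent.LLp

open Fermat.Agent.BadRed
open Fermat.Agent.FunField Fermat.Agent.FunField.PlaceLemmas Fermat.Agent.Deuring

variable {L k F F₁ : Type*} [Field L] [Field k] [Field F] [Field F₁] [Algebra L F] [Algebra k F₁]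
  {𝔇 : RData L k F (F₁ × F₁)} {n : ℕ}

/-- `D` is an `n`-torsion divisor whose function is `≡ 1` modulo more than `λ ^ n`. -/
def IsFine (Λ : LamData 𝔇 n) (D : Divisor L F) : Prop :=
  ∃ f s : 𝔇.O, 𝔇.res s = 0 ∧ f = 1 + 𝔇.cst (Λ.lam ^ n) * s ∧
    ∀ v : Place L F, (n : ℤ) * D v = v.ord (f : F)

variable {Λ : LamData 𝔇 n}

theorem pos_of_lam (Λ : LamData 𝔇 n) (hn : n.Prime) : 𝔇.π (Λ.lam ^ n) = 0 := by
  rw [map_pow, Λ.π_lam, zero_pow hn.ne_zero]

theorem IsFine.res_eq (hn : n.Prime) {f s : 𝔇.O} (h : f = 1 + 𝔇.cst (Λ.lam ^ n) * s) :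
    𝔇.res f = 1 := by
  rw [h, map_add, map_one, map_mul, 𝔇.res_cst, pos_of_lam Λ hn, map_zero, zero_mul, add_zero]

theorem IsFine.zero (Λ : LamData 𝔇 n) : IsFine Λ (0 : Divisor L F) :=
  ⟨1, 0, map_zero _, by rw [mul_zero, add_zero], fun v => by simp⟩

theorem IsFine.add (hn : n.Prime) {D E : Divisor L F} (hD : IsFine Λ D) (hE : IsFine Λ E) :
    IsFine Λ (D + E) := by
  obtain ⟨f, s, hs, hf, hfD⟩ := hD
  obtain ⟨f', s', hs', hf', hfD'⟩ := hE
  have h0 : (f : F) ≠ 0 := 𝔇.coe_ne_zero (by rw [IsFine.res_eq hn hf]; exact one_ne_zero)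
  have h0' : (f' : F) ≠ 0 := 𝔇.coe_ne_zero (by rw [IsFine.res_eq hn hf']; exact one_ne_zero)
  refine ⟨f * f', s + s' + 𝔇.cst (Λ.lam ^ n) * (s * s'), ?_, ?_, fun v => ?_⟩
  · rw [map_add, map_add, hs, hs', map_mul, map_mul, hs, zero_mul, mul_zero, add_zero, add_zero]
  · rw [hf, hf']; ring
  · rw [Finsupp.add_apply, mul_add, hfD, hfD']
    push_cast
    rw [v.ord_mul h0 h0']

theorem IsFine.neg (hn : n.Prime) {D : Divisor L F} (hD : IsFine Λ D) : IsFine Λ (-D) := by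
  obtain ⟨f, s, hs, hf, hfD⟩ := hD
  have hres := IsFine.res_eq hn hf
  have h0 : (f : F) ≠ 0 := 𝔇.coe_ne_zero (by rw [hres]; exact one_ne_zero)
  obtain ⟨f', hf'⟩ := 𝔇.isUnit_of_res (f := f) (by rw [hres]; exact isUnit_one)
  have h1 : f * f' = 1 := Subtype.ext hf'
  have hf0 : (f' : F) ≠ 0 := right_ne_zero_of_mul_eq_one hf'
  refine ⟨f', -(s * f'), ?_, ?_, fun v => ?_⟩
  · rw [map_neg, map_mul, hs, zero_mul, neg_zero]
  · have h2 : f' + 𝔇.cst (Λ.lam ^ n) * s * f' = 1 := by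
      rw [← h1, hf]; ring
    linear_combination h2
  · have h2 := congrArg v.ord hf'
    rw [v.ord_mul h0 hf0, v.ord_one, ← hfD] at h2
    rw [Finsupp.neg_apply]
    linarith

theorem IsFine.sub (hn : n.Prime) {D E : Divisor L F} (hD : IsFine Λ D) (hE : IsFine Λ E) :
    IsFine Λ (D - E) := by
  rw [sub_eq_add_neg]
  exact hD.add hn (hE.neg hn)

theorem IsFine.nsmul (hn : n.Prime) {D : Divisor L F} (hD : IsFine Λ D) (l : ℕ) :
    IsFine Λ (l • D) := by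
  induction l with
  | zero => rw [zero_smul]; exact IsFine.zero Λ
  | succ l ih => rw [succ_nsmul]; exact ih.add hn hD

theorem IsFine.smul {p : FrobPencil 𝔇} {D : Divisor L F} (hD : IsFine Λ D) (γ : GalEl p)
    {c : 𝔇.A}
    (hc : γ.g • (algebraMap L F (Λ.lam : L)) = algebraMap L F ((Λ.lam * c : 𝔇.A) : L)) :
    IsFine Λ (γ.g • D) := by
  obtain ⟨f, s, hs, hf, hfD⟩ := hD
  refine ⟨⟨γ.g • (f : F), γ.hO _ f.2⟩, 𝔇.cst (c ^ n) * ⟨γ.g • (s : F), γ.hO _ s.2⟩, ?_, ?_,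
    fun v => ?_⟩
  · rw [map_mul, γ.hres, hs]
    simp
  · apply Subtype.ext
    show γ.g • (f : F) = 1 + algebraMap L F ((Λ.lam ^ n : 𝔇.A) : L) *
      (algebraMap L F ((c ^ n : 𝔇.A) : L) * (γ.g • (s : F)))
    have e1 : (f : F) = 1 + algebraMap L F (Λ.lam : L) ^ n * (s : F) := by
      rw [hf, ← map_pow]; rfl
    have e2 : algebraMap L F ((Λ.lam ^ n : 𝔇.A) : L) = algebraMap L F (Λ.lam : L) ^ n := by
      rw [← map_pow]; rfl
    have e3 : algebraMap L F ((c ^ n : 𝔇.A) : L) = algebraMap L F (c : L) ^ n := by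
      rw [← map_pow]; rfl
    have e4 : algebraMap L F ((Λ.lam * c : 𝔇.A) : L) =
        algebraMap L F (Λ.lam : L) * algebraMap L F (c : L) := by
      rw [← map_mul]; rfl
    rw [e1, smul_add, smul_one, smul_mul', smul_pow', hc, e2, e3, e4]
    ring
  · rw [SemilinearAut.divisor_smul_apply, hfD]
    exact (γ.ord_smul v _).symm

/-- the divisor of `1 + λ h` -/
theorem IsFine.of_one_add (hn : n.Prime) {h : 𝔇.O} (hh : 𝔇.res h ^ n = 𝔇.res h)
    {D : Divisor L F} (hD : ∀ v : Place L F, D v = v.ord ((1 + 𝔇.cst Λ.lam * h : 𝔇.O) : F)) :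
    IsFine Λ D := by
  obtain ⟨Q, hQ⟩ := pow_one_add hn Λ Λ.lam 1 h (mul_one _).symm
  rw [cst_one, one_pow, mul_one] at hQ
  refine ⟨(1 + 𝔇.cst Λ.lam * h) ^ n, h ^ n + 𝔇.cst Λ.c₀ * (h + 𝔇.cst Λ.lam * h ^ 2 * Q), ?_, ?_,
    fun v => ?_⟩
  · rw [map_add, map_pow, hh, map_mul, map_add, map_mul, map_mul, 𝔇.res_cst, 𝔇.res_cst, Λ.π_lam,
      Λ.π_c₀, map_neg, map_one, map_zero]
    ring
  · rw [hQ, cst_pow]
  · rw [hD v]
    push_cast
    rw [ord_pow]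

section Main

variable {p : FrobPencil 𝔇} [IsFF L F] [IsFF k F₁] [HasPrincipalDivisors L F]
  [HasPrincipalDivisors k F₁] [IsAlgClosed k] [CharP k n] {g g₁ : ℤ} (H : FrobPencil.Hyp p g g₁)

omit [IsFF L F] [IsFF k F₁] [HasPrincipalDivisors L F] [HasPrincipalDivisors k F₁]
  [IsAlgClosed k] [CharP k n] in
include H in
theorem IsFine.exists_ftors (hn : n.Prime) {D : Divisor L F} (hD : IsFine Λ D) :
    ∃ τ : FTors 𝔇 n Λ, τ.D = D := by
  obtain ⟨f, s, hs, hf, hfD⟩ := hD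
  obtain ⟨ε, hε0, hεπ, hdiv⟩ := 𝔇.exists_divBy H.hnt s hs
  obtain ⟨c, hc⟩ := divBy_iff.mp hdiv
  have hfc : f = 1 + 𝔇.cst (Λ.lam ^ n * ε) * c := by rw [hf, hc, cst_mul]; ring
  exact ⟨⟨⟨D, f, IsFine.res_eq hn hf, hfD⟩, ε, hε0, hεπ, c, hfc⟩, rfl⟩

include H in
theorem IsFine.exists_hasT (hn : n.Prime) {D : Divisor L F} (hD : IsFine Λ D) :
    ∃ t : p.Pt → k, HasT p Λ D t ∧ ∀ x, t x ^ n = t x := by
  obtain ⟨τ, rfl⟩ := hD.exists_ftors H hn
  exact τ.exists_hasT H hn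

include H in
theorem IsFine.principal [IsAlgClosed L] (hn : n.Prime) {D : Divisor L F} (hD : IsFine Λ D)
    (h : HasT p Λ D fun _ => 0) : ∃ w : F, w ≠ 0 ∧ ∀ v : Place L F, D v = v.ord w := by
  obtain ⟨τ, rfl⟩ := hD.exists_ftors H hn
  obtain ⟨w, hw, h1⟩ := τ.principal H hn h
  exact ⟨w⁻¹, inv_ne_zero hw, fun v => by rw [h1, v.ord_inv]⟩

omit [IsFF L F] [IsFF k F₁] [HasPrincipalDivisors k F₁]
  [IsAlgClosed k] [CharP k n] in
/-- `t` of the divisor of `1 + λ h` -/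
theorem hasT_of_one_add (hn : n.Prime) {c : k} {h : 𝔇.O} (hh : 𝔇.res h = (algebraMap k F₁ c, 0)) :
    ∃ E : Divisor L F, (∀ v : Place L F, E v = v.ord ((1 + 𝔇.cst Λ.lam * h : 𝔇.O) : F)) ∧
      (c ^ n = c → IsFine Λ E) ∧ HasT p Λ (-E) (fun _ => -c) := by
  have h0 : ((1 + 𝔇.cst Λ.lam * h : 𝔇.O) : F) ≠ 0 := 𝔇.coe_ne_zero (by
    rw [map_add, map_one, map_mul, 𝔇.res_cst, Λ.π_lam, map_zero, zero_mul, add_zero]
    exact one_ne_zero)
  refine ⟨dv (K := L) _ h0, fun v => dv_apply _ _, fun hc => ?_, ?_⟩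
  · refine IsFine.of_one_add hn ?_ (fun v => dv_apply _ _)
    rw [hh, Prod.pow_mk, ← map_pow, hc, zero_pow hn.ne_zero]
  · refine ⟨0, 1 + 𝔇.cst Λ.lam * h, h, (algebraMap k p.OO c, 0), ?_, rfl, ?_, ?_⟩
    · rw [zero_smul, zero_add, mem_rr_of_ne h0]
      intro v
      rw [Finsupp.neg_apply, dv_apply, neg_neg]
    · rw [hh]
      rfl
    · intro x
      show x.1 0 - x.1 (p.FrO (algebraMap k p.OO c)) = -c
      rw [map_zero, AlgHom.commutes, AlgHom.commutes, zero_sub]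
      rfl

include H in
/-- classes with constant `t` are principal. -/
theorem IsFine.principal_of_const [IsAlgClosed L] (hn : n.Prime) {D : Divisor L F}
    (hD : IsFine Λ D) {c : k} (hc : c ^ n = c) (h : HasT p Λ D fun _ => c) :
    ∃ w : F, w ≠ 0 ∧ ∀ v : Place L F, D v = v.ord w := by
  obtain ⟨h', hh'⟩ := 𝔇.res_surj (algebraMap k F₁ c, 0)
  obtain ⟨E, hE, hEf, hET⟩ := hasT_of_one_add (p := p) (Λ := Λ) hn hh'
  have h1 : IsFine Λ (D - E) := hD.sub hn (hEf hc)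
  have h2 : HasT p Λ (D - E) fun _ => 0 := by
    rw [sub_eq_add_neg]
    convert h.add hET using 2
    rw [add_neg_cancel]
  obtain ⟨w, hw, hw'⟩ := h1.principal H hn h2
  have h0 : ((1 + 𝔇.cst Λ.lam * h' : 𝔇.O) : F) ≠ 0 := 𝔇.coe_ne_zero (by
    rw [map_add, map_one, map_mul, 𝔇.res_cst, Λ.π_lam, map_zero, zero_mul, add_zero]
    exact one_ne_zero)
  refine ⟨w * _, mul_ne_zero hw h0, fun v => ?_⟩
  rw [v.ord_mul hw h0, ← hw', ← hE, Finsupp.sub_apply, sub_add_cancel]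

include H in
/-- **Inertia acts on finely normalised classes through the cyclotomic character.** -/
theorem IsFine.inertia [IsAlgClosed L] (hn : n.Prime) {D : Divisor L F} (hD : IsFine Λ D)
    (γ : GalEl p) (hγ : ∀ a, γ.σ a = a) {c : 𝔇.A}
    (hc : γ.g • (algebraMap L F (Λ.lam : L)) = algebraMap L F ((Λ.lam * c : 𝔇.A) : L))
    {l : ℕ} (hl : 𝔇.π c = l) :
    ∃ w : F, w ≠ 0 ∧ ∀ v : Place L F, (γ.g • D - l • D) v = v.ord w := by
  obtain ⟨t, ht, htn⟩ := hD.exists_hasT H hn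
  have h1 : IsFine Λ (γ.g • D - l • D) := (hD.smul γ hc).sub hn (hD.nsmul hn l)
  obtain ⟨t', ht', -⟩ := h1.exists_hasT H hn
  have h2 : HasT p Λ (γ.g • D) (fun x => 𝔇.π c * t x) := ht.smul γ hγ hc
  obtain ⟨τ, hτ⟩ := (hD.smul γ hc).exists_ftors H hn
  obtain ⟨m₁, hm₁⟩ := τ.exists_trivGlue p H hn
  have h3 : HasT p Λ (γ.g • D) (fun x => t' x + l * t x) := by
    have := ht'.add (ht.nsmul l)
    rwa [sub_add_cancel] at this
  rw [← hτ] at h2 h3
  have h4 := fun x => HasT.unique hm₁ H h2 h3 x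
  have h5 : HasT p Λ (γ.g • D - l • D) fun _ => 0 := by
    convert ht' using 2 with x
    have := h4 x
    rw [hl] at this
    linear_combination this
  exact h1.principal H hn h5

end Main

end Fermat.Agent.LLp
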