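import Fermat.Agent.LLp.Principal

/-!
# The invariant `t` of finely normalised torsion classes
-/

set_option autoImplicit false

noncomputable section

open AlgebraicCurve Module IntermediateField

namespace Fermat.Agent.LLp

open Fermat.Agent.BadRed
open Fermat.Agent.FunField Fermat.Agent.FunField.PlaceLemmas Fermat.Agent.Deuring

variable {L k F F₁ : Type*} [Field L] [Field k] [Field F] [Field F₁] [Algebra L F] [Algebra k F₁]
  {𝔇 : RData L k F (F₁ × F₁)} {n : ℕ}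

/-- `t` is the gluing datum modulo `λ` of `D`. -/
def HasT (p : FrobPencil 𝔇) (Λ : LamData 𝔇 n) (D : Divisor L F) (t : p.Pt → k) : Prop :=
  ∃ (m : ℕ) (u b : 𝔇.O) (r : p.OO × p.OO), (u : F) ∈ riemannRochSpace (m • p.E + D) ∧
    u = 1 + 𝔇.cst Λ.lam * b ∧ p.ii r = 𝔇.res b ∧ ∀ x : p.Pt, x.1 r.2 - x.1 (p.FrO r.1) = t x

variable {p : FrobPencil 𝔇} {Λ : LamData 𝔇 n}

theorem HasT.add {D D' : Divisor L F} {t t' : p.Pt → k} (h : HasT p Λ D t)
    (h' : HasT p Λ D' t') : HasT p Λ (D + D') (fun x => t x + t' x) := by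
  obtain ⟨m, u, b, r, hu, hub, hr, ht⟩ := h
  obtain ⟨m', u', b', r', hu', hub', hr', ht'⟩ := h'
  refine ⟨m + m', u * u', b + b' + 𝔇.cst Λ.lam * (b * b'), r + r', ?_, ?_, ?_, ?_⟩
  · have := mul_mem_rr hu hu'
    have e : m • p.E + D + (m' • p.E + D') = (m + m') • p.E + (D + D') := by
      rw [add_smul]; abel
    rw [e] at this
    exact this
  · rw [hub, hub']; ring
  · rw [map_add, hr, hr', map_add, map_add, map_mul, 𝔇.res_cst, Λ.π_lam, map_zero, zero_mul,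
      add_zero]
  · intro x
    show _ = t x + t' x
    rw [← ht x, ← ht' x, Prod.snd_add, Prod.fst_add, map_add, map_add, map_add]
    ring

theorem HasT.zero : HasT p Λ (0 : Divisor L F) (fun _ => 0) := by
  refine ⟨0, 1, 0, 0, ?_, ?_, ?_, ?_⟩
  · rw [zero_smul, add_zero]
    exact one_mem_rr le_rfl
  · rw [mul_zero, add_zero]
  · rw [map_zero, map_zero]
  · intro x
    simp

theorem HasT.nsmul {D : Divisor L F} {t : p.Pt → k} (h : HasT p Λ D t) (l : ℕ) :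
    HasT p Λ (l • D) (fun x => l * t x) := by
  induction l with
  | zero => simpa using HasT.zero
  | succ l ih =>
    have := ih.add h
    rw [← succ_nsmul] at this
    convert this using 2 with x
    push_cast
    ring

theorem divBy_sub {u u' b b' : 𝔇.O} (hu : u = 1 + 𝔇.cst Λ.lam * b) (hu' : u' = 1 + 𝔇.cst Λ.lam * b')
    {D : Divisor L F} (h : (u : F) ∈ riemannRochSpace D) (h' : (u' : F) ∈ riemannRochSpace D) :
    ((b - b' : 𝔇.O) : F) ∈ riemannRochSpace D := by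
  have h0 : algebraMap L F (Λ.lam : L) ≠ 0 := by simpa using Λ.lam_ne
  have h1 : ((b - b' : 𝔇.O) : F) = (Λ.lam : L)⁻¹ • ((u : F) - u') := by
    rw [hu, hu', Algebra.smul_def, map_inv₀]
    simp only [Subring.coe_mul, Subring.coe_add, Subring.coe_one, 𝔇.coe_cst]
    have e : ((b - b' : 𝔇.O) : F) = (b : F) - b' := rfl
    rw [e]
    field_simp
    ring
  rw [h1]
  exact Submodule.smul_mem _ _ (Submodule.sub_mem _ h h')

/-- uniqueness of `t`. -/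
theorem HasT.unique {τ : Tors 𝔇 n} {m₁ : ℕ} (hτ : p.TrivGlue τ m₁) [IsFF L F] [IsFF k F₁]
    [HasPrincipalDivisors L F] [HasPrincipalDivisors k F₁] [IsAlgClosed k] {g g₁ : ℤ}
    (H : FrobPencil.Hyp p g g₁) {t t' : p.Pt → k}
    (h : HasT p Λ τ.D t) (h' : HasT p Λ τ.D t') (x : p.Pt) : t x = t' x := by
  obtain ⟨m, u, b, r, hu, hub, hr, ht⟩ := h
  obtain ⟨m', u', b', r', hu', hub', hr', ht'⟩ := h'
  have hle : ∀ {l : ℕ}, l ≤ max m₁ (max m m') →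
      riemannRochSpace (l • p.E + τ.D) ≤ riemannRochSpace ((max m₁ (max m m')) • p.E + τ.D) :=
    fun hl => rr_mono (add_le_add_left (p.E_mono hl) _)
  have h1 := divBy_sub (Λ := Λ) hub hub'
    (hle ((le_max_left _ _).trans (le_max_right _ _)) hu)
    (hle ((le_max_right _ _).trans (le_max_right _ _)) hu')
  have h2 : r - r' ∈ p.T τ (max m₁ (max m m')) := by
    refine ⟨b - b', h1, ?_⟩
    rw [map_sub, ← hr, ← hr', ← map_sub]
  rw [hτ _ (le_max_left _ _)] at h2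
  have h3 := (mem_S_iff p H _).mp h2.1 x
  rw [Prod.snd_sub, Prod.fst_sub, map_sub, map_sub, map_sub] at h3
  rw [← ht x, ← ht' x]
  linear_combination h3

/-- Galois action on `t`. -/
theorem HasT.smul {D : Divisor L F} {t : p.Pt → k} (h : HasT p Λ D t) (γ : GalEl p)
    (hγ : ∀ a, γ.σ a = a) {c : 𝔇.A}
    (hc : γ.g • (algebraMap L F (Λ.lam : L)) = algebraMap L F ((Λ.lam * c : 𝔇.A) : L)) :
    HasT p Λ (γ.g • D) (fun x => 𝔇.π c * t x) := by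
  obtain ⟨m, u, b, r, hu, hub, hr, ht⟩ := h
  let b' : 𝔇.O := ⟨γ.g • (b : F), γ.hO _ b.2⟩
  have hres : 𝔇.res b' = 𝔇.res b := by
    rw [γ.hres, hγ, hγ]
  refine ⟨m, ⟨γ.g • (u : F), γ.hO _ u.2⟩, 𝔇.cst c * b', 𝔇.π c • r, ?_, ?_, ?_, ?_⟩
  · have h1 : m • p.E + γ.g • D = γ.g • (m • p.E + D) := by
      have h2 : γ.g • (m • p.E) = m • (γ.g • p.E) :=
        map_nsmul (DistribSMul.toAddMonoidHom (Divisor L F) γ.g) m p.E
      rw [smul_add, h2, γ.smul_E]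
    rw [h1]
    exact (γ.mem_rr_smul _ _).mpr hu
  · apply Subtype.ext
    show γ.g • (u : F) = _
    rw [hub]
    simp only [Subring.coe_mul, Subring.coe_add, Subring.coe_one, 𝔇.coe_cst]
    rw [smul_add, smul_mul', smul_one, hc]
    have : algebraMap L F ((Λ.lam * c : 𝔇.A) : L) = algebraMap L F (Λ.lam : L) *
        algebraMap L F (c : L) := map_mul _ _ _
    rw [this]
    show _ = 1 + algebraMap L F (Λ.lam : L) * (algebraMap L F (c : L) * (γ.g • (b : F)))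
    ring
  · rw [map_smul, map_mul, 𝔇.res_cst, hres, ← hr, Algebra.smul_def]
  · intro x
    show _ = 𝔇.π c * t x
    rw [← ht x, Prod.smul_snd, Prod.smul_fst, map_smul, map_smul, map_smul, smul_eq_mul,
      smul_eq_mul]
    ring

section Exist

theorem good_one_left (M : ℕ) : p.Good M 0 1 := by
  refine ⟨((1 : p.OO), (1 : p.OO)), ⟨p.S.one_mem, one_mem_rr (nsmul_nonneg p.Eb_nonneg _),
    one_mem_rr (nsmul_nonneg p.Eb_nonneg _)⟩, ?_⟩
  rw [pow_zero, one_mul]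
  rfl

theorem good_one_right (M : ℕ) : p.Good 0 M 1 := by
  refine ⟨(p.tO, p.tO) ^ M, ⟨p.S.pow_mem p.t_mem_S M, ?_, ?_⟩, ?_⟩
  · show p.tO ^ M ∈ p.P (0 + M)
    rw [zero_add, p.mem_P]
    exact pow_mem_rr p.tb_mem M
  · show p.tO ^ M ∈ p.P (0 + M)
    rw [zero_add, p.mem_P]
    exact pow_mem_rr p.tb_mem M
  · rw [mul_one]
    rfl

variable [IsFF L F] [IsFF k F₁] [HasPrincipalDivisors L F] [HasPrincipalDivisors k F₁]
  [IsAlgClosed k] [CharP k n] {g g₁ : ℤ} (H : FrobPencil.Hyp p g g₁)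

include H in
/-- existence of `t`, with values in `𝔽_n`. -/
theorem FTors.exists_hasT (hn : n.Prime) (τ : FTors 𝔇 n Λ) :
    ∃ t : p.Pt → k, HasT p Λ τ.D t ∧ ∀ x, t x ^ n = t x := by
  obtain ⟨m₁, h₁⟩ := τ.exists_trivGlue p H hn
  obtain ⟨m₀, h₀⟩ := p.exists_saturated H.hRR H.hRR₁ H.hpos
  obtain ⟨u, b, hu, hub⟩ := τ.exists_approx p H hn h₁ h₀ (a := max m₁ m₀) (b := 0)
    (by simp) (by simp) (good_one_left _)
  obtain ⟨r, -, hr, hrx⟩ := τ.approx_artin p H hn h₀ (a := max m₁ m₀) (b := 0) (by simp) hu hub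
  refine ⟨fun x => x.1 r.2 - x.1 (p.FrO r.1), ⟨max m₁ m₀, u, b, r, ?_, hub, ?_, fun x => rfl⟩, ?_⟩
  · have e : p.G (max m₁ m₀) 0 = (max m₁ m₀) • p.E := by
      rw [Pencil.G, zero_smul, add_zero]
    rwa [e] at hu
  · rw [hr, pow_zero, one_mul]
  · intro x
    have := hrx x
    rwa [mul_zero, pow_zero, one_mul] at this

include H in
/-- if `t = 0`, then `1` can be approximated modulo `λ ε`. -/
theorem FTors.exists_fine (hn : n.Prime) (τ : FTors 𝔇 n Λ) (h : HasT p Λ τ.D fun _ => 0)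
    {m₁ m₀ : ℕ} (h₁ : p.TrivGlue τ.toTors m₁)
    (h₀ : p.TrivGlue (Tors.zero 𝔇 1) m₀) {a b : ℕ} (hab : m₁ ≤ a + b) (hab' : m₀ ≤ a + b)
    (hgood : p.Good a b 1) :
    ∃ (u c : 𝔇.O) (ε : 𝔇.A), (u : F) ∈ riemannRochSpace (p.G a b + τ.D) ∧
      u = 1 + 𝔇.cst Λ.lam * (𝔇.cst ε * c) ∧ (ε : L) ≠ 0 ∧ 𝔇.π ε = 0 := by
  obtain ⟨m, u₀, b₀, r₀, hu₀, hub₀, hr₀, ht₀⟩ := h
  obtain ⟨u, b', hu, hub⟩ := τ.exists_approx p H hn h₁ h₀ hab hab' hgood
  obtain ⟨r, hrP, hr, hrx⟩ := τ.approx_artin p H hn h₀ hab' hu hub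
  -- `r` is glued
  have hrS : r ∈ p.S := by
    have hG : m • p.E = p.G m 0 := by rw [Pencil.G, zero_smul, add_zero]
    rw [hG] at hu₀
    have hle : ∀ (a' b'' : ℕ), a' ≤ max a m → b'' ≤ b →
        riemannRochSpace (p.G a' b'' + τ.D) ≤ riemannRochSpace (p.G (max a m) b + τ.D) :=
      fun a' b'' h h' => rr_mono (add_le_add_left (p.G_mono h h') _)
    have h1 := divBy_sub (Λ := Λ) hub hub₀ (hle _ _ (le_max_left _ _) le_rfl hu)
      (hle _ _ (le_max_right _ _) (Nat.zero_le _) hu₀)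
    have h2 := 𝔇.res_mem_red h1
    obtain ⟨q', ⟨hS, -, -⟩, hq'⟩ := (h₁.mem_red_iff p H.hRR hn.ne_zero
      (hab.trans (Nat.add_le_add_right (le_max_left _ _) _)) _).mp h2
    have h3 : q' = r - (p.tO, p.tO) ^ b * r₀ := by
      apply p.ii_injective
      rw [hq', map_sub, map_sub, hr, ← hr₀, mul_sub]
      rfl
    rw [mem_S_iff p H]
    intro x
    have h4 := (mem_S_iff p H _).mp hS x
    have htt : x.1 (p.FrO p.tO) = x.1 p.tO := ((mem_S_iff p H _).mp p.t_mem_S x).symm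
    rw [h3] at h4
    simp only [Prod.snd_sub, Prod.fst_sub, Prod.snd_mul, Prod.fst_mul, Prod.pow_mk, map_sub,
      map_mul, map_pow, htt] at h4
    have h5 := ht₀ x
    linear_combination h4 + x.1 p.tO ^ b * h5
  have hgood' : p.Good a b (𝔇.res b') := ⟨r, ⟨hrS, hrP⟩, hr⟩
  obtain ⟨v, hv, hvr⟩ := (h₁.mem_red_iff p H.hRR hn.ne_zero hab _).mpr hgood'
  have hres0 : 𝔇.res (b' - v) = 0 := by rw [map_sub, hvr, sub_self]
  obtain ⟨ε, hε0, hεπ, hdiv⟩ := 𝔇.exists_divBy H.hnt (b' - v) hres0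
  obtain ⟨c, hc⟩ := divBy_iff.mp hdiv
  refine ⟨u - 𝔇.cst Λ.lam * v, c, ε, ?_, ?_, hε0, hεπ⟩
  · have e : ((u - 𝔇.cst Λ.lam * v : 𝔇.O) : F) = (u : F) - (Λ.lam : L) • (v : F) := by
      rw [Algebra.smul_def]; rfl
    rw [e]
    exact Submodule.sub_mem _ hu (Submodule.smul_mem _ _ hv)
  · rw [← hc, hub]; ring

include H in
/-- **classes with `t = 0` are principal.** -/
theorem FTors.principal [IsAlgClosed L] (hn : n.Prime) (τ : FTors 𝔇 n Λ)
    (h : HasT p Λ τ.D fun _ => 0) : ∃ w : F, w ≠ 0 ∧ ∀ v : Place L F, τ.D v = -(v.ord w) := by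
  classical
  obtain ⟨m₁, h₁⟩ := τ.exists_trivGlue p H hn
  obtain ⟨m₀, h₀⟩ := p.exists_saturated H.hRR H.hRR₁ H.hpos
  obtain ⟨M, hM⟩ : ∃ M, M = max m₁ m₀ := ⟨_, rfl⟩
  have hM1 : m₁ ≤ M := by rw [hM]; exact le_max_left _ _
  have hM0 : m₀ ≤ M := by rw [hM]; exact le_max_right _ _
  obtain ⟨u, c, ε, hu, huc, hε0, hεπ⟩ := τ.exists_fine H hn h h₁ h₀ (a := M) (b := 0)
    (by simpa using hM1) (by simpa using hM0) (good_one_left M)
  obtain ⟨u', c', ε', hu', huc', hε0', hεπ'⟩ := τ.exists_fine H hn h h₁ h₀ (a := 0) (b := M)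
    (by simpa using hM1) (by simpa using hM0) (good_one_right M)
  -- a common `ε`
  obtain ⟨δ, hδ0, hδπ, z, hz⟩ : ∃ (δ : 𝔇.A), (δ : L) ≠ 0 ∧ 𝔇.π δ = 0 ∧
      ∃ z : Fin 3 → 𝔇.A, ∀ i, ![ε, ε', τ.ε] i = δ * z i := by
    obtain ⟨j, hj0, hj⟩ := 𝔇.exists_scale (fun i => ((![ε, ε', τ.ε] i : 𝔇.A) : L)) (by
      intro h
      exact hε0 (congrFun h 0))
    refine ⟨![ε, ε', τ.ε] j, hj0, ?_, fun i => ⟨_, hj i⟩, fun i => Subtype.ext ?_⟩
    · fin_cases j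
      · exact hεπ
      · exact hεπ'
      · exact τ.π_ε
    · show _ = ((![ε, ε', τ.ε] j : 𝔇.A) : L) * ((![ε, ε', τ.ε] i : 𝔇.A) / (![ε, ε', τ.ε] j : 𝔇.A))
      field_simp
  have hz0 : ε = δ * z 0 := hz 0
  have hz1 : ε' = δ * z 1 := hz 1
  have hz2 : τ.ε = δ * z 2 := hz 2
  have hpow : ∀ (w d : 𝔇.O) (z' : 𝔇.A), w = 1 + 𝔇.cst Λ.lam * (𝔇.cst (δ * z') * d) →
      DivBy 𝔇.O ((Λ.lam : L) ^ n * δ) ((w : F) ^ n * τ.f - 1) := by
    intro w d z' hw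
    obtain ⟨Q, hQ⟩ := pow_one_add hn Λ Λ.lam 1 (𝔇.cst (δ * z') * d) (mul_one _).symm
    rw [← hw, cst_one, one_pow, mul_one] at hQ
    have hcoe : ((Λ.lam : L) ^ n * δ) = ((Λ.lam ^ n * δ : 𝔇.A) : L) := rfl
    have hcoe2 : (w : F) ^ n * τ.f - 1 = ((w ^ n * τ.f - 1 : 𝔇.O) : F) := rfl
    rw [hcoe, hcoe2, divBy_iff]
    obtain ⟨n', hn'⟩ : ∃ n', n = n' + 1 := ⟨n - 1, by have := hn.one_le; omega⟩
    refine ⟨𝔇.cst z' * d * (𝔇.cst (δ * z') * d) ^ n' + 𝔇.cst Λ.c₀ * (𝔇.cst z' * d +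
      𝔇.cst Λ.lam * (𝔇.cst z' * d) * (𝔇.cst (δ * z') * d) * Q) + 𝔇.cst (z 2) * τ.g * w ^ n, ?_⟩
    have h1 : (𝔇.cst (δ * z') * d) ^ n = (𝔇.cst (δ * z') * d) * (𝔇.cst (δ * z') * d) ^ n' := by
      rw [hn', pow_succ']
    rw [τ.hg, hz2]
    rw [h1] at hQ
    simp only [cst_mul, cst_pow] at hQ ⊢
    linear_combination hQ
  refine principal_of_approx p H hn (τ := τ.toTors) (Λ := Λ)
    (fun m hm => h₁ m (hM1.trans hm)) (fun m hm => h₀ m (hM0.trans hm)) hδ0 hδπ hu hu' ?_ ?_ ?_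
  · rw [hz0] at huc
    exact hpow u c (z 0) huc
  · rw [hz1] at huc'
    exact hpow u' c' (z 1) huc'
  · have hcoe : ((Λ.lam : L) * δ) = ((Λ.lam * δ : 𝔇.A) : L) := rfl
    have hcoe2 : (u : F) - u' = ((u - u' : 𝔇.O) : F) := rfl
    rw [hcoe, hcoe2, divBy_iff]
    refine ⟨𝔇.cst (z 0) * c - 𝔇.cst (z 1) * c', ?_⟩
    rw [huc, huc', hz0, hz1]
    simp only [cst_mul]
    ring

end Exist

end Fermat.Agent.LLp
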