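import Mathlib

/-!
# A sum of floors
-/

set_option autoImplicit false

namespace Fermat.Agent.LLp

theorem sum_mod {n : ℕ} (hn : n.Prime) (s δ : ℤ) (hδ : ¬ (n : ℤ) ∣ δ) :
    2 * ∑ j ∈ Finset.range n, (s - j * δ) % (n : ℤ) = n * (n - 1) := by
  haveI := Fact.mk hn
  have hδ0 : (δ : ZMod n) ≠ 0 := by
    rwa [Ne, ZMod.intCast_zmod_eq_zero_iff_dvd]
  have h1 : ∀ F : ZMod n → ℤ, ∑ j ∈ Finset.range n, F (j : ZMod n) = ∑ z : ZMod n, F z := by
    intro F
    refine Finset.sum_nbij' (fun j => (j : ZMod n)) (fun z => z.val) (fun _ _ => Finset.mem_univ _)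
      (fun z _ => Finset.mem_range.mpr (ZMod.val_lt z)) (fun j hj => ?_) (fun z _ => ?_)
      (fun _ _ => rfl)
    · exact ZMod.val_cast_of_lt (Finset.mem_range.mp hj)
    · exact ZMod.natCast_zmod_val z
  let e : ZMod n ≃ ZMod n :=
    { toFun := fun z => (s : ZMod n) - z * δ
      invFun := fun z => ((s : ZMod n) - z) * (δ : ZMod n)⁻¹
      left_inv := fun z => by
        show ((s : ZMod n) - ((s : ZMod n) - z * δ)) * (δ : ZMod n)⁻¹ = z
        rw [sub_sub_cancel, mul_assoc, mul_inv_cancel₀ hδ0, mul_one]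
      right_inv := fun z => by
        show (s : ZMod n) - ((s : ZMod n) - z) * (δ : ZMod n)⁻¹ * δ = z
        rw [mul_assoc, inv_mul_cancel₀ hδ0, mul_one, sub_sub_cancel] }
  have h2 : ∑ j ∈ Finset.range n, (s - j * δ) % (n : ℤ) = ∑ z : ZMod n, ((z.val : ℕ) : ℤ) := by
    have h3 : ∀ j ∈ Finset.range n, (s - j * δ) % (n : ℤ) =
        (((e (j : ZMod n)).val : ℕ) : ℤ) := by
      intro j _
      have h4 : (e (j : ZMod n)) = (((s - j * δ : ℤ)) : ZMod n) := by
        show (s : ZMod n) - (j : ZMod n) * δ = _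
        push_cast
        ring
      rw [h4, ZMod.val_intCast]
    rw [Finset.sum_congr rfl h3, h1 (fun z => (((e z).val : ℕ) : ℤ))]
    exact Equiv.sum_comp e (fun z => ((z.val : ℕ) : ℤ))
  have h5 : ∑ z : ZMod n, ((z.val : ℕ) : ℤ) = ∑ j ∈ Finset.range n, (j : ℤ) := by
    rw [← h1 (fun z => ((z.val : ℕ) : ℤ))]
    refine Finset.sum_congr rfl fun j hj => ?_
    rw [ZMod.val_cast_of_lt (Finset.mem_range.mp hj)]
  rw [h2, h5]
  have h6 : ∀ m : ℕ, 2 * ∑ j ∈ Finset.range m, (j : ℤ) = m * (m - 1) := by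
    intro m
    induction m with
    | zero => simp
    | succ m ih =>
      rw [Finset.sum_range_succ, mul_add, ih]
      push_cast
      ring
  exact h6 n

theorem sum_floor {n : ℕ} (hn : n.Prime) (s δ : ℤ) (hδ : ¬ (n : ℤ) ∣ δ) :
    2 * ∑ j ∈ Finset.range n, (s - j * δ - 1) / (n : ℤ) = 2 * s - δ * (n - 1) - (n + 1) := by
  have hn0 : (n : ℤ) ≠ 0 := by exact_mod_cast hn.ne_zero
  have h1 := sum_mod hn (s - 1) δ hδ
  have h2 : ∀ j ∈ Finset.range n, (n : ℤ) * ((s - j * δ - 1) / (n : ℤ)) =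
      (s - j * δ - 1) - (s - 1 - j * δ) % (n : ℤ) := by
    intro j _
    have h3 := Int.mul_ediv_add_emod (s - j * δ - 1) n
    have h4 : s - 1 - j * δ = s - j * δ - 1 := by ring
    rw [h4]
    linarith
  have h6 : ∀ m : ℕ, 2 * ∑ j ∈ Finset.range m, (s - j * δ - 1) =
      m * (2 * s - 2 - δ * (m - 1)) := by
    intro m
    induction m with
    | zero => simp
    | succ m ih =>
      rw [Finset.sum_range_succ, mul_add, ih]
      push_cast
      ring
  have h5 : (n : ℤ) * (2 * ∑ j ∈ Finset.range n, (s - j * δ - 1) / (n : ℤ)) =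
      n * (2 * s - δ * (n - 1) - (n + 1)) := by
    have h7 : (n : ℤ) * (2 * ∑ j ∈ Finset.range n, (s - j * δ - 1) / (n : ℤ)) =
        2 * ∑ j ∈ Finset.range n, ((s - j * δ - 1) - (s - 1 - j * δ) % (n : ℤ)) := by
      rw [← Finset.sum_congr rfl h2, ← Finset.mul_sum]
      ring
    rw [h7, Finset.sum_sub_distrib, mul_sub, h6, h1]
    ring
  exact mul_left_cancel₀ hn0 h5

theorem le_of_floor {n : ℕ} (hn : 0 < n) (s : ℤ) : (n : ℤ) * (s / n) ≤ s ∧
    ((n : ℤ) * (s / n) = s → (n : ℤ) ∣ s) :=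
  ⟨by
    have h1 := Int.mul_ediv_add_emod s n
    have h2 := Int.emod_nonneg s (b := (n : ℤ)) (by omega)
    linarith, fun h => ⟨s / n, h.symm⟩⟩

end Fermat.Agent.LLp
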