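import Fermat.Agent.LLp.PoleBound
import Fermat.Agent.LLp.IntSum

/-!
# The dimension inequality for a torsion divisor twisted by a power of a modular unit
-/

set_option autoImplicit false

noncomputable section

open AlgebraicCurve Module IntermediateField

namespace Fermat.Agent.LLp

open Fermat.Agent.BadRed
open Fermat.Agent.FunField Fermat.Agent.FunField.PlaceLemmas Fermat.Agent.Deuring

variable {L k : Type*} [Field L] [Field k]
variable {F F₁ : Type*} [Field F] [Field F₁] [Algebra L F] [Algebra k F₁]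
  {T : TwoVal L k F F₁} (p : FrobPencil T.toRData)

/-- normalised at `V`: in `O` with nonzero residue -/
def Unit₁ {A : ValuationSubring L} {π : A →+* k} (V : ResVal A π F F₁) (f : F) : Prop :=
  ∃ h : f ∈ V.O, V.r ⟨f, h⟩ ≠ 0

/-- a witness that the reduction of `L(mE + D)`, normalised by `g`, is not split -/
def NonSplit (D : Divisor L F) (g : F) : Prop :=
  ∃ (m : ℕ) (w : F), w ∈ riemannRochSpace (m • p.E + D) ∧
    ∃ (h₁ : w * g ∈ T.V₁.O) (h₂ : w * g ∈ T.V₂.O),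
      ∀ (m' : ℕ) (w' : F), w' ∈ riemannRochSpace (m' • p.E + D) →
        ∀ (h₁' : w' * g ∈ T.V₁.O) (h₂' : w' * g ∈ T.V₂.O), T.V₁.r ⟨_, h₁'⟩ = 0 →
          T.V₂.r ⟨_, h₂'⟩ ≠ T.V₂.r ⟨_, h₂⟩

section Norm

theorem isUnit_mul {A : ValuationSubring L} {π : A →+* k} {V : ResVal A π F F₁} {f g : F}
    (hf : Unit₁ V f) (hg : Unit₁ V g) : Unit₁ V (f * g) := by
  obtain ⟨h, e⟩ := hf
  obtain ⟨h', e'⟩ := hg
  refine ⟨mul_mem h h', ?_⟩
  have : (⟨f * g, mul_mem h h'⟩ : V.O) = ⟨f, h⟩ * ⟨g, h'⟩ := rfl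
  rw [this, map_mul]
  exact mul_ne_zero e e'

variable [IsAlgClosed L]

/-- normalisation of a function at both valuations by an `n`-th power. -/
theorem exists_normalise (harch : T.Arch) {n : ℕ} (hn : n ≠ 0) {f : F} (hf : f ≠ 0) :
    ∃ g : F, g ≠ 0 ∧ Unit₁ T.V₁ (f * (g ^ n)⁻¹) ∧ Unit₁ T.V₂ (f * (g ^ n)⁻¹) ∧
      T.V₁.HasRes g 1 ∧ T.V₂.HasRes g 1 := by
  obtain ⟨c, hc, hcO, hcr⟩ := T.V₁.scale f hf
  obtain ⟨c', hc', hcO', hcr'⟩ := T.V₂.scale f hf
  obtain ⟨d, hd⟩ := IsAlgClosed.exists_pow_nat_eq c (Nat.pos_of_ne_zero hn)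
  obtain ⟨d', hd'⟩ := IsAlgClosed.exists_pow_nat_eq c' (Nat.pos_of_ne_zero hn)
  have hd0 : d ≠ 0 := by
    rintro rfl
    rw [zero_pow hn] at hd
    exact hc hd.symm
  have hd0' : d' ≠ 0 := by
    rintro rfl
    rw [zero_pow hn] at hd'
    exact hc' hd'.symm
  obtain ⟨h, ⟨h₁, e₁⟩, ⟨h₂, e₂⟩⟩ := T.approx harch hd0 hd0' 1 1
  have hh : h ≠ 0 := by
    rintro rfl
    have h3 : (⟨d • (0 : F), h₁⟩ : T.V₁.O) = 0 := Subtype.ext (smul_zero d)
    rw [h3, map_zero] at e₁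
    exact zero_ne_one e₁
  have key : ∀ (V : ResVal T.A T.π F F₁) (c d : L), c ≠ 0 → d ^ n = c →
      ∀ (hO : c • f ∈ V.O), V.r ⟨c • f, hO⟩ ≠ 0 → ∀ (h₁ : d • h ∈ V.O),
      V.r ⟨d • h, h₁⟩ = 1 → Unit₁ V (f * (h ^ n)⁻¹) := by
    intro V c d hc hd hO har h₁ e₁
    have h4 : V.r (⟨d • h, h₁⟩ ^ n) ≠ 0 := by
      rw [map_pow, e₁, one_pow]; exact one_ne_zero
    obtain ⟨hinv, einv⟩ := V.inv_mem h4
    have h5 : f * (h ^ n)⁻¹ = (c • f) * (((⟨d • h, h₁⟩ : V.O) ^ n : V.O) : F)⁻¹ := by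
      push_cast
      rw [smul_pow, hd, Algebra.smul_def, Algebra.smul_def, mul_inv]
      have : algebraMap L F c ≠ 0 := by rwa [Ne, map_eq_zero]
      field_simp
    have h6 : f * (h ^ n)⁻¹ ∈ V.O := by rw [h5]; exact mul_mem hO hinv
    refine ⟨h6, ?_⟩
    have h7 : (⟨_, h6⟩ : V.O) = ⟨c • f, hO⟩ * ⟨_, hinv⟩ := Subtype.ext h5
    rw [h7, map_mul, einv, map_pow, e₁, one_pow, inv_one, mul_one]
    exact har
  exact ⟨h, hh, key T.V₁ c d hc hd hcO hcr h₁ e₁, key T.V₂ c' d' hc' hd' hcO' hcr' h₂ e₂,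
    ⟨d, hd0, h₁, e₁⟩, ⟨d', hd0', h₂, e₂⟩⟩

end Norm

/-- `HasRes` for units -/
theorem Unit₁.hasRes {A : ValuationSubring L} {π : A →+* k} {V : ResVal A π F F₁} {f : F}
    (h : Unit₁ V f) : V.HasRes f (V.r ⟨f, h.1⟩) := by
  have h2 : (1 : L) • f ∈ V.O := by rw [one_smul]; exact h.1
  refine ⟨1, one_ne_zero, h2, ?_⟩
  congr 1
  exact Subtype.ext (one_smul _ _)

theorem hasRes_of_mem {A : ValuationSubring L} {π : A →+* k} {V : ResVal A π F F₁} {f : F}
    (h : f ∈ V.O) : V.HasRes f (V.r ⟨f, h⟩) := by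
  have h2 : (1 : L) • f ∈ V.O := by rw [one_smul]; exact h
  refine ⟨1, one_ne_zero, h2, ?_⟩
  congr 1
  exact Subtype.ext (one_smul _ _)

theorem ord_hasRes {A : ValuationSubring L} {π : A →+* k} {V : ResVal A π F F₁} {f : F}
    {a b : F₁} (ha : V.HasRes f a) (hb : V.HasRes f b) (ha0 : a ≠ 0) (hb0 : b ≠ 0)
    (v : Place k F₁) : v.ord a = v.ord b := by
  obtain ⟨κ, hκ, rfl⟩ := ha.unique hb ha0 hb0
  rw [Algebra.smul_def, v.ord_mul (by rwa [Ne, map_eq_zero]) ha0, ord_algebraMap, zero_add]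

variable [IsFF L F] [IsFF k F₁] [HasPrincipalDivisors L F] [HasPrincipalDivisors k F₁]
  [IsAlgClosed k] {g g₁ : ℤ} (H : FrobPencil.Hyp p g g₁)

section Div

/-- the upper bound divisor -/
def bdDiv (S : Finset (Place k F₁)) (E : Place k F₁ → ℤ) (n : ℕ)
    (a : F₁) (ha : a ≠ 0) : Divisor k F₁ := by
  classical
  exact Finsupp.onFinset ((dv (K := k) a ha).support ∪ S)
    (fun v => if v ∈ S then E v else v.ord a / n) (by
      intro v hv
      by_contra h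
      rw [Finset.mem_union, not_or] at h
      apply hv
      rw [if_neg h.2]
      have h1 : v.ord a = 0 := by
        have := Finsupp.notMem_support_iff.mp h.1
        rwa [dv_apply] at this
      rw [h1]
      simp)

omit [IsFF k F₁] [IsAlgClosed k] in
theorem bdDiv_apply [DecidableEq (Place k F₁)] (S : Finset (Place k F₁)) (E : Place k F₁ → ℤ) (n : ℕ)
    (a : F₁) (ha : a ≠ 0) (v : Place k F₁) :
    bdDiv S E n a ha v = if v ∈ S then E v else v.ord a / n := by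
  rw [bdDiv, Finsupp.onFinset_apply]
  by_cases h : v ∈ S
  · rw [if_pos h, if_pos h]
  · rw [if_neg h, if_neg h]

omit [HasPrincipalDivisors k F₁] in
theorem degree_eq_sum (D : Divisor k F₁) (S : Finset (Place k F₁)) (hS : D.support ⊆ S) :
    Divisor.degree D = ∑ v ∈ S, D v := by
  have h1 : Divisor.degree D = D.sum fun v m => m * (v.deg : ℤ) := rfl
  rw [h1, Finsupp.sum_of_support_subset D hS _ (fun v _ => by rw [zero_mul])]
  refine Finset.sum_congr rfl fun v _ => ?_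
  have : Module.Finite k v.ResidueField := inferInstance
  rw [v.deg_eq_one_of_isAlgClosed_of_finite]
  simp

end Div

include H in
/-- **The dimension inequality.** -/
theorem ineq [IsAlgClosed L] (harch : T.Arch) {n : ℕ} (hn : n.Prime) [CharP k n]
    {pl₁ pl₂ : p.Pt → Place k F₁} (hpl₁ : ∀ x, At p.toPencil (p.frPt x) (pl₁ x))
    (hpl₂ : ∀ x : p.Pt, At p.toPencil x.1 (pl₂ x)) {D : Divisor L F} {f : F}
    (hf : IsDiv (n • D) f) {a₁ a₂ : F₁} (ha₁ : a₁ ≠ 0) (ha₂ : a₂ ≠ 0) (hr₁ : T.V₁.HasRes f a₁)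
    (hr₂ : T.V₂.HasRes f a₂) {u : F} {c : ℕ} (hu0 : u ≠ 0)
    (hu : u⁻¹ ∈ riemannRochSpace (c • p.E)) {b₁ b₂ : F₁} (hb₁ : b₁ ≠ 0) (hb₂ : b₂ ≠ 0)
    (hs₁ : T.V₁.HasRes u b₁) (hs₂ : T.V₂.HasRes u b₂) (j : ℕ) [Fintype p.Pt]
    (S₁ S₂ : Finset (Place k F₁)) (hS₁ : ∀ v, v ∈ S₁ ↔ ∃ x, pl₁ x = v)
    (hS₂ : ∀ v, v ∈ S₂ ↔ ∃ x, pl₂ x = v) :
    ∃ (B : Finset p.Pt), (∀ x ∈ B, (n : ℤ) ∣ (pl₁ x).ord a₁ - j * (pl₁ x).ord b₁ ∧
        (n : ℤ) ∣ (pl₂ x).ord a₂ - j * (pl₂ x).ord b₂ ∧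
        ∃ g : F, g ≠ 0 ∧ Unit₁ T.V₁ (f * (u ^ j)⁻¹ * (g ^ n)⁻¹) ∧
          Unit₁ T.V₂ (f * (u ^ j)⁻¹ * (g ^ n)⁻¹) ∧ NonSplit p D g) ∧
      -(Fintype.card p.Pt : ℤ) ≤ B.card +
        Divisor.degree (bdDiv S₁ (fun v => (v.ord a₁ - j * v.ord b₁ - 1) / n) n a₁ ha₁) +
        Divisor.degree (bdDiv S₂ (fun v => (v.ord a₂ - j * v.ord b₂ - 1) / n) n a₂ ha₂) := by
  classical
  have hn0 := hn.ne_zero
  haveI := Fact.mk hn
  have hfuj0 : f * (u ^ j)⁻¹ ≠ 0 := mul_ne_zero hf.1 (inv_ne_zero (pow_ne_zero _ hu0))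
  obtain ⟨g', hg0, hU₁, hU₂, hg'₁, hg'₂⟩ := exists_normalise harch hn0 hfuj0
  set fj : F := f * (u ^ j)⁻¹ * (g' ^ n)⁻¹ with hfj
  obtain ⟨hfj₁, hrj₁⟩ := hU₁
  obtain ⟨hfj₂, hrj₂⟩ := hU₂
  set r₁ : F₁ := T.V₁.r ⟨fj, hfj₁⟩ with hr₁def
  set r₂ : F₁ := T.V₂.r ⟨fj, hfj₂⟩ with hr₂def
  let fjO : T.toRData.O := ⟨fj, hfj₁, hfj₂⟩
  -- orders of the residues
  have hfuj : fj * g' ^ n * u ^ j = f := by
    rw [hfj]
    field_simp
  have hord₁ : ∀ v : Place k F₁, v.ord a₁ = v.ord r₁ + j * v.ord b₁ := by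
    intro v
    have h1 : T.V₁.HasRes f (r₁ * 1 ^ n * b₁ ^ j) := by
      rw [← hfuj]
      exact ((hasRes_of_mem hfj₁).mul (hg'₁.pow n)).mul (hs₁.pow j)
    rw [one_pow, mul_one] at h1
    rw [ord_hasRes hr₁ h1 ha₁ (mul_ne_zero hrj₁ (pow_ne_zero j hb₁)),
      v.ord_mul hrj₁ (pow_ne_zero j hb₁), ord_pow]
  have hord₂ : ∀ v : Place k F₁, v.ord a₂ = v.ord r₂ + j * v.ord b₂ := by
    intro v
    have h1 : T.V₂.HasRes f (r₂ * 1 ^ n * b₂ ^ j) := by
      rw [← hfuj]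
      exact ((hasRes_of_mem hfj₂).mul (hg'₂.pow n)).mul (hs₂.pow j)
    rw [one_pow, mul_one] at h1
    rw [ord_hasRes hr₂ h1 ha₂ (mul_ne_zero hrj₂ (pow_ne_zero j hb₂)),
      v.ord_mul hrj₂ (pow_ne_zero j hb₂), ord_pow]
  -- the divisor
  set Dj : Divisor L F := D - dv (K := L) g' hg0 with hDj
  have hmem : ∀ (m : ℕ) (z : F), z ∈ riemannRochSpace (m • p.E + Dj) ↔
      z * g'⁻¹ ∈ riemannRochSpace (m • p.E + D) := by
    intro m z
    rcases eq_or_ne z 0 with rfl | hz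
    · simp
    rw [mem_rr_of_ne hz, mem_rr_of_ne (mul_ne_zero hz (inv_ne_zero hg0))]
    refine forall_congr' fun v => ?_
    rw [v.ord_mul hz (inv_ne_zero hg0), v.ord_inv, hDj, Finsupp.add_apply, Finsupp.add_apply,
      Finsupp.sub_apply, dv_apply]
    constructor <;> intro h <;> linarith
  have hdegD : Divisor.degree D = 0 := by
    have h1 : n • D = dv (K := L) f hf.1 := by
      ext v
      rw [hf.2, dv_apply]
    have h2 : Divisor.degree (n • D) = 0 := by rw [h1, degree_dv]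
    rw [map_nsmul, nsmul_eq_mul] at h2
    have hn' : (n : ℤ) ≠ 0 := by exact_mod_cast hn0
    exact (mul_eq_zero.mp h2).resolve_left hn'
  have hdegDj : Divisor.degree Dj = 0 := by rw [hDj, map_sub, hdegD, degree_dv, sub_zero]
  -- reductions: `(a ^ n r₁, b ^ n r₂)` is glued
  have hglue : ∀ (m : ℕ) (z : T.toRData.O), (z : F) ∈ riemannRochSpace (m • p.E + Dj) →
      ∃ s : p.OO × p.OO, s ∈ p.S ∧ (s.1 : F₁) = (T.toRData.res z).1 ^ n * r₁ ∧
        (s.2 : F₁) = (T.toRData.res z).2 ^ n * r₂ := by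
    intro m z hz
    have h1 : ((z ^ n * fjO : T.toRData.O) : F) ∈ riemannRochSpace ((n * m + j * c) • p.E) := by
      have h2 := (hmem m z).mp hz
      have h3 := Deuring.pow_mem_rr h2 n
      have h4 : f ∈ riemannRochSpace (-(n • D)) := by
        rw [mem_rr_of_ne hf.1]
        intro v
        rw [Finsupp.neg_apply, neg_neg, hf.2]
      have h5 := Deuring.mul_mem_rr (Deuring.mul_mem_rr h3 h4) (Deuring.pow_mem_rr hu j)
      have h6 : ((z ^ n * fjO : T.toRData.O) : F) = ((z : F) * g'⁻¹) ^ n * f * u⁻¹ ^ j := by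
        show (z : F) ^ n * fj = _
        rw [hfj, mul_pow, inv_pow, inv_pow]
        ring
      have h7 : n • (m • p.E + D) + -(n • D) + j • c • p.E = (n * m + j * c) • p.E := by
        rw [smul_add, add_smul, mul_smul, mul_smul]
        abel
      rw [h7] at h5
      rw [h6]
      exact h5
    have h2 := T.toRData.res_mem_red h1
    have h3 := p.red_le H.hRR _ h2
    have e3 : T.toRData.res (z ^ n * fjO) = T.toRData.res z ^ n * (r₁, r₂) := by
      rw [map_mul, map_pow]; rfl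
    exact ⟨(⟨_, _, h3.1⟩, ⟨_, _, h3.2⟩), ⟨_, p.T_zero_iff.mpr h2⟩, congrArg Prod.fst e3,
      congrArg Prod.snd e3⟩
  -- pole bounds
  have hwn : ∀ (m : ℕ) (z : T.toRData.O), (z : F) ∈ riemannRochSpace (m • p.E + Dj) →
      ((z : F) * g'⁻¹) ^ n * f ∈ riemannRochSpace ((n * m) • p.E) := by
    intro m z hz
    have h2 := (hmem m z).mp hz
    have h3 := Deuring.pow_mem_rr h2 n
    have h4 : f ∈ riemannRochSpace (-(n • D)) := by
      rw [mem_rr_of_ne hf.1]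
      intro v
      rw [Finsupp.neg_apply, neg_neg, hf.2]
    have h5 := Deuring.mul_mem_rr h3 h4
    have h7 : n • (m • p.E + D) + -(n • D) = (n * m) • p.E := by
      rw [smul_add, mul_smul]; abel
    rwa [h7] at h5
  have hwe : ∀ z : F, (z * g'⁻¹) ^ n * f = z ^ n * fj * u ^ j := by
    intro z
    rw [← hfuj, mul_pow, inv_pow]
    field_simp
  have hbound₁ : ∀ (m : ℕ) (z : T.toRData.O), (z : F) ∈ riemannRochSpace (m • p.E + Dj) →
      (T.toRData.res z).1 ≠ 0 → ∀ v, v ∉ S₁ →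
        -((n * m : ℕ) * p.Eb v) ≤ n * v.ord (T.toRData.res z).1 + v.ord a₁ := by
    intro m z hz hz0 v hv
    have h8 : T.V₁.HasRes (((z : F) * g'⁻¹) ^ n * f) ((T.toRData.res z).1 ^ n * r₁ * b₁ ^ j) := by
      rw [hwe]
      exact (((hasRes_of_mem z.2.1).pow n).mul (hasRes_of_mem hfj₁)).mul (hs₁.pow j)
    have h9 := pole_bound₁ p H harch hpl₁ (hwn m z hz)
      (mul_ne_zero (mul_ne_zero (pow_ne_zero n hz0) hrj₁) (pow_ne_zero j hb₁)) h8
      (fun x hx => hv ((hS₁ v).mpr ⟨x, hx⟩))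
    rw [v.ord_mul (mul_ne_zero (pow_ne_zero n hz0) hrj₁) (pow_ne_zero j hb₁),
      v.ord_mul (pow_ne_zero n hz0) hrj₁, ord_pow, ord_pow] at h9
    rw [hord₁]
    linarith
  have hbound₂ : ∀ (m : ℕ) (z : T.toRData.O), (z : F) ∈ riemannRochSpace (m • p.E + Dj) →
      (T.toRData.res z).2 ≠ 0 → ∀ v, v ∉ S₂ →
        -((n * m : ℕ) * p.Eb v) ≤ n * v.ord (T.toRData.res z).2 + v.ord a₂ := by
    intro m z hz hz0 v hv
    have h8 : T.V₂.HasRes (((z : F) * g'⁻¹) ^ n * f) ((T.toRData.res z).2 ^ n * r₂ * b₂ ^ j) := by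
      rw [hwe]
      exact (((hasRes_of_mem z.2.2).pow n).mul (hasRes_of_mem hfj₂)).mul (hs₂.pow j)
    have h9 := pole_bound₂ p H harch hpl₂ (hwn m z hz)
      (mul_ne_zero (mul_ne_zero (pow_ne_zero n hz0) hrj₂) (pow_ne_zero j hb₂)) h8
      (fun x hx => hv ((hS₂ v).mpr ⟨x, hx⟩))
    rw [v.ord_mul (mul_ne_zero (pow_ne_zero n hz0) hrj₂) (pow_ne_zero j hb₂),
      v.ord_mul (pow_ne_zero n hz0) hrj₂, ord_pow, ord_pow] at h9
    rw [hord₂]
    linarith
  -- the dimension count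
  obtain ⟨c₀, hc₀⟩ := H.hRR
  obtain ⟨c₁, hc₁⟩ := H.hRR₁
  set A₁ := bdDiv S₁ (fun v => (v.ord a₁ - j * v.ord b₁ - 1) / n) n a₁ ha₁ with hA₁
  set A₂ := bdDiv S₂ (fun v => (v.ord a₂ - j * v.ord b₂ - 1) / n) n a₂ ha₂ with hA₂
  have hpos := H.hpos
  obtain ⟨m, hm0, hm1, hm2⟩ : ∃ m : ℕ, c₀ ≤ Divisor.degree (m • p.E + Dj) ∧
      c₁ ≤ Divisor.degree (m • p.Eb + A₁) ∧ c₁ ≤ Divisor.degree (m • p.Eb + A₂) := by
    refine ⟨(|c₀| + |c₁| + |Divisor.degree A₁| + |Divisor.degree A₂|).toNat, ?_, ?_, ?_⟩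
    all_goals
      set M := (|c₀| + |c₁| + |Divisor.degree A₁| + |Divisor.degree A₂|).toNat with hM
      have hM' : (M : ℤ) = |c₀| + |c₁| + |Divisor.degree A₁| + |Divisor.degree A₂| := by
        rw [hM]; exact Int.toNat_of_nonneg (by positivity)
      have h1 := le_abs_self c₀
      have h2 := le_abs_self c₁
      have h3 := neg_abs_le (Divisor.degree A₁)
      have h4 := neg_abs_le (Divisor.degree A₂)
      have h5 := abs_nonneg c₀
      have h6 := abs_nonneg c₁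
      have h7 := abs_nonneg (Divisor.degree A₁)
      have h8 := abs_nonneg (Divisor.degree A₂)
      have h9 : (M : ℤ) ≤ M * Divisor.degree p.Eb := by nlinarith
      rw [map_add, map_nsmul, nsmul_eq_mul]
    · rw [p.deg_eq, hdegDj]
      nlinarith
    · linarith
    · linarith
  have hfinE := (hc₀ _ hm0).1
  have hrE := (hc₀ _ hm0).2
  have hfin1 := (hc₁ _ hm1).1
  have hr1' := (hc₁ _ hm1).2
  have hfin2 := (hc₁ _ hm2).1
  have hr2' := (hc₁ _ hm2).2
  set R := T.toRData.red (riemannRochSpace (m • p.E + Dj)) with hR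
  have hRfin : (finrank k R : ℤ) = m * (2 * Divisor.degree p.Eb) + (1 - g) := by
    rw [hR, T.toRData.finrank_red, hrE, map_add, hdegDj, map_nsmul, nsmul_eq_mul, p.deg_eq]
    ring
  haveI : CharP F₁ n := charP_of_injective_algebraMap (algebraMap k F₁).injective n
  let eO : F₁ → p.OO := fun y => if h : y ∈ p.OO then ⟨y, h⟩ else 0
  have heO : ∀ (y : F₁) (h : y ∈ p.OO), eO y = ⟨y, h⟩ := fun y h => dif_pos h
  have hRs : ∀ q : R, ∃ s : p.OO × p.OO, s ∈ p.S ∧ (s.1 : F₁) = (q : F₁ × F₁).1 ^ n * r₁ ∧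
      (s.2 : F₁) = (q : F₁ × F₁).2 ^ n * r₂ := by
    rintro ⟨_, z, hz, rfl⟩
    exact hglue m z hz
  have hRO : ∀ q : R, (q : F₁ × F₁).2 ^ n * r₂ ∈ p.OO := by
    intro q
    obtain ⟨s, -, -, hs⟩ := hRs q
    rw [← hs]
    exact s.2.2
  let fi := (frobeniusEquiv k n).symm
  have hfi : ∀ y : k, fi (y ^ n) = y := fun y => frobeniusEquiv_symm_apply_frobenius k n y
  let Φ₀ : R → p.Pt → k := fun q x => fi (x.1 (eO ((q : F₁ × F₁).2 ^ n * r₂)))
  have hΦadd : ∀ (q q' : R) (x : p.Pt), Φ₀ (q + q') x = Φ₀ q x + Φ₀ q' x := by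
    intro q q' x
    show fi _ = fi _ + fi _
    rw [← map_add, ← map_add]
    congr 2
    rw [heO _ (hRO (q + q')), heO _ (hRO q), heO _ (hRO q')]
    apply Subtype.ext
    show ((q : F₁ × F₁) + (q' : F₁ × F₁)).2 ^ n * r₂ =
      (q : F₁ × F₁).2 ^ n * r₂ + (q' : F₁ × F₁).2 ^ n * r₂
    rw [Prod.snd_add, add_pow_char]
    ring
  have hΦsmul : ∀ (d : k) (q : R) (x : p.Pt), Φ₀ (d • q) x = d * Φ₀ q x := by
    intro d q x
    show fi _ = d * fi _
    have h1 : d = fi (d ^ n) := (hfi d).symm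
    conv_rhs => rw [h1]
    rw [← map_mul]
    congr 1
    rw [heO _ (hRO (d • q)), heO _ (hRO q)]
    have h2 : (⟨((d • q : R) : F₁ × F₁).2 ^ n * r₂, hRO (d • q)⟩ : p.OO) =
        d ^ n • ⟨(q : F₁ × F₁).2 ^ n * r₂, hRO q⟩ := by
      apply Subtype.ext
      show (d • (q : F₁ × F₁).2) ^ n * r₂ = d ^ n • ((q : F₁ × F₁).2 ^ n * r₂)
      rw [smul_pow, smul_mul_assoc]
    rw [h2, map_smul, smul_eq_mul]
  let B : Finset p.Pt := Finset.univ.filter fun x => ∃ q : R, Φ₀ q x ≠ 0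
  have hBmem : ∀ x, x ∈ B ↔ ∃ q : R, Φ₀ q x ≠ 0 := fun x => by
    rw [Finset.mem_filter]
    exact ⟨fun h => h.2, fun h => ⟨Finset.mem_univ _, h⟩⟩
  let Φ : R →ₗ[k] (B → k) :=
    { toFun := fun q x => Φ₀ q x.1
      map_add' := fun q q' => funext fun x => hΦadd q q' x.1
      map_smul' := fun d q => funext fun x => hΦsmul d q x.1 }
  have hker : ∀ q : R, q ∈ LinearMap.ker Φ → ∀ x : p.Pt, x.1 (eO ((q : F₁ × F₁).2 ^ n * r₂)) = 0 := by
    intro q hq x
    by_cases hx : x ∈ B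
    · have h1 := congrFun (LinearMap.mem_ker.mp hq) ⟨x, hx⟩
      change fi _ = 0 at h1
      exact (map_eq_zero_iff fi fi.injective).mp h1
    · by_contra hne
      apply hx
      rw [hBmem]
      refine ⟨q, fun h0 => hne ?_⟩
      exact (map_eq_zero_iff fi fi.injective).mp h0
  -- the kernel is small
  have hkerle : (LinearMap.ker Φ).map R.subtype ≤
      (riemannRochSpace (m • p.Eb + A₁)).prod (riemannRochSpace (m • p.Eb + A₂)) := by
    rintro _ ⟨⟨_, z, hz, rfl⟩, hq, rfl⟩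
    have hq' := hker _ hq
    obtain ⟨s, hsS, hs1, hs2⟩ := hglue m z hz
    have hsx : ∀ x : p.Pt, x.1 s.2 = 0 ∧ p.frPt x s.1 = 0 := by
      intro x
      have h1 := hq' x
      have h2 : eO ((T.toRData.res z).2 ^ n * r₂) = s.2 := by
        rw [← hs2]
        exact heO _ s.2.2
      change x.1 (eO ((T.toRData.res z).2 ^ n * r₂)) = 0 at h1
      rw [h2] at h1
      refine ⟨h1, ?_⟩
      have h3 := (mem_S_iff p H s).mp hsS x
      rw [p.frPt_apply, ← h3, h1]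
    have hnpos : (0 : ℤ) < n := by exact_mod_cast hn.pos
    constructor
    · show (T.toRData.res z).1 ∈ riemannRochSpace (m • p.Eb + A₁)
      by_cases h0 : (T.toRData.res z).1 = 0
      · rw [h0]; exact Submodule.zero_mem _
      rw [mem_rr_of_ne h0]
      intro v
      rw [Finsupp.add_apply, Finsupp.smul_apply, hA₁, bdDiv_apply, nsmul_eq_mul]
      by_cases hv : v ∈ S₁
      · rw [if_pos hv]
        obtain ⟨x, rfl⟩ := (hS₁ v).mp hv
        have h1 := (hsx x).2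
        have hs0 : s.1 ≠ 0 := by
          intro h
          have := congrArg (fun y : p.OO => (y : F₁)) h
          change (s.1 : F₁) = 0 at this
          rw [hs1] at this
          exact mul_ne_zero (pow_ne_zero n h0) hrj₁ this
        rw [(hpl₁ x).2 _ hs0, hs1, Place.ord_mul _ (pow_ne_zero n h0) hrj₁, ord_pow] at h1
        have h2 := (hpl₁ x).Eb_eq
        have h3 := hord₁ (pl₁ x)
        have h4 : (pl₁ x).ord a₁ - j * (pl₁ x).ord b₁ = (pl₁ x).ord r₁ := by linarith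
        show -((m : ℤ) * (p.toPencil.Eb (pl₁ x)) + ((pl₁ x).ord a₁ - j * (pl₁ x).ord b₁ - 1) / n) ≤ _
        rw [h4, h2]
        have h5 : -((pl₁ x).ord (T.toRData.res z).1) ≤ ((pl₁ x).ord r₁ - 1) / n := by
          rw [Int.le_ediv_iff_mul_le hnpos]
          linarith
        linarith
      · rw [if_neg hv]
        have h1 := hbound₁ m z hz h0 v hv
        have h5 : -(v.ord (T.toRData.res z).1) - m * p.Eb v ≤ v.ord a₁ / n := by
          rw [Int.le_ediv_iff_mul_le hnpos]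
          push_cast at h1
          linarith
        linarith
    · show (T.toRData.res z).2 ∈ riemannRochSpace (m • p.Eb + A₂)
      by_cases h0 : (T.toRData.res z).2 = 0
      · rw [h0]; exact Submodule.zero_mem _
      rw [mem_rr_of_ne h0]
      intro v
      rw [Finsupp.add_apply, Finsupp.smul_apply, hA₂, bdDiv_apply, nsmul_eq_mul]
      by_cases hv : v ∈ S₂
      · rw [if_pos hv]
        obtain ⟨x, rfl⟩ := (hS₂ v).mp hv
        have h1 := (hsx x).1
        have hs0 : s.2 ≠ 0 := by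
          intro h
          have := congrArg (fun y : p.OO => (y : F₁)) h
          change (s.2 : F₁) = 0 at this
          rw [hs2] at this
          exact mul_ne_zero (pow_ne_zero n h0) hrj₂ this
        rw [(hpl₂ x).2 _ hs0, hs2, Place.ord_mul _ (pow_ne_zero n h0) hrj₂, ord_pow] at h1
        have h2 := (hpl₂ x).Eb_eq
        have h3 := hord₂ (pl₂ x)
        have h4 : (pl₂ x).ord a₂ - j * (pl₂ x).ord b₂ = (pl₂ x).ord r₂ := by linarith
        show -((m : ℤ) * (p.toPencil.Eb (pl₂ x)) + ((pl₂ x).ord a₂ - j * (pl₂ x).ord b₂ - 1) / n) ≤ _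
        rw [h4, h2]
        have h5 : -((pl₂ x).ord (T.toRData.res z).2) ≤ ((pl₂ x).ord r₂ - 1) / n := by
          rw [Int.le_ediv_iff_mul_le hnpos]
          linarith
        linarith
      · rw [if_neg hv]
        have h1 := hbound₂ m z hz h0 v hv
        have h5 : -(v.ord (T.toRData.res z).2) - m * p.Eb v ≤ v.ord a₂ / n := by
          rw [Int.le_ediv_iff_mul_le hnpos]
          push_cast at h1
          linarith
        linarith
  refine ⟨B, ?_, ?_⟩
  · -- properties of the points of `B`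
    intro x hx
    obtain ⟨⟨_, z, hz, rfl⟩, hq⟩ := (hBmem x).mp hx
    obtain ⟨s, hsS, hs1, hs2⟩ := hglue m z hz
    have hx2 : x.1 s.2 ≠ 0 := by
      intro h0
      apply hq
      show fi (x.1 (eO ((T.toRData.res z).2 ^ n * r₂))) = 0
      have h2 : eO ((T.toRData.res z).2 ^ n * r₂) = s.2 := by
        rw [← hs2]
        exact heO _ s.2.2
      rw [h2, h0, map_zero]
    have hx1 : p.frPt x s.1 ≠ 0 := by
      rw [p.frPt_apply, ← (mem_S_iff p H s).mp hsS x]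
      exact hx2
    have hz2 : (T.toRData.res z).2 ≠ 0 := by
      intro h0
      apply hx2
      have : s.2 = 0 := Subtype.ext (by rw [hs2, h0, zero_pow hn0, zero_mul]; rfl)
      rw [this, map_zero]
    have hz1 : (T.toRData.res z).1 ≠ 0 := by
      intro h0
      apply hx1
      have : s.1 = 0 := Subtype.ext (by rw [hs1, h0, zero_pow hn0, zero_mul]; rfl)
      rw [this, map_zero]
    have hs10 : s.1 ≠ 0 := by rintro h; rw [h, map_zero] at hx1; exact hx1 rfl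
    have hs20 : s.2 ≠ 0 := by rintro h; rw [h, map_zero] at hx2; exact hx2 rfl
    have ho1 : (pl₁ x).ord (s.1 : F₁) = 0 :=
      le_antisymm (not_lt.mp fun h => hx1 (((hpl₁ x).2 _ hs10).mpr h)) ((hpl₁ x).1 _)
    have ho2 : (pl₂ x).ord (s.2 : F₁) = 0 :=
      le_antisymm (not_lt.mp fun h => hx2 (((hpl₂ x).2 _ hs20).mpr h)) ((hpl₂ x).1 _)
    rw [hs1, Place.ord_mul _ (pow_ne_zero n hz1) hrj₁, ord_pow] at ho1
    rw [hs2, Place.ord_mul _ (pow_ne_zero n hz2) hrj₂, ord_pow] at ho2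
    refine ⟨⟨-((pl₁ x).ord (T.toRData.res z).1), ?_⟩, ⟨-((pl₂ x).ord (T.toRData.res z).2), ?_⟩,
      g', hg0, ⟨hfj₁, hrj₁⟩, ⟨hfj₂, hrj₂⟩, m, (z : F) * g'⁻¹, (hmem m z).mp hz, ?_⟩
    · rw [hord₁]; linarith
    · rw [hord₂]; linarith
    · have hzg : (z : F) * g'⁻¹ * g' = z := by field_simp
      have hz₁ : (z : F) * g'⁻¹ * g' ∈ T.V₁.O := by rw [hzg]; exact z.2.1
      have hz₂ : (z : F) * g'⁻¹ * g' ∈ T.V₂.O := by rw [hzg]; exact z.2.2
      refine ⟨hz₁, hz₂, fun m' w' hw' h₁' h₂' h0 hne => ?_⟩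
      have hw'' : w' * g' ∈ riemannRochSpace (m' • p.E + Dj) := by
        rw [hmem, mul_assoc, mul_inv_cancel₀ hg0, mul_one]
        exact hw'
      obtain ⟨s', hsS', hs1', hs2'⟩ := hglue m' ⟨w' * g', h₁', h₂'⟩ hw''
      have e1 : (T.toRData.res ⟨w' * g', h₁', h₂'⟩).1 = 0 := h0
      have e2 : (T.toRData.res ⟨w' * g', h₁', h₂'⟩).2 = (T.toRData.res z).2 := by
        have h5 : T.V₂.r ⟨(z : F) * g'⁻¹ * g', hz₂⟩ = (T.toRData.res z).2 := by
          show _ = T.V₂.r ⟨(z : F), z.2.2⟩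
          congr 1
          exact Subtype.ext hzg
        rw [← h5]
        exact hne
      have h6 : s'.1 = 0 := Subtype.ext (by rw [hs1', e1, zero_pow hn0, zero_mul]; rfl)
      have h7 : s'.2 = s.2 := Subtype.ext (by rw [hs2', e2, hs2])
      have h8 := (mem_S_iff p H s').mp hsS' x
      rw [h6, h7, map_zero, map_zero] at h8
      exact hx2 h8
  · have h1 := LinearMap.finrank_range_add_finrank_ker Φ
    have h2 : finrank k (LinearMap.range Φ) ≤ B.card := by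
      refine (Submodule.finrank_le _).trans ?_
      rw [Module.finrank_fintype_fun_eq_card, Fintype.card_coe]
    have h3 : finrank k (LinearMap.ker Φ) ≤
        finrank k (riemannRochSpace (m • p.Eb + A₁)) + finrank k (riemannRochSpace (m • p.Eb + A₂)) := by
      rw [← finrank_prod', ← finrank_map_inj R.subtype R.injective_subtype (LinearMap.ker Φ)]
      exact Submodule.finrank_mono hkerle
    obtain ⟨-, hcard, -⟩ := p.structure_fibre H.hRR H.hRR₁ H.hpos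
    rw [Nat.card_eq_fintype_card] at hcard
    have h4 : (finrank k R : ℤ) ≤ B.card + (finrank k (riemannRochSpace (m • p.Eb + A₁)) +
        finrank k (riemannRochSpace (m • p.Eb + A₂))) := by
      have : finrank k R ≤ B.card + (finrank k (riemannRochSpace (m • p.Eb + A₁)) +
        finrank k (riemannRochSpace (m • p.Eb + A₂))) := by omega
      exact_mod_cast this
    rw [hRfin, hr1', hr2', map_add, map_add, map_nsmul, nsmul_eq_mul] at h4
    linarith

end Fermat.Agent.LLp
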