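import Fermat.Agent.LLp.PtPlace

/-!
# Poles of normalised residues away from the nodes
-/

set_option autoImplicit false

noncomputable section

open AlgebraicCurve Module IntermediateField

namespace Fermat.Agent.LLp

open Fermat.Agent.BadRed
open Fermat.Agent.FunField Fermat.Agent.FunField.PlaceLemmas Fermat.Agent.Deuring

variable {L k : Type*} [Field L] [Field k]
variable {F F₁ : Type*} [Field F] [Field F₁] [Algebra L F] [Algebra k F₁]
  {T : TwoVal L k F F₁} (p : FrobPencil T.toRData)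

variable [IsFF L F] [IsFF k F₁] [HasPrincipalDivisors L F] [HasPrincipalDivisors k F₁]
  [IsAlgClosed k] {g g₁ : ℤ} (H : FrobPencil.Hyp p g g₁)

omit [IsFF L F] [IsFF k F₁] [HasPrincipalDivisors L F] [HasPrincipalDivisors k F₁]
  [IsAlgClosed k] in
theorem mem_red_zero_of_S {m₁ : ℕ} (hm₁ : p.TrivGlue (Tors.zero T.toRData 1) m₁) {q : p.OO × p.OO}
    (hq : q ∈ p.S) {m : ℕ} (hm : m₁ ≤ m) (h1 : q.1 ∈ p.P m) (h2 : q.2 ∈ p.P m) :
    p.ii q ∈ T.toRData.red (riemannRochSpace (m • p.E)) := by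
  have : q ∈ p.T (Tors.zero T.toRData 1) m := by
    rw [hm₁ m hm]
    exact ⟨hq, h1, h2⟩
  exact p.T_zero_iff.mp this

/-- the function `t ^ K ∏ (t - t(x))` on the special fibre -/
def alphaT (s : Finset k) (K : ℕ) : p.OO := p.tO ^ K * ∏ c ∈ s, (p.tO - algebraMap k p.OO c)

omit [IsFF L F] [HasPrincipalDivisors L F] [HasPrincipalDivisors k F₁] [IsAlgClosed k] in
theorem ord_alphaT {s : Finset k} {K : ℕ} {v : Place k F₁} (hv : 0 < p.Eb v) :
    v.ord (alphaT p s K : F₁) = -((K + s.card : ℕ) * p.Eb v) ∧ (alphaT p s K : F₁) ≠ 0 := by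
  classical
  have hord : v.ord p.tb = -(p.Eb v) := by
    have h1 := p.hEb v
    rw [h1] at hv ⊢
    rcases lt_max_iff.mp hv with h | h
    · exact absurd h (lt_irrefl _)
    · rw [max_eq_right h.le]; ring
  have htb : p.tb ≠ 0 := p.tb_ne
  have hlin : ∀ c : k, v.ord (p.tb - algebraMap k F₁ c) = v.ord p.tb ∧
      p.tb - algebraMap k F₁ c ≠ 0 := by
    intro c
    have hlt : v.ord p.tb < 0 := by rw [hord]; omega
    rcases eq_or_ne c 0 with rfl | hc
    · rw [map_zero, sub_zero]; exact ⟨rfl, htb⟩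
    · have hc' : -(algebraMap k F₁ c) ≠ 0 := by
        rw [neg_ne_zero, Ne, map_eq_zero]; exact hc
      have h2 : v.ord p.tb < v.ord (-(algebraMap k F₁ c)) := by
        rw [ord_neg, ord_algebraMap]; exact hlt
      rw [sub_eq_add_neg]
      exact ⟨ord_add_eq_of_lt v htb (Or.inr h2), add_ne_zero_of_ord_lt v htb h2⟩
  have hcoe : (alphaT p s K : F₁) = p.tb ^ K * ∏ c ∈ s, (p.tb - algebraMap k F₁ c) := by
    rw [alphaT]
    push_cast
    rfl
  have hprod : v.ord (∏ c ∈ s, (p.tb - algebraMap k F₁ c)) = s.card * v.ord p.tb ∧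
      (∏ c ∈ s, (p.tb - algebraMap k F₁ c)) ≠ 0 := by
    induction s using Finset.induction_on with
    | empty => simp
    | insert c s hcs ih =>
      have ih' := ih (by rw [alphaT]; push_cast; rfl)
      rw [Finset.prod_insert hcs, Finset.card_insert_of_notMem hcs]
      refine ⟨?_, mul_ne_zero (hlin c).2 ih'.2⟩
      rw [v.ord_mul (hlin c).2 ih'.2, ih'.1, (hlin c).1]
      push_cast
      ring
  rw [hcoe]
  refine ⟨?_, mul_ne_zero (pow_ne_zero _ htb) hprod.2⟩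
  rw [v.ord_mul (pow_ne_zero _ htb) hprod.2, ord_pow, hprod.1, hord]
  push_cast
  ring

omit [IsFF L F] [IsFF k F₁] [HasPrincipalDivisors L F] [HasPrincipalDivisors k F₁]
  [IsAlgClosed k] in
theorem alphaT_mem_P {s : Finset k} {K : ℕ} : alphaT p s K ∈ p.P (K + s.card) := by
  classical
  rw [p.mem_P]
  have hcoe : (alphaT p s K : F₁) = p.tb ^ K * ∏ c ∈ s, (p.tb - algebraMap k F₁ c) := by
    rw [alphaT]
    push_cast
    rfl
  have h1 : p.tb ^ K ∈ riemannRochSpace (K • p.Eb) := Deuring.pow_mem_rr p.tb_mem K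
  have h2 : ∀ s : Finset k, ∏ c ∈ s, (p.tb - algebraMap k F₁ c) ∈
      riemannRochSpace (s.card • p.Eb) := by
    intro s
    induction s using Finset.induction_on with
    | empty =>
      rw [Finset.prod_empty, Finset.card_empty, zero_smul]
      exact Deuring.one_mem_rr le_rfl
    | insert c s hcs ih =>
      have h3 : p.tb - algebraMap k F₁ c ∈ riemannRochSpace p.Eb := by
        refine Submodule.sub_mem _ p.tb_mem ?_
        rw [Algebra.algebraMap_eq_smul_one]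
        exact Submodule.smul_mem _ _ (Deuring.one_mem_rr p.Eb_nonneg)
      have h4 := Deuring.mul_mem_rr h3 ih
      rw [Finset.prod_insert hcs, Finset.card_insert_of_notMem hcs, add_comm, add_smul, one_smul]
      exact h4
  have h3 := Deuring.mul_mem_rr h1 (h2 s)
  rw [← add_smul] at h3
  rw [hcoe]
  exact h3

omit [IsFF L F] [IsFF k F₁] [HasPrincipalDivisors L F] [HasPrincipalDivisors k F₁]
  [IsAlgClosed k] in
theorem apply_alphaT (φ : p.OO →ₐ[k] k) {s : Finset k} {K : ℕ} (h : φ p.tO ∈ s) :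
    φ (alphaT p s K) = 0 := by
  rw [alphaT, map_mul, map_prod, Finset.prod_eq_zero h, mul_zero]
  rw [map_sub, AlgHom.commutes]
  exact sub_self _

section Key

variable (V V' : ResVal T.A T.π F F₁)

omit [IsFF L F] [IsFF k F₁] [HasPrincipalDivisors L F] [HasPrincipalDivisors k F₁]
  [IsAlgClosed k] in
/-- multiplication by a power of `y` makes a function integral on the other component. -/
theorem exists_pow_mul_both (harch : T.Arch) {y w : F} {n K : ℕ}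
    (hy : y ∈ riemannRochSpace (K • p.E)) (hw : w ∈ riemannRochSpace (n • p.E))
    (hyV : y ∈ V.O) (hyV' : InM V' y) {a : F₁} (hr : V.HasRes w a) :
    ∃ (M : ℕ) (z : F), z ∈ riemannRochSpace ((K * M + n) • p.E) ∧
      (∃ h : z ∈ V.O, V.r ⟨z, h⟩ = V.r ⟨y, hyV⟩ ^ M * a) ∧ InM V' z := by
  have hloc := isLocalHom_pi T
  have harch' : ArchA T.π := harch
  obtain ⟨c, hc, hcO, hcr⟩ := hr
  obtain ⟨M, hM, eM⟩ := ResVal.exists_pow_mul harch' V' (x := c • w) hyV'.1 hyV'.2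
  refine ⟨M, y ^ M * (c • w), ?_, ⟨mul_mem (pow_mem hyV M) hcO, ?_⟩, hM, eM⟩
  · have h1 := Deuring.pow_mem_rr hy M
    have h2 := Deuring.mul_mem_rr h1 (Submodule.smul_mem _ c hw)
    rw [smul_smul, ← add_smul, mul_comm M K] at h2
    exact h2
  · have : (⟨y ^ M * (c • w), mul_mem (pow_mem hyV M) hcO⟩ : V.O) = ⟨y, hyV⟩ ^ M * ⟨c • w, hcO⟩ := rfl
    rw [this, map_mul, map_pow, hcr]

end Key

omit [IsFF L F] [HasPrincipalDivisors L F] [IsFF k F₁] [IsAlgClosed k] in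
/-- the final order computation -/
theorem bound_of_pow_mul {v : Place k F₁} {α a : F₁} (hα : α ≠ 0) (ha : a ≠ 0) {K M n : ℕ}
    (hαv : v.ord α = -(K * p.Eb v))
    (h : α ^ M * a ∈ riemannRochSpace ((K * M + n) • p.Eb)) : -(n * p.Eb v) ≤ v.ord a := by
  rw [mem_rr_of_ne (mul_ne_zero (pow_ne_zero _ hα) ha)] at h
  have h1 := h v
  rw [v.ord_mul (pow_ne_zero _ hα) ha, ord_pow, hαv, Finsupp.smul_apply, nsmul_eq_mul] at h1
  push_cast at h1
  nlinarith

include H in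
/-- **Pole bound on the first component.** -/
theorem pole_bound₁ (harch : T.Arch) {pl : p.Pt → Place k F₁}
    (hpl : ∀ x, At p.toPencil (p.frPt x) (pl x)) {w : F} {n : ℕ}
    (hw : w ∈ riemannRochSpace (n • p.E)) {a : F₁} (ha : a ≠ 0) (hr : T.V₁.HasRes w a)
    {v : Place k F₁} (hv : ∀ x, pl x ≠ v) : -(n * p.Eb v) ≤ v.ord a := by
  classical
  obtain ⟨hfin, -, -⟩ := p.structure_fibre H.hRR H.hRR₁ H.hpos
  have := Fintype.ofFinite p.Pt
  obtain ⟨m₁, hm₁⟩ := p.exists_saturated H.hRR H.hRR₁ H.hpos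
  -- the auxiliary function on the special fibre
  obtain ⟨α, K, hαP, hm₁K, hα0, hαx, hαv⟩ : ∃ (α : p.OO) (K : ℕ), α ∈ p.P K ∧ m₁ ≤ K ∧
      (α : F₁) ≠ 0 ∧ (∀ x : p.Pt, p.frPt x α = 0) ∧ v.ord (α : F₁) = -(K * p.Eb v) := by
    rcases (Finsupp.le_def.mp p.Eb_nonneg v).lt_or_eq with hE | hE
    · obtain ⟨h1, h2⟩ := ord_alphaT p (s := Finset.univ.image fun x : p.Pt => p.frPt x p.tO)
        (K := m₁) hE
      exact ⟨_, _, alphaT_mem_P p, Nat.le_add_right _ _, h2, fun x => apply_alphaT p _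
        (Finset.mem_image_of_mem _ (Finset.mem_univ x)), h1⟩
    · obtain ⟨α, h1, h2, h3⟩ := exists_separate H.hRR₁ H.hpos (fun x => p.frPt x) pl hpl hE.symm hv
      obtain ⟨m, hm⟩ := p.exists_mem_P α
      refine ⟨α, max m m₁, p.P_mono (le_max_left _ _) hm, le_max_right _ _, h2, h1, ?_⟩
      rw [h3, ← hE]
      simp
  have hS : ((α, 0) : p.OO × p.OO) ∈ p.S := by
    rw [mem_S_iff p H]
    intro x
    show x.1 0 = x.1 (p.FrO α)
    rw [map_zero]
    exact (hαx x).symm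
  obtain ⟨y, hyE, hyr⟩ := mem_red_zero_of_S p hm₁ hS hm₁K hαP (Submodule.zero_mem _)
  have e1 : T.V₁.r ⟨(y : F), y.2.1⟩ = (α : F₁) := congrArg Prod.fst hyr
  have e2 : T.V₂.r ⟨(y : F), y.2.2⟩ = 0 := congrArg Prod.snd hyr
  obtain ⟨M, z, hz, ⟨hz₁, ez₁⟩, hz₂, ez₂⟩ := exists_pow_mul_both p T.V₁ T.V₂ harch hyE hw y.2.1
    ⟨y.2.2, e2⟩ hr
  have h1 := p.red_le H.hRR (K * M + n) (T.toRData.res_mem_red (f := ⟨z, hz₁, hz₂⟩) hz)
  have h2 : (T.toRData.res ⟨z, hz₁, hz₂⟩).1 ∈ riemannRochSpace ((K * M + n) • p.Eb) := h1.1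
  have h3 : (T.toRData.res ⟨z, hz₁, hz₂⟩).1 = (α : F₁) ^ M * a := by
    rw [← e1]
    exact ez₁
  rw [h3] at h2
  exact bound_of_pow_mul p hα0 ha hαv h2

include H in
/-- **Pole bound on the second component.** -/
theorem pole_bound₂ (harch : T.Arch) {pl : p.Pt → Place k F₁}
    (hpl : ∀ x : p.Pt, At p.toPencil x.1 (pl x)) {w : F} {n : ℕ}
    (hw : w ∈ riemannRochSpace (n • p.E)) {a : F₁} (ha : a ≠ 0) (hr : T.V₂.HasRes w a)
    {v : Place k F₁} (hv : ∀ x, pl x ≠ v) : -(n * p.Eb v) ≤ v.ord a := by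
  classical
  obtain ⟨hfin, -, -⟩ := p.structure_fibre H.hRR H.hRR₁ H.hpos
  have := Fintype.ofFinite p.Pt
  obtain ⟨m₁, hm₁⟩ := p.exists_saturated H.hRR H.hRR₁ H.hpos
  obtain ⟨α, K, hαP, hm₁K, hα0, hαx, hαv⟩ : ∃ (α : p.OO) (K : ℕ), α ∈ p.P K ∧ m₁ ≤ K ∧
      (α : F₁) ≠ 0 ∧ (∀ x : p.Pt, x.1 α = 0) ∧ v.ord (α : F₁) = -(K * p.Eb v) := by
    rcases (Finsupp.le_def.mp p.Eb_nonneg v).lt_or_eq with hE | hE
    · obtain ⟨h1, h2⟩ := ord_alphaT p (s := Finset.univ.image fun x : p.Pt => x.1 p.tO)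
        (K := m₁) hE
      exact ⟨_, _, alphaT_mem_P p, Nat.le_add_right _ _, h2, fun x => apply_alphaT p _
        (Finset.mem_image_of_mem _ (Finset.mem_univ x)), h1⟩
    · obtain ⟨α, h1, h2, h3⟩ := exists_separate H.hRR₁ H.hpos (fun x : p.Pt => x.1) pl hpl
        hE.symm hv
      obtain ⟨m, hm⟩ := p.exists_mem_P α
      refine ⟨α, max m m₁, p.P_mono (le_max_left _ _) hm, le_max_right _ _, h2, h1, ?_⟩
      rw [h3, ← hE]
      simp
  have hS : ((0, α) : p.OO × p.OO) ∈ p.S := by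
    rw [mem_S_iff p H]
    intro x
    show x.1 α = x.1 (p.FrO 0)
    rw [map_zero, map_zero]
    exact hαx x
  obtain ⟨y, hyE, hyr⟩ := mem_red_zero_of_S p hm₁ hS hm₁K (Submodule.zero_mem _) hαP
  have e1 : T.V₁.r ⟨(y : F), y.2.1⟩ = 0 := congrArg Prod.fst hyr
  have e2 : T.V₂.r ⟨(y : F), y.2.2⟩ = (α : F₁) := congrArg Prod.snd hyr
  obtain ⟨M, z, hz, ⟨hz₂, ez₂⟩, hz₁, ez₁⟩ := exists_pow_mul_both p T.V₂ T.V₁ harch hyE hw y.2.2
    ⟨y.2.1, e1⟩ hr
  have h1 := p.red_le H.hRR (K * M + n) (T.toRData.res_mem_red (f := ⟨z, hz₁, hz₂⟩) hz)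
  have h2 : (T.toRData.res ⟨z, hz₁, hz₂⟩).2 ∈ riemannRochSpace ((K * M + n) • p.Eb) := h1.2
  have h3 : (T.toRData.res ⟨z, hz₁, hz₂⟩).2 = (α : F₁) ^ M * a := by
    rw [← e2]
    exact ez₂
  rw [h3] at h2
  exact bound_of_pow_mul p hα0 ha hαv h2

end Fermat.Agent.LLp
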