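import Fermat.Agent.LLp.Compare

/-!
# Residues which are `n`-th powers
-/

set_option autoImplicit false

noncomputable section

open AlgebraicCurve Module IntermediateField

namespace Fermat.Agent.LLp

open Fermat.Agent.BadRed
open Fermat.Agent.FunField Fermat.Agent.FunField.PlaceLemmas Fermat.Agent.Deuring

variable {L k : Type*} [Field L] [Field k]
variable {F F₁ : Type*} [Field F] [Field F₁] [Algebra L F] [Algebra k F₁]

section Lin

/-- `ε D` for a sign -/
def Sg (D E : Divisor L F) : Prop := Lin D E ∨ Lin D (-E)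

theorem Lin.neg {D E : Divisor L F} (h : Lin D E) : Lin (-D) (-E) := by
  obtain ⟨f, hf⟩ := h
  refine ⟨f⁻¹, ?_⟩
  have := hf.inv
  rwa [neg_sub', ] at this

theorem Lin.add {D E D' E' : Divisor L F} (h : Lin D E) (h' : Lin D' E') :
    Lin (D + D') (E + E') := by
  obtain ⟨f, hf⟩ := h
  obtain ⟨g, hg⟩ := h'
  refine ⟨f * g, ?_⟩
  have := hf.mul hg
  rwa [sub_add_sub_comm] at this

theorem Lin.nsmul {D E : Divisor L F} (h : Lin D E) (m : ℕ) : Lin (m • D) (m • E) := by
  obtain ⟨f, hf⟩ := h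
  refine ⟨f ^ m, ?_⟩
  have := hf.pow m
  rwa [smul_sub] at this

theorem Lin.smul (s : SemilinearAut L F) {D E : Divisor L F} (h : Lin D E) :
    Lin (s • D) (s • E) := by
  obtain ⟨f, hf⟩ := h
  refine ⟨s • f, ?_⟩
  have := smul_isDiv s hf
  rwa [smul_sub] at this

theorem Sg.symm {D E : Divisor L F} (h : Sg D E) : Sg E D := by
  rcases h with h | h
  · exact Or.inl h.symm
  · refine Or.inr ?_
    have := h.symm.neg
    rwa [neg_neg] at this

theorem Sg.twice {D : Divisor L F} {Φ : Divisor L F →+ Divisor L F}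
    (hΦ : ∀ {D E : Divisor L F}, Lin D E → Lin (Φ D) (Φ E)) (h : Sg (Φ D) D) :
    Lin (Φ (Φ D)) D := by
  rcases h with h | h
  · exact (hΦ h).trans h
  · have h1 := hΦ h
    rw [map_neg] at h1
    have h2 := h.neg
    rw [neg_neg] at h2
    exact h1.trans h2

theorem Sg.transfer {D E : Divisor L F} {Φ : Divisor L F →+ Divisor L F}
    (hΦ : ∀ {D E : Divisor L F}, Lin D E → Lin (Φ D) (Φ E)) (hDE : Sg E D) (h : Sg (Φ D) D) :
    Sg (Φ E) E := by
  rcases hDE with h1 | h1 <;> rcases h with h2 | h2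
  · exact Or.inl (((hΦ h1).trans h2).trans h1.symm)
  · exact Or.inr (((hΦ h1).trans h2).trans h1.symm.neg)
  · have h3 := hΦ h1
    rw [map_neg] at h3
    exact Or.inl ((h3.trans h2.neg).trans h1.symm)
  · have h3 := hΦ h1
    rw [map_neg] at h3
    have h4 := h1.symm.neg
    exact Or.inr ((h3.trans h2.neg).trans h4)

end Lin

section PowRes

variable {A : ValuationSubring L} {π : A →+* k} (V : ResVal A π F F₁) (n : ℕ)

/-- the residue of `f` is an `n`-th power -/
def PowRes (f : F) : Prop := ∃ b : F₁, b ≠ 0 ∧ V.HasRes f (b ^ n)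

variable {V n}

theorem PowRes.mul {f g : F} (hf : PowRes V n f) (hg : PowRes V n g) : PowRes V n (f * g) := by
  obtain ⟨a, ha, hf⟩ := hf
  obtain ⟨b, hb, hg⟩ := hg
  exact ⟨a * b, mul_ne_zero ha hb, by rw [mul_pow]; exact hf.mul hg⟩

theorem PowRes.inv {f : F} (hf : PowRes V n f) : PowRes V n f⁻¹ := by
  obtain ⟨a, ha, hf⟩ := hf
  exact ⟨a⁻¹, inv_ne_zero ha, by rw [inv_pow]; exact hf.inv (pow_ne_zero n ha)⟩

theorem PowRes.pow {f : F} (hf : PowRes V n f) (m : ℕ) : PowRes V n (f ^ m) := by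
  obtain ⟨a, ha, hf⟩ := hf
  exact ⟨a ^ m, pow_ne_zero m ha, by rw [← pow_mul, mul_comm m n, pow_mul]; exact hf.pow m⟩

theorem PowRes.zpow {f : F} (hf : PowRes V n f) (m : ℤ) : PowRes V n (f ^ m) := by
  obtain ⟨m, rfl | rfl⟩ := m.eq_nat_or_neg
  · rw [zpow_natCast]; exact hf.pow m
  · rw [zpow_neg, zpow_natCast]; exact (hf.pow m).inv

theorem PowRes.of_pow {f : F} (hf : f ≠ 0) : PowRes V n (f ^ n) := by
  obtain ⟨a, ha, h⟩ := ResVal.exists_hasRes (V := V) hf
  exact ⟨a, ha, h.pow n⟩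

theorem PowRes.const {c : L} (hc : c ≠ 0) : PowRes V n (algebraMap L F c) := by
  refine ⟨1, one_ne_zero, ?_⟩
  rw [one_pow, Algebra.algebraMap_eq_smul_one]
  exact ResVal.hasRes_one.smul hc

theorem PowRes.ne_zero {f : F} (hf : PowRes V n f) : f ≠ 0 := by
  obtain ⟨a, ha, h⟩ := hf
  exact h.ne_zero (pow_ne_zero n ha)

/-- transfer along a relation of divisors -/
theorem PowRes.of_lin [IsFF L F] [IsAlgClosed L] {D D' : Divisor L F} {f f' : F}
    (hf : IsDiv (n • D) f) (hf' : IsDiv (n • D') f') (h : Sg D' D) (hp : PowRes V n f) :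
    PowRes V n f' := by
  rcases h with ⟨h, hh⟩ | ⟨h, hh⟩
  · have h1 : IsDiv (n • D') (f * h ^ n) := by
      have := hf.mul (hh.pow n)
      rwa [← smul_add, add_sub_cancel] at this
    obtain ⟨c, hc, e⟩ := hf'.eq_const h1
    rw [e]
    exact (PowRes.const hc).mul (hp.mul (PowRes.of_pow hh.1))
  · have h1 : IsDiv (n • D') (f⁻¹ * h ^ n) := by
      have := hf.inv.mul (hh.pow n)
      rwa [← smul_neg, ← smul_add, add_sub_cancel] at this
    obtain ⟨c, hc, e⟩ := hf'.eq_const h1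
    rw [e]
    exact (PowRes.const hc).mul (hp.inv.mul (PowRes.of_pow hh.1))

/-- a power with exponent prime to `n`. -/
theorem PowRes.of_zpow {f : F} (hf : f ≠ 0) {m : ℤ} (hm : IsCoprime m n)
    (h : PowRes V n (f ^ m)) : PowRes V n f := by
  obtain ⟨u, v, huv⟩ := hm
  have h1 : f = (f ^ m) ^ u * (f ^ n) ^ v := by
    rw [← zpow_natCast f n, ← zpow_mul, ← zpow_mul, ← zpow_add₀ hf]
    have : m * u + (n : ℤ) * v = 1 := by linear_combination huv
    rw [this, zpow_one]
  rw [h1]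
  exact (h.zpow u).mul ((PowRes.of_pow hf).zpow v)

end PowRes

end Fermat.Agent.LLp
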