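import Fermat.Agent.LLp.Toric

/-!
# Torsion classes of order the residue characteristic: principality
-/

set_option autoImplicit false

noncomputable section

open AlgebraicCurve Module IntermediateField

namespace Fermat.Agent.LLp

open Fermat.Agent.BadRed
open Fermat.Agent.FunField Fermat.Agent.FunField.PlaceLemmas Fermat.Agent.Deuring

variable {L k F F₁ : Type*} [Field L] [Field k] [Field F] [Field F₁] [Algebra L F] [Algebra k F₁]
  {𝔇 : RData L k F (F₁ × F₁)}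

theorem principal_of_approx (p : FrobPencil 𝔇) [IsFF L F] [IsFF k F₁] [HasPrincipalDivisors L F]
    [HasPrincipalDivisors k F₁] [IsAlgClosed k] {g g₁ : ℤ} (H : FrobPencil.Hyp p g g₁)
    [IsAlgClosed L] {n : ℕ} (hnp : n.Prime) {Λ : LamData 𝔇 n} {τ : Tors 𝔇 n}
    {M : ℕ} (hτ : p.TrivGlue τ M) (hz : p.TrivGlue (Tors.zero 𝔇 1) M)
    {ε : 𝔇.A} (hε0 : (ε : L) ≠ 0) (hεπ : 𝔇.π ε = 0) {u u' : 𝔇.O}
    (hu : (u : F) ∈ riemannRochSpace (p.G M 0 + τ.D))
    (hu' : (u' : F) ∈ riemannRochSpace (p.G 0 M + τ.D))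
    (hε1' : DivBy 𝔇.O ((Λ.lam : L) ^ n * ε) ((u : F) ^ n * τ.f - 1))
    (hε2' : DivBy 𝔇.O ((Λ.lam : L) ^ n * ε) ((u' : F) ^ n * τ.f - 1))
    (hε3' : DivBy 𝔇.O ((Λ.lam : L) * ε) ((u : F) - u')) :
    ∃ w : F, w ≠ 0 ∧ ∀ v : Place L F, τ.D v = -(v.ord w) := by
  classical
  have hRR := H.hRR
  have harch := H.harch
  have hn : n ≠ 0 := hnp.ne_zero
  have hn1 : 1 ≤ n := Nat.one_le_iff_ne_zero.mpr hn
  have hMn : M ≤ n * M := Nat.le_mul_of_pos_left M hn1
  have hAB : ∀ a ∈ 𝔇.A, algebraMap L F a ∈ 𝔇.O := fun a ha => (𝔇.mem_iff a).mpr ha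
  -- orthonormal bases
  have hfdU := finiteDimensional_rr hRR (p.G M 0 + τ.D)
  have hfdV := finiteDimensional_rr hRR (p.G (n * M) 0 + (Tors.zero 𝔇 1).D)
  obtain ⟨e, heU, heli, hespan, -⟩ := 𝔇.exists_orthonormal (riemannRochSpace (p.G M 0 + τ.D))
  obtain ⟨b, hbV, hbli, hbspan, -⟩ :=
    𝔇.exists_orthonormal (riemannRochSpace (p.G (n * M) 0 + (Tors.zero 𝔇 1).D))
  have hbL := 𝔇.linearIndependent_of_res b hbli
  -- coordinate functionals
  have hφex : ∃ φ : Fin (finrank L (riemannRochSpace (p.G (n * M) 0 + (Tors.zero 𝔇 1).D))) →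
      F →ₗ[L] L, ∀ i j, φ i (b j : F) = if i = j then 1 else 0 := by
    obtain ⟨ψ, hψ⟩ := hbL.repr.exists_extend
    refine ⟨fun i => (Finsupp.lapply i).comp ψ, fun i j => ?_⟩
    have h1 : ψ ((b j : 𝔇.O) : F) = Finsupp.single j 1 := by
      have h2 := LinearMap.congr_fun hψ ⟨((b j : 𝔇.O) : F), Submodule.subset_span ⟨j, rfl⟩⟩
      rw [LinearMap.comp_apply, Submodule.subtype_apply] at h2
      rw [h2]
      exact hbL.repr_eq_single j _ rfl
    rw [LinearMap.comp_apply, h1, Finsupp.lapply_apply, Finsupp.single_apply]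
    simp [eq_comm]
  obtain ⟨φ, hφ⟩ := hφex
  have hφsum : ∀ (c : Fin (finrank L (riemannRochSpace (p.G (n * M) 0 + (Tors.zero 𝔇 1).D))) → L) i,
      φ i (∑ j, c j • (b j : F)) = c i := by
    intro c i
    rw [map_sum]
    simp [hφ]
  have hpm : ∀ (a b' : ℕ) (x : F), x ∈ riemannRochSpace (p.G a b' + τ.D) →
      x ^ n * (τ.f : F) ∈ riemannRochSpace (p.G (n * a) (n * b') + (Tors.zero 𝔇 1).D) := by
    intro a b' x hx
    have := τ.pow_mul_mem hx
    rw [p.G_smul] at this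
    simpa [Tors.zero] using this
  have hz0 : ∀ a b', p.G a b' + (Tors.zero 𝔇 1).D = p.G a b' := fun a b' => by simp [Tors.zero]
  have hpy : ∀ (a b' a' b'' : ℕ) (y x : F), y ∈ riemannRochSpace (p.G a b' + τ.D) →
      x ∈ riemannRochSpace (p.G a' b'' + τ.D) →
      y * x ^ (n - 1) * (τ.f : F) ∈ riemannRochSpace
        (p.G (a + (n - 1) * a') (b' + (n - 1) * b'') + (Tors.zero 𝔇 1).D) := by
    intro a b' a' b'' y x hy hx
    rw [hz0]
    have h1 := pow_mem_rr hx (n - 1)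
    have h2 := mul_mem_rr hy h1
    have h3 : (τ.f : F) ∈ riemannRochSpace (-(n • τ.D)) := by
      rw [mem_rr_of_ne τ.f_ne]
      intro v
      rw [← τ.hD v, Finsupp.neg_apply, neg_neg, Finsupp.smul_apply, nsmul_eq_mul]
    have h4 := mul_mem_rr h2 h3
    have h5 : p.G a b' + τ.D + (n - 1) • (p.G a' b'' + τ.D) + -(n • τ.D)
        = p.G (a + (n - 1) * a') (b' + (n - 1) * b'') := by
      have h6 : n • τ.D = (n - 1) • τ.D + τ.D := by rw [← succ_nsmul, Nat.sub_add_cancel hn1]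
      rw [← p.G_add, ← p.G_smul, smul_add, h6]
      abel
    rwa [h5] at h4
  have hpe : ∀ (a b' a' b'' : ℕ) (y x : F),
      y ∈ riemannRochSpace (p.G a b' + (Tors.zero 𝔇 1).D) →
      x ∈ riemannRochSpace (p.G a' b'' + τ.D) →
      y * x ∈ riemannRochSpace (p.G (a + a') (b' + b'') + τ.D) := by
    intro a b' a' b'' y x hy hx
    rw [hz0] at hy
    have h1 := mul_mem_rr hy hx
    rwa [← add_assoc, p.G_add] at h1
  have hmono : ∀ {a b' a' b'' : ℕ} (D : Divisor L F), a ≤ a' → b' ≤ b'' →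
      riemannRochSpace (p.G a b' + D) ≤ riemannRochSpace (p.G a' b'' + D) := fun D h h' =>
    rr_mono (add_le_add_left (p.G_mono h h') _)
  have hle1 : M + (n - 1) * M ≤ n * M := by
    obtain ⟨l, hl⟩ : ∃ l, n = l + 1 := ⟨n - 1, by omega⟩
    rw [hl, Nat.add_sub_cancel]; nlinarith
  obtain ⟨w, hwU, hw⟩ := LLp.theoremK (B := 𝔇.O) 𝔇.A hnp Λ.lam_ne Λ.c₀_ne Λ.lam.2 Λ.c₀.2 Λ.c₀_inv_mem Λ.hn hAB
    (U := riemannRochSpace (p.G M 0 + τ.D)) (U' := riemannRochSpace (p.G 0 M + τ.D))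
    (V1 := riemannRochSpace (p.G (n * M) 0 + (Tors.zero 𝔇 1).D))
    (V1' := riemannRochSpace (p.G 0 (n * M) + (Tors.zero 𝔇 1).D))
    (W1 := riemannRochSpace (p.G M (n * M) + (Tors.zero 𝔇 1).D))
    (W1' := riemannRochSpace (p.G (n * M) M + (Tors.zero 𝔇 1).D))
    (E1 := riemannRochSpace (p.G M 0 + (Tors.zero 𝔇 1).D))
    (E1' := riemannRochSpace (p.G 0 M + (Tors.zero 𝔇 1).D))
    (X1 := riemannRochSpace (p.G (2 * M) 0 + τ.D)) (X1' := riemannRochSpace (p.G 0 (2 * M) + τ.D))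
    (Y := riemannRochSpace (p.G M M + τ.D)) (f := τ.f) τ.f.2
    (by rw [hz0]; exact one_mem_rr (p.G_nonneg _ _))
    (by rw [hz0]; exact one_mem_rr (p.G_nonneg _ _))
    (fun x hx => hpm M 0 x hx) (fun x hx => hpm 0 M x hx)
    (hmono _ le_rfl (Nat.zero_le _)) (hmono _ (Nat.zero_le _) le_rfl)
    (hmono _ (Nat.zero_le _) le_rfl) (hmono _ le_rfl (Nat.zero_le _))
    (fun y hy x hx => hmono _ (by simp) hle1 (hpy M M 0 M y x hy hx))
    (fun y hy x hx => hmono _ hle1 (by simp) (hpy M M M 0 y x hy hx))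
    (fun y hy x hx => hmono _ (by omega) (by omega) (hpe M 0 M 0 y x hy hx))
    (fun y hy x hx => hmono _ (by omega) (by omega) (hpe M 0 0 M y x hy hx))
    (fun y hy x hx => hmono _ (by omega) (by omega) (hpe 0 M 0 M y x hy hx))
    (fun y hy x hx => hmono _ (by omega) (by omega) (hpe 0 M M 0 y x hy hx))
    (fun ε hε hε0 => (p.interProp hRR hz one_ne_zero (Nat.zero_le _) hMn (by omega) hε0 hε).1)
    (fun ε hε hε0 => (p.interProp hRR hτ hn (Nat.zero_le _) (by omega) (by omega) hε0 hε).1)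
    (fun ε hε hε0 => (p.interProp hRR hz one_ne_zero hMn (Nat.zero_le _) (by omega) hε0 hε).2)
    (fun ε hε hε0 => (p.interProp hRR hτ hn (by omega) (Nat.zero_le _) (by omega) hε0 hε).2)
    (fun i => ((e i : 𝔇.O) : F)) φ heU
    (by
      intro x hx hxO
      obtain ⟨c, hc⟩ := hespan x hx
      exact ⟨c, 𝔇.coeff_mem e heli c (by rw [← hc]; exact hxO), hc⟩)
    (by
      intro x hx hx0
      obtain ⟨c, hc⟩ := hbspan x hx
      rw [hc]
      refine Finset.sum_eq_zero fun i _ => ?_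
      have := hx0 i
      rw [hc, hφsum] at this
      rw [this, zero_smul])
    (by
      intro x hx hxO j
      obtain ⟨c, hc⟩ := hbspan x hx
      have := 𝔇.coeff_mem b hbli c (by rw [← hc]; exact hxO)
      rw [hc, hφsum]
      exact this j)
    ε.2 hε0 (harch ε hε0 hεπ) hu u.2 hu' u'.2 hε1' hε2' hε3'
  have hw0 : w ≠ 0 := by
    rintro rfl
    rw [zero_pow hn, zero_mul] at hw
    exact zero_ne_one hw
  refine ⟨w, hw0, fun v => ?_⟩
  have h1 := congrArg v.ord hw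
  rw [v.ord_mul (pow_ne_zero n hw0) τ.f_ne, ord_pow, v.ord_one, ← τ.hD v] at h1
  have hn' : (n : ℤ) ≠ 0 := by exact_mod_cast hn
  have h2 : (n : ℤ) * (v.ord w + τ.D v) = 0 := by linarith
  have h3 := (mul_eq_zero.mp h2).resolve_left hn'
  omega


end Fermat.Agent.LLp
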