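import Fermat.Agent.LLp.Count

/-!
# Rationality: the slopes of the non-split reductions
-/

set_option autoImplicit false

noncomputable section

open AlgebraicCurve Module IntermediateField

namespace Fermat.Agent.LLp

open Fermat.Agent.BadRed
open Fermat.Agent.FunField Fermat.Agent.FunField.PlaceLemmas Fermat.Agent.Deuring

variable {L k : Type*} [Field L] [Field k]
variable {F F₁ : Type*} [Field F] [Field F₁] [Algebra L F] [Algebra k F₁]
  {T : TwoVal L k F F₁}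

/-- `f = c (1 + a b)` with `c ≠ 0` constant and `b` integral -/
def CC {A : ValuationSubring L} {π : A →+* k} (V : ResVal A π F F₁) (a : F) (f : F) : Prop :=
  ∃ c : L, c ≠ 0 ∧ ∃ b ∈ V.O, f = algebraMap L F c * (1 + a * b)

section CC

variable {A : ValuationSubring L} {π : A →+* k} {V : ResVal A π F F₁}

theorem inv_one_add {a : A} (ha : π a = 0) {b : F} (hb : b ∈ V.O) :
    ∃ b' ∈ V.O, (1 + algebraMap L F (a : L) * b)⁻¹ = 1 + algebraMap L F (a : L) * b' ∧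
      1 + algebraMap L F (a : L) * b ≠ 0 := by
  have haO : algebraMap L F (a : L) ∈ V.O := (V.mem_iff _).mpr a.2
  have h1 : (1 + algebraMap L F (a : L) * b) ∈ V.O := add_mem (one_mem _) (mul_mem haO hb)
  have h2 : V.r ⟨_, h1⟩ = 1 := by
    have : (⟨_, h1⟩ : V.O) = 1 + ⟨_, haO⟩ * ⟨b, hb⟩ := rfl
    rw [this, map_add, map_one, map_mul, V.r_algebraMap a, ha, map_zero, zero_mul, add_zero]
  have hne : 1 + algebraMap L F (a : L) * b ≠ 0 := by
    intro h0
    have h3 : (⟨_, h1⟩ : V.O) = 0 := Subtype.ext h0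
    rw [h3, map_zero] at h2
    exact zero_ne_one h2
  obtain ⟨h4, -⟩ := V.inv_mem (f := ⟨_, h1⟩) (by rw [h2]; exact one_ne_zero)
  change (1 + algebraMap L F (a : L) * b)⁻¹ ∈ V.O at h4
  refine ⟨-(b * (1 + algebraMap L F (a : L) * b)⁻¹), neg_mem (mul_mem hb h4), ?_, hne⟩
  field_simp
  ring

theorem CC.mul {a : A} {f g : F}
    (hf : CC V (algebraMap L F (a : L)) f) (hg : CC V (algebraMap L F (a : L)) g) :
    CC V (algebraMap L F (a : L)) (f * g) := by
  obtain ⟨c, hc, b, hb, rfl⟩ := hf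
  obtain ⟨d, hd, e, he, rfl⟩ := hg
  have haO : algebraMap L F (a : L) ∈ V.O := (V.mem_iff _).mpr a.2
  refine ⟨c * d, mul_ne_zero hc hd, b + e + algebraMap L F (a : L) * (b * e),
    add_mem (add_mem hb he) (mul_mem haO (mul_mem hb he)), ?_⟩
  rw [map_mul]
  ring

theorem CC.inv {a : A} (ha : π a = 0) {f : F} (hf : CC V (algebraMap L F (a : L)) f) :
    CC V (algebraMap L F (a : L)) f⁻¹ := by
  obtain ⟨c, hc, b, hb, rfl⟩ := hf
  obtain ⟨b', hb', e, -⟩ := inv_one_add ha hb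
  exact ⟨c⁻¹, inv_ne_zero hc, b', hb', by rw [mul_inv, e, map_inv₀]⟩

theorem CC.ne_zero {a : A} (ha : π a = 0) {f : F} (hf : CC V (algebraMap L F (a : L)) f) :
    f ≠ 0 := by
  obtain ⟨c, hc, b, hb, rfl⟩ := hf
  obtain ⟨-, -, -, h⟩ := inv_one_add ha hb
  exact mul_ne_zero (by rwa [Ne, map_eq_zero]) h

theorem CC.one {a : A} : CC V (algebraMap L F (a : L)) (1 : F) :=
  ⟨1, one_ne_zero, 0, zero_mem _, by rw [map_one, mul_zero, add_zero, mul_one]⟩

theorem CC.const {a : A} {c : L} (hc : c ≠ 0) :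
    CC V (algebraMap L F (a : L)) (algebraMap L F c) :=
  ⟨c, hc, 0, zero_mem _, by rw [mul_zero, add_zero, mul_one]⟩

end CC

variable {n : ℕ}

/-- the `n`-th power of `c (1 + λ b)` -/
theorem CC.pow_lam (hn : n.Prime) (Λ : LamData T.toRData n) {V : ResVal T.A T.π F F₁} {f : F}
    (hf : CC V (algebraMap L F (Λ.lam : L)) f) :
    CC V (algebraMap L F ((Λ.lam ^ n : T.A) : L)) (f ^ n) := by
  obtain ⟨c, hc, b, hb, rfl⟩ := hf
  let lam : T.A := Λ.lam
  obtain ⟨Q, hQ⟩ := exists_add_pow_prime_eq₂ hn (1 : V.O) (V.cst lam * ⟨b, hb⟩)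
  have h1 : algebraMap L F (n : L) =
      algebraMap L F (Λ.c₀ : L) * algebraMap L F (Λ.lam : L) ^ (n - 1) := by
    rw [Λ.hn, map_mul, map_pow]
  rw [map_natCast] at h1
  have h2 := congrArg (fun x : V.O => (x : F)) hQ
  simp only [one_pow] at h2
  push_cast at h2
  rw [ResVal.coe_cst] at h2
  change (1 + algebraMap L F (Λ.lam : L) * b) ^ n = 1 + (n : F) * 1 *
    (algebraMap L F (Λ.lam : L) * b) + (n : F) * (algebraMap L F (Λ.lam : L) * b) ^ 2 * (Q : F) +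
      (algebraMap L F (Λ.lam : L) * b) ^ n at h2
  have hpow : algebraMap L F (Λ.lam : L) ^ (n - 1) * algebraMap L F (Λ.lam : L) =
      algebraMap L F (Λ.lam : L) ^ n := by
    rw [← pow_succ, Nat.sub_add_cancel hn.one_le]
  have hlO : algebraMap L F (Λ.lam : L) ∈ V.O := (V.mem_iff _).mpr Λ.lam.2
  have hcO : algebraMap L F (Λ.c₀ : L) ∈ V.O := (V.mem_iff _).mpr Λ.c₀.2
  refine ⟨c ^ n, pow_ne_zero n hc, b ^ n + algebraMap L F (Λ.c₀ : L) *
    (b + algebraMap L F (Λ.lam : L) * b ^ 2 * Q), ?_, ?_⟩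
  · exact add_mem (pow_mem hb n) (mul_mem hcO (add_mem hb (mul_mem (mul_mem hlO (pow_mem hb 2)) Q.2)))
  · have h3 : algebraMap L F ((Λ.lam ^ n : T.A) : L) = algebraMap L F (Λ.lam : L) ^ n := by
      rw [← map_pow]; rfl
    rw [mul_pow, ← map_pow, h2, h1, h3, mul_pow _ b n]
    congr 1
    linear_combination (algebraMap L F (Λ.c₀ : L) * b +
      algebraMap L F (Λ.c₀ : L) * algebraMap L F (Λ.lam : L) * b ^ 2 * (Q : F)) * hpow

/-- extraction of `n`-th roots. -/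
theorem CC.of_pow [IsAlgClosed L] (hn : n.Prime) [CharP k n] (Λ : LamData T.toRData n)
    {V : ResVal T.A T.π F F₁} {f : F}
    (hf : CC V (algebraMap L F ((Λ.lam ^ n : T.A) : L)) (f ^ n)) :
    CC V (algebraMap L F (Λ.lam : L)) f := by
  obtain ⟨c, hc, b, hb, e⟩ := hf
  obtain ⟨d, hd⟩ := IsAlgClosed.exists_pow_nat_eq c hn.pos
  have hd0 : d ≠ 0 := by
    rintro rfl
    rw [zero_pow hn.ne_zero] at hd
    exact hc hd.symm
  have hdF : algebraMap L F d ≠ 0 := by rwa [Ne, map_eq_zero]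
  have h3 : algebraMap L F ((Λ.lam ^ n : T.A) : L) = algebraMap L F (Λ.lam : L) ^ n := by
    rw [← map_pow]; rfl
  have hlO : algebraMap L F (Λ.lam : L) ∈ V.O := (V.mem_iff _).mpr Λ.lam.2
  have hcO : algebraMap L F (Λ.c₀ : L) ∈ V.O := (V.mem_iff _).mpr Λ.c₀.2
  set ρ : F := f * (algebraMap L F d)⁻¹ with hρ
  have hρn : ρ ^ n = 1 + algebraMap L F (Λ.lam : L) ^ n * b := by
    have hdn : algebraMap L F d ^ n ≠ 0 := pow_ne_zero n hdF
    rw [hρ, mul_pow, e, ← hd, map_pow, h3, inv_pow]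
    field_simp
  have hρnO : ρ ^ n ∈ V.O := by rw [hρn]; exact add_mem (one_mem _) (mul_mem (pow_mem hlO n) hb)
  have hρO : ρ ∈ V.O := by
    rcases V.O.mem_or_inv_mem ρ with h | h
    · exact h
    · by_cases h0 : ρ = 0
      · rw [h0]; exact zero_mem _
      have h1 : ρ = ρ ^ n * ρ⁻¹ ^ (n - 1) := by
        have h2 : ρ ^ n = ρ ^ (n - 1) * ρ := by rw [← pow_succ, Nat.sub_add_cancel hn.one_le]
        rw [h2, inv_pow]
        field_simp
      rw [h1]
      exact mul_mem hρnO (pow_mem h _)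
  have hπl : T.π Λ.lam = 0 := Λ.π_lam
  have hres : V.r ⟨ρ, hρO⟩ = 1 := by
    haveI : Fact n.Prime := ⟨hn⟩
    haveI : CharP F₁ n := charP_of_injective_algebraMap (algebraMap k F₁).injective n
    apply frobenius_inj F₁ n
    rw [frobenius_def, frobenius_def, one_pow, ← map_pow]
    have h1 : (⟨ρ, hρO⟩ : V.O) ^ n = 1 + (⟨_, hlO⟩ : V.O) ^ n * ⟨b, hb⟩ := Subtype.ext hρn
    have h2 : V.r ⟨_, hlO⟩ = 0 := by
      rw [V.r_algebraMap Λ.lam]
      show algebraMap k F₁ (T.π Λ.lam) = 0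
      rw [hπl, map_zero]
    rw [h1, map_add, map_one, map_mul, map_pow, h2, zero_pow hn.ne_zero, zero_mul, add_zero]
  have hsub : ρ - 1 ∈ V.O := sub_mem hρO (one_mem _)
  have hsubr : V.r ⟨ρ - 1, hsub⟩ = 0 := by
    have : (⟨ρ - 1, hsub⟩ : V.O) = ⟨ρ, hρO⟩ - 1 := rfl
    rw [this, map_sub, hres, map_one, sub_self]
  have hfρ : f = algebraMap L F d * ρ := by rw [hρ]; field_simp
  by_cases h0 : ρ - 1 = 0
  · exact ⟨d, hd0, 0, zero_mem _, by rw [mul_zero, add_zero, hfρ, sub_eq_zero.mp h0]⟩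
  -- write `ρ = 1 + μ b'` with `b'` of nonzero residue
  obtain ⟨c', hc', hcO', hcr'⟩ := V.scale _ h0
  set b' : F := c' • (ρ - 1) with hb'
  have hρb : ρ - 1 = algebraMap L F c'⁻¹ * b' := by
    have : algebraMap L F c' ≠ 0 := by rwa [Ne, map_eq_zero]
    rw [hb', Algebra.smul_def, map_inv₀]
    field_simp
  have hμA : c'⁻¹ ∈ T.A := by
    by_contra hcon
    have h4 : c' ∈ T.A := by
      have := (T.A.mem_or_inv_mem c'⁻¹).resolve_left hcon
      rwa [inv_inv] at this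
    apply hcr'
    have h5 : (⟨c' • (ρ - 1), hcO'⟩ : V.O) = V.cst ⟨c', h4⟩ * ⟨ρ - 1, hsub⟩ :=
      Subtype.ext (Algebra.smul_def _ _)
    rw [h5, map_mul, hsubr, mul_zero]
  let μ : T.A := ⟨c'⁻¹, hμA⟩
  have hμ0 : (μ : L) ≠ 0 := inv_ne_zero hc'
  let lam : T.A := Λ.lam
  have hdv : (∃ z : T.A, μ = lam * z) ∨ (∃ z : T.A, lam = μ * z ∧ T.π z = 0) :=
    dvd_or (𝔇 := T.toRData) μ lam hμ0 Λ.lam_ne
  rcases hdv with ⟨z, hz⟩ | ⟨z, hz, hz0⟩
  · refine ⟨d, hd0, algebraMap L F (z : L) * b', mul_mem ((V.mem_iff _).mpr z.2) hcO', ?_⟩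
    have h5 : c'⁻¹ = (Λ.lam : L) * (z : L) := congrArg Subtype.val hz
    rw [hfρ]
    congr 1
    have h6 : ρ = 1 + algebraMap L F c'⁻¹ * b' := by rw [← hρb]; ring
    rw [h6, h5, map_mul]
    ring
  · exfalso
    have hlz : algebraMap L F (Λ.lam : L) = algebraMap L F c'⁻¹ * algebraMap L F (z : L) := by
      rw [← map_mul]
      congr 1
      exact congrArg Subtype.val hz
    have hzr : V.r ⟨algebraMap L F (z : L), (V.mem_iff _).mpr z.2⟩ = 0 := by
      rw [V.r_algebraMap z, hz0, map_zero]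
    obtain ⟨Q, hQ⟩ := exists_add_pow_prime_eq₂ hn (1 : V.O) (V.cst μ * ⟨b', hcO'⟩)
    have h2 := congrArg (fun x : V.O => (x : F)) hQ
    simp only [one_pow] at h2
    push_cast at h2
    rw [ResVal.coe_cst] at h2
    change (1 + algebraMap L F c'⁻¹ * b') ^ n = 1 + (n : F) * 1 *
      (algebraMap L F c'⁻¹ * b') + (n : F) * (algebraMap L F c'⁻¹ * b') ^ 2 * (Q : F) +
        (algebraMap L F c'⁻¹ * b') ^ n at h2
    have h6 : 1 + algebraMap L F c'⁻¹ * b' = ρ := by rw [← hρb]; ring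
    rw [h6, hρn] at h2
    have h1 : algebraMap L F (n : L) =
        algebraMap L F (Λ.c₀ : L) * algebraMap L F (Λ.lam : L) ^ (n - 1) := by
      rw [Λ.hn, map_mul, map_pow]
    rw [map_natCast] at h1
    set M : F := algebraMap L F c'⁻¹ with hM
    have hM0 : M ≠ 0 := by rw [hM, Ne, map_eq_zero]; exact inv_ne_zero hc'
    set Z : F := algebraMap L F (z : L) with hZ
    have hpow : M ^ (n - 1) * M = M ^ n := by
      rw [← pow_succ, Nat.sub_add_cancel hn.one_le]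
    -- divide by `M ^ n`
    have h7 : Z ^ n * b = b' ^ n + algebraMap L F (Λ.c₀ : L) * Z ^ (n - 1) *
        (b' + M * b' ^ 2 * Q) := by
      apply mul_left_cancel₀ (pow_ne_zero n hM0)
      rw [h1, hlz, mul_pow M Z n, mul_pow M Z (n - 1), mul_pow M b' n] at h2
      linear_combination h2 + (algebraMap L F (Λ.c₀ : L) * Z ^ (n - 1) * b' +
        algebraMap L F (Λ.c₀ : L) * Z ^ (n - 1) * M * b' ^ 2 * (Q : F)) * hpow
    have hZO : Z ∈ V.O := (V.mem_iff _).mpr z.2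
    have hMO : M ∈ V.O := (V.mem_iff _).mpr hμA
    have h8 : (⟨Z, hZO⟩ : V.O) ^ n * ⟨b, hb⟩ = ⟨b', hcO'⟩ ^ n + ⟨_, hcO⟩ * ⟨Z, hZO⟩ ^ (n - 1) *
        (⟨b', hcO'⟩ + ⟨M, hMO⟩ * ⟨b', hcO'⟩ ^ 2 * Q) := Subtype.ext h7
    have h9 := congrArg V.r h8
    have hn1 : n - 1 ≠ 0 := by have := hn.two_le; omega
    rw [map_mul, map_pow, hzr, zero_pow hn.ne_zero, zero_mul, map_add, map_mul, map_mul, map_pow,
      map_pow, hzr, zero_pow hn1, mul_zero, zero_mul, add_zero] at h9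
    exact hcr' ((pow_eq_zero_iff hn.ne_zero).mp h9.symm)

end Fermat.Agent.LLp
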