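import Fermat.Agent.LLp.Fine
import Fermat.Agent.BadRed.Conc3

/-!
# Strong weak approximation and a criterion for fine normalisation
-/

set_option autoImplicit false

noncomputable section

open AlgebraicCurve Module IntermediateField

namespace Fermat.Agent.LLp

open Fermat.Agent.BadRed
open Fermat.Agent.FunField Fermat.Agent.FunField.PlaceLemmas Fermat.Agent.Deuring

variable {L k : Type*} [Field L] [Field k]
variable {F F₁ : Type*} [Field F] [Field F₁] [Algebra L F] [Algebra k F₁]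
  (T : TwoVal L k F F₁)

/-- elements of the maximal ideal -/
def InM {A : ValuationSubring L} {π : A →+* k} (V : ResVal A π F F₁) (x : F) : Prop :=
  ∃ h : x ∈ V.O, V.r ⟨x, h⟩ = 0

namespace InM

variable {A : ValuationSubring L} {π : A →+* k} {V : ResVal A π F F₁}

theorem zero : InM V (0 : F) := ⟨zero_mem _, map_zero V.r⟩

theorem add {x y : F} (hx : InM V x) (hy : InM V y) : InM V (x + y) := by
  obtain ⟨h, e⟩ := hx
  obtain ⟨h', e'⟩ := hy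
  refine ⟨add_mem h h', ?_⟩
  have : (⟨x + y, add_mem h h'⟩ : V.O) = ⟨x, h⟩ + ⟨y, h'⟩ := rfl
  rw [this, map_add, e, e', add_zero]

theorem neg {x : F} (hx : InM V x) : InM V (-x) := by
  obtain ⟨h, e⟩ := hx
  refine ⟨neg_mem h, ?_⟩
  have : (⟨-x, neg_mem h⟩ : V.O) = -⟨x, h⟩ := rfl
  rw [this, map_neg, e, neg_zero]

theorem mul_left {x y : F} (hx : x ∈ V.O) (hy : InM V y) : InM V (x * y) := by
  obtain ⟨h', e'⟩ := hy
  refine ⟨mul_mem hx h', ?_⟩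
  have : (⟨x * y, mul_mem hx h'⟩ : V.O) = ⟨x, hx⟩ * ⟨y, h'⟩ := rfl
  rw [this, map_mul, e', mul_zero]

theorem mul_right {x y : F} (hx : InM V x) (hy : y ∈ V.O) : InM V (x * y) := by
  rw [mul_comm]; exact mul_left hy hx

theorem mem {x : F} (hx : InM V x) : x ∈ V.O := hx.1

theorem const {a : A} (h : π a = 0) : InM V (algebraMap L F (a : L)) :=
  ⟨(V.mem_iff _).mpr a.2, by
    have := V.r_algebraMap a
    rw [this, h, map_zero]⟩

end InM

theorem isLocalHom_pi : IsLocalHom T.π := by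
  constructor
  intro a ha
  by_contra h
  have := (T.π_ker a).mpr h
  rw [this] at ha
  exact not_isUnit_zero ha

variable {T}

/-- **Strong form of weak approximation.** -/
theorem exists_strong (harch : T.Arch) {h₁ h₂ : F} (hh₁ : h₁ ≠ 0) (hh₂ : h₂ ≠ 0) {ε : L}
    (hε : ε ≠ 0) : ∃ h : F, (∃ z, InM T.V₁ z ∧ h = h₁ * (1 + algebraMap L F ε * z)) ∧
      (∃ z, InM T.V₂ z ∧ h = h₂ * (1 + algebraMap L F ε * z)) := by
  have hloc := isLocalHom_pi T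
  have hε' : algebraMap L F ε ≠ 0 := by rwa [Ne, map_eq_zero]
  obtain ⟨y, hy₁, hy₂, ey₁, ey₂⟩ := T.surj 1 0
  have harch' : ArchA T.π := harch
  obtain ⟨M, hM, eM⟩ := ResVal.exists_pow_mul harch' T.V₂ (x := (algebraMap L F ε)⁻¹ * (h₁ * h₂⁻¹ - 1))
    hy₂ ey₂
  have hsub : (1 - y ^ M : F) ∈ T.V₁.O := sub_mem (one_mem _) (pow_mem hy₁ M)
  have esub : T.V₁.r ⟨1 - y ^ M, hsub⟩ = 0 := by
    have : (⟨1 - y ^ M, hsub⟩ : T.V₁.O) = 1 - ⟨y, hy₁⟩ ^ M := rfl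
    rw [this, map_sub, map_one, map_pow, ey₁, one_pow, sub_self]
  obtain ⟨M', hM', eM'⟩ := ResVal.exists_pow_mul harch' T.V₁
    (x := (algebraMap L F ε)⁻¹ * (h₂ * h₁⁻¹ - 1)) hsub esub
  -- `e = 1 - (1 - y^M)^M'` is divisible by `y^M`
  obtain ⟨q, hq, hqe⟩ : ∃ q ∈ T.V₂.O, 1 - (1 - y ^ M) ^ M' = q * y ^ M := by
    have h2 : ∀ m : ℕ, ∃ q ∈ T.V₂.O, 1 - (1 - y ^ M) ^ m = q * y ^ M := by
      intro m
      induction m with
      | zero => exact ⟨0, zero_mem _, by simp⟩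
      | succ m ih =>
        obtain ⟨q, hq, h⟩ := ih
        refine ⟨q * (1 - y ^ M) + 1, ?_, ?_⟩
        · exact add_mem (mul_mem hq (sub_mem (one_mem _) (pow_mem hy₂ M))) (one_mem _)
        · rw [pow_succ]
          linear_combination (1 - y ^ M) * h
    exact h2 M'
  refine ⟨h₁ * (1 - (1 - y ^ M) ^ M') + h₂ * (1 - y ^ M) ^ M', ⟨_, ⟨hM', eM'⟩, ?_⟩,
    ⟨_, InM.mul_left hq ⟨hM, eM⟩, ?_⟩⟩
  · field_simp
    ring
  · have h3 : (1 - y ^ M) ^ M' = 1 - q * y ^ M := by linear_combination -hqe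
    rw [h3]
    field_simp
    ring

/-- local normalisation at a valuation: `f h ^ n = 1 + λ ^ n s`, `s` in the maximal ideal. -/
def LocFine {A : ValuationSubring L} {π : A →+* k} (V : ResVal A π F F₁) (n : ℕ) (lam : L)
    (f : F) : Prop :=
  ∃ h s : F, h ≠ 0 ∧ InM V s ∧ f * h ^ n = 1 + algebraMap L F lam ^ n * s

theorem LocFine.mulPow {A : ValuationSubring L} {π : A →+* k} {V : ResVal A π F F₁} {n : ℕ}
    {lam : L} {f g : F} (hf : LocFine V n lam f) (hg : g ≠ 0) : LocFine V n lam (f * g ^ n) := by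
  obtain ⟨h, s, hh, hs, e⟩ := hf
  refine ⟨h * g⁻¹, s, mul_ne_zero hh (inv_ne_zero hg), hs, ?_⟩
  have hgn : g ^ n ≠ 0 := pow_ne_zero n hg
  rw [← e, mul_pow, inv_pow]
  field_simp

/-- the power of `1 + λ z` is `≡ 1` modulo `λ ^ n 𝔪`. -/
theorem pow_one_add_lam {n : ℕ} (hn : n.Prime) (Λ : LamData T.toRData n) (V : ResVal T.A T.π F F₁)
    {z : F} (hz : InM V z) :
    ∃ s, InM V s ∧ (1 + algebraMap L F (Λ.lam : L) * z) ^ n =
      1 + algebraMap L F (Λ.lam : L) ^ n * s := by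
  let lam : T.A := Λ.lam
  obtain ⟨Q, hQ⟩ := exists_add_pow_prime_eq₂ hn (1 : V.O) (V.cst lam * ⟨z, hz.1⟩)
  have h1 : algebraMap L F (n : L) = algebraMap L F (Λ.c₀ : L) * algebraMap L F (Λ.lam : L) ^ (n - 1) := by
    rw [Λ.hn, map_mul, map_pow]
  rw [map_natCast] at h1
  have h2 := congrArg (fun x : V.O => (x : F)) hQ
  simp only [one_pow] at h2
  push_cast at h2
  rw [ResVal.coe_cst] at h2
  change (1 + algebraMap L F (Λ.lam : L) * z) ^ n = 1 + (n : F) * 1 *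
    (algebraMap L F (Λ.lam : L) * z) + (n : F) * (algebraMap L F (Λ.lam : L) * z) ^ 2 * (Q : F) +
      (algebraMap L F (Λ.lam : L) * z) ^ n at h2
  have hpow : algebraMap L F (Λ.lam : L) ^ (n - 1) * algebraMap L F (Λ.lam : L) =
      algebraMap L F (Λ.lam : L) ^ n := by
    rw [← pow_succ, Nat.sub_add_cancel hn.one_le]
  obtain ⟨n', hn'⟩ : ∃ n', n = n' + 1 := ⟨n - 1, by have := hn.one_le; omega⟩
  refine ⟨z ^ n + algebraMap L F (Λ.c₀ : L) * (z + algebraMap L F (Λ.lam : L) * z ^ 2 * Q), ?_, ?_⟩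
  · refine InM.add ?_ (InM.mul_left ((V.mem_iff _).mpr Λ.c₀.2) (InM.add hz ?_))
    · rw [hn', pow_succ]
      exact InM.mul_left (pow_mem hz.1 _) hz
    · rw [mul_assoc]
      exact InM.mul_right (InM.const Λ.π_lam) (mul_mem (pow_mem hz.1 _) Q.2)
  · rw [h2, h1, mul_pow _ z n]
    linear_combination (algebraMap L F (Λ.c₀ : L) * z +
      algebraMap L F (Λ.c₀ : L) * algebraMap L F (Λ.lam : L) * z ^ 2 * (Q : F)) * hpow

/-- **Criterion for fine normalisation.** -/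
theorem isFine_of_locFine [HasPrincipalDivisors L F] (harch : T.Arch) {n : ℕ} (hn : n.Prime)
    (Λ : LamData T.toRData n) {D : Divisor L F} {f : F}
    (hfD : ∀ v : Place L F, (n : ℤ) * D v = v.ord f)
    (h₁ : LocFine T.V₁ n Λ.lam f) (h₂ : LocFine T.V₂ n Λ.lam f) :
    ∃ (h : F) (hh : h ≠ 0), IsFine Λ (D + dv (K := L) h hh) := by
  obtain ⟨h₁, s₁, hh₁, hs₁, e₁⟩ := h₁
  obtain ⟨h₂, s₂, hh₂, hs₂, e₂⟩ := h₂
  obtain ⟨h, ⟨z₁, hz₁, ez₁⟩, ⟨z₂, hz₂, ez₂⟩⟩ := exists_strong harch hh₁ hh₂ (ε := Λ.lam) Λ.lam_ne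
  have hlam0 : algebraMap L F (Λ.lam : L) ≠ 0 := by simpa using Λ.lam_ne
  have key : ∀ (V : ResVal T.A T.π F F₁) (h₀ s₀ z₀ : F), InM V s₀ → InM V z₀ →
      f * h₀ ^ n = 1 + algebraMap L F (Λ.lam : L) ^ n * s₀ →
      h = h₀ * (1 + algebraMap L F (Λ.lam : L) * z₀) →
      ∃ s, InM V s ∧ f * h ^ n = 1 + algebraMap L F (Λ.lam : L) ^ n * s := by
    intro V h₀ s₀ z₀ hs₀ hz₀ e₀ ez₀
    obtain ⟨s', hs', e'⟩ := pow_one_add_lam hn Λ V hz₀
    refine ⟨s₀ + s' + algebraMap L F (Λ.lam : L) ^ n * s₀ * s', ?_, ?_⟩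
    · refine (hs₀.add hs').add ?_
      have h5 : algebraMap L F (Λ.lam : L) ^ n ∈ V.O := pow_mem ((V.mem_iff _).mpr Λ.lam.2) n
      exact InM.mul_left (mul_mem h5 hs₀.1) hs'
    · rw [ez₀, mul_pow, ← mul_assoc, e₀, e']
      ring
  obtain ⟨t₁, ht₁, et₁⟩ := key T.V₁ h₁ s₁ z₁ hs₁ hz₁ e₁ ez₁
  obtain ⟨t₂, ht₂, et₂⟩ := key T.V₂ h₂ s₂ z₂ hs₂ hz₂ e₂ ez₂
  have htt : t₁ = t₂ := by
    have h6 := et₁.symm.trans et₂
    have h7 : algebraMap L F (Λ.lam : L) ^ n * t₁ = algebraMap L F (Λ.lam : L) ^ n * t₂ :=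
      add_left_cancel h6
    exact mul_left_cancel₀ (pow_ne_zero n hlam0) h7
  subst htt
  have hlamO : ∀ V : ResVal T.A T.π F F₁, algebraMap L F (Λ.lam : L) ^ n ∈ V.O := fun V =>
    pow_mem ((V.mem_iff _).mpr Λ.lam.2) n
  have hO : ∀ V : ResVal T.A T.π F F₁, InM V t₁ → f * h ^ n ∈ V.O := fun V ht => by
    rw [et₁]; exact add_mem (one_mem _) (mul_mem (hlamO V) ht.1)
  have hlamres : (0 : F) ≠ 1 := zero_ne_one
  have hfh0 : f * h ^ n ≠ 0 := by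
    intro h0
    rw [h0] at et₁
    have h1 : InM T.V₁ (algebraMap L F (Λ.lam : L) ^ n * t₁) := InM.mul_left (hlamO _) ht₁
    have h2 : InM T.V₁ (-(1 : F)) := by
      have : algebraMap L F (Λ.lam : L) ^ n * t₁ = -1 := by linear_combination -et₁
      rwa [this] at h1
    obtain ⟨h3, e3⟩ := h2
    have : (⟨-(1 : F), h3⟩ : T.V₁.O) = -1 := rfl
    rw [this, map_neg, map_one] at e3
    exact one_ne_zero (neg_eq_zero.mp e3)
  have hh0 : h ≠ 0 := by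
    rintro rfl
    rw [zero_pow hn.ne_zero, mul_zero] at hfh0
    exact hfh0 rfl
  have hf0 : f ≠ 0 := left_ne_zero_of_mul hfh0
  refine ⟨h, hh0, ⟨f * h ^ n, hO _ ht₁, hO _ ht₂⟩, ⟨t₁, ht₁.1, ht₂.1⟩, Prod.ext ht₁.2 ht₂.2, ?_,
    fun v => ?_⟩
  · apply Subtype.ext
    show f * h ^ n = 1 + algebraMap L F ((Λ.lam : L) ^ n) * t₁
    rw [et₁, map_pow]
  · rw [Finsupp.add_apply, mul_add, hfD, dv_apply]
    show _ = v.ord (f * h ^ n)
    rw [v.ord_mul hf0 (pow_ne_zero n hh0), ord_pow]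

end Fermat.Agent.LLp
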