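import Fermat.Agent.LLp.Approx

/-!
# Torsion classes of order the residue characteristic: the toric part
-/

set_option autoImplicit false

noncomputable section

open AlgebraicCurve Module IntermediateField

namespace Fermat.Agent.LLp

open Fermat.Agent.BadRed
open Fermat.Agent.FunField Fermat.Agent.FunField.PlaceLemmas Fermat.Agent.Deuring

variable {L k F F₁ : Type*} [Field L] [Field k] [Field F] [Field F₁] [Algebra L F] [Algebra k F₁]
  {𝔇 : RData L k F (F₁ × F₁)}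

section Roots

variable (p : FrobPencil 𝔇) {n : ℕ}

/-- the glued pairs with given values -/
theorem pow_inj_of_charP [CharP k n] (hn : n.Prime) {a b : k} (h : a ^ n = b ^ n) : a = b := by
  have := Fact.mk hn
  exact frobenius_inj k n h

variable [IsFF L F] [IsFF k F₁] [HasPrincipalDivisors L F] [HasPrincipalDivisors k F₁]
  [IsAlgClosed k] {g g₁ : ℤ} (H : FrobPencil.Hyp p g g₁)

include H in
theorem mem_S_iff (q : p.OO × p.OO) : q ∈ p.S ↔ ∀ x : p.Pt, x.1 q.2 = x.1 (p.FrO q.1) :=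
  (p.structure_fibre H.hRR H.hRR₁ H.hpos).2.2 q.1 q.2

include H in
/-- `n`-th roots of glued pairs are glued. -/
theorem good_of_pow [CharP k n] (hn : n.Prime) {a b : ℕ} {q : F₁ × F₁}
    (h : p.Good (n * a) (n * b) (q ^ n)) : p.Good a b q := by
  obtain ⟨q', ⟨hS, h1, h2⟩, hq'⟩ := h
  have e1 : (q'.1 : F₁) = (p.tb ^ b * q.1) ^ n := by
    have := congrArg Prod.fst hq'
    simp only [Pencil.ii_apply, Prod.pow_fst, Prod.fst_mul,
      Prod.pow_mk] at this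
    rw [this, mul_pow, ← pow_mul, mul_comm b n]
  have e2 : (q'.2 : F₁) = (p.tb ^ b * q.2) ^ n := by
    have := congrArg Prod.snd hq'
    simp only [Pencil.ii_apply, Prod.pow_snd, Prod.snd_mul,
      Prod.pow_mk] at this
    rw [this, mul_pow, ← pow_mul, mul_comm b n]
  rw [SetLike.mem_coe, p.mem_P] at h1 h2
  have hmn : (n * a + n * b) • p.Eb = n • ((a + b) • p.Eb) := by
    rw [smul_smul, mul_add]
  rw [e1, hmn] at h1
  rw [e2, hmn] at h2
  have h1' := pow_mem_rr_iff hn.ne_zero h1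
  have h2' := pow_mem_rr_iff hn.ne_zero h2
  refine ⟨(⟨_, _, h1'⟩, ⟨_, _, h2'⟩), ⟨?_, h1', h2'⟩, ?_⟩
  · change _ ∈ p.S
    rw [mem_S_iff p H]
    intro x
    apply pow_inj_of_charP hn
    have h3 := (mem_S_iff p H _).mp hS x
    rw [← map_pow, ← map_pow, ← map_pow]
    have e3 : (⟨_, _, h2'⟩ : p.OO) ^ n = q'.2 := Subtype.ext e2.symm
    have e4 : (⟨_, _, h1'⟩ : p.OO) ^ n = q'.1 := Subtype.ext e1.symm
    rw [e3, e4]
    exact h3
  · rfl

/-- order estimate for `r ^ n - s r`. -/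
theorem mem_rr_of_pow_sub_mul {K E : Type*} [Field K] [Field E] [Algebra K E]
    {D B : Divisor K E} (hB : B ≤ D) {r s : E} (hn : 2 ≤ n)
    (hs : s ∈ riemannRochSpace ((n - 1) • B)) (h : r ^ n - s * r ∈ riemannRochSpace (n • D)) :
    r ∈ riemannRochSpace D := by
  rcases eq_or_ne r 0 with rfl | hr
  · exact Submodule.zero_mem _
  rw [mem_rr_of_ne hr]
  intro v
  by_contra hlt
  push Not at hlt
  have hBv := Finsupp.le_def.mp hB v
  have hn1 : ((n - 1 : ℕ) : ℤ) = n - 1 := by omega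
  have key : s * r = 0 ∨ v.ord (r ^ n) < v.ord (-(s * r)) := by
    rcases eq_or_ne s 0 with rfl | hs0
    · left; simp
    · right
      rw [mem_rr_of_ne hs0] at hs
      have h1 := hs v
      rw [Finsupp.smul_apply, nsmul_eq_mul, hn1] at h1
      rw [ord_neg, ord_pow, v.ord_mul hs0 hr]
      have h2 : ((n : ℤ) - 1) * v.ord r < (n - 1) * (-D v) :=
        mul_lt_mul_of_pos_left hlt (by omega)
      have h3 : ((n : ℤ) - 1) * (-D v) ≤ (n - 1) * (-B v) :=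
        mul_le_mul_of_nonneg_left (by linarith) (by omega)
      nlinarith
  have hne : r ^ n + -(s * r) ≠ 0 := by
    rcases key with h0 | h0
    · rw [h0, neg_zero, add_zero]; exact pow_ne_zero n hr
    · exact add_ne_zero_of_ord_lt v (pow_ne_zero n hr) h0
  have hord : v.ord (r ^ n + -(s * r)) = v.ord (r ^ n) := by
    apply ord_add_eq_of_lt v (pow_ne_zero n hr)
    rcases key with h0 | h0
    · left; rw [h0, neg_zero]
    · exact Or.inr h0
  rw [sub_eq_add_neg, mem_rr_of_ne hne] at h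
  have h1 := h v
  rw [hord, ord_pow, Finsupp.smul_apply, nsmul_eq_mul] at h1
  have h2 : (n : ℤ) * v.ord r < n * (-D v) := mul_lt_mul_of_pos_left hlt (by omega)
  linarith

include H in
/-- roots of the Artin–Schreier equation. -/
theorem good_artin [CharP k n] (hn : n.Prime) {a b : ℕ} {q : F₁ × F₁}
    (h : p.Good (n * a) (n * b) (q ^ n - q)) :
    ∃ r : p.OO × p.OO, r ∈ (p.P (a + b)).prod (p.P (a + b)) ∧ p.ii r = (p.tb, p.tb) ^ b * q ∧
      ∀ x : p.Pt, (x.1 r.2 - x.1 (p.FrO r.1)) ^ n = x.1 p.tO ^ ((n - 1) * b) *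
        (x.1 r.2 - x.1 (p.FrO r.1)) := by
  obtain ⟨q', ⟨hS, h1, h2⟩, hq'⟩ := h
  have hnb : n * b = (n - 1) * b + b := by
    have := hn.one_le
    obtain ⟨m, rfl⟩ : ∃ m, n = m + 1 := ⟨n - 1, by omega⟩
    rw [Nat.add_sub_cancel]; ring
  have e1 : (q'.1 : F₁) = (p.tb ^ b * q.1) ^ n - p.tb ^ ((n - 1) * b) * (p.tb ^ b * q.1) := by
    have := congrArg Prod.fst hq'
    simp only [Pencil.ii_apply, Prod.pow_fst, Prod.fst_sub,
      Prod.fst_mul, Prod.pow_mk] at this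
    rw [this, mul_pow, ← pow_mul, mul_comm b n, mul_sub]
    nth_rewrite 2 [hnb]
    rw [pow_add]
    ring
  have e2 : (q'.2 : F₁) = (p.tb ^ b * q.2) ^ n - p.tb ^ ((n - 1) * b) * (p.tb ^ b * q.2) := by
    have := congrArg Prod.snd hq'
    simp only [Pencil.ii_apply, Prod.pow_snd, Prod.snd_sub,
      Prod.snd_mul, Prod.pow_mk] at this
    rw [this, mul_pow, ← pow_mul, mul_comm b n, mul_sub]
    nth_rewrite 2 [hnb]
    rw [pow_add]
    ring
  rw [SetLike.mem_coe, p.mem_P] at h1 h2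
  have hmn : (n * a + n * b) • p.Eb = n • ((a + b) • p.Eb) := by
    rw [smul_smul, mul_add]
  rw [e1, hmn] at h1
  rw [e2, hmn] at h2
  have htb : p.tb ^ ((n - 1) * b) ∈ riemannRochSpace ((n - 1) • (b • p.Eb)) := by
    have := pow_mem_rr p.tb_mem ((n - 1) * b)
    rwa [smul_smul]
  have hle : b • p.Eb ≤ (a + b) • p.Eb := p.Eb_mono (Nat.le_add_left _ _)
  have h1' := mem_rr_of_pow_sub_mul hle hn.two_le htb h1
  have h2' := mem_rr_of_pow_sub_mul hle hn.two_le htb h2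
  refine ⟨(⟨_, _, h1'⟩, ⟨_, _, h2'⟩), ⟨h1', h2'⟩, rfl, ?_⟩
  intro x
  have h3 := (mem_S_iff p H _).mp hS x
  have e3 : q'.2 = (⟨_, _, h2'⟩ : p.OO) ^ n - p.tO ^ ((n - 1) * b) * (⟨_, _, h2'⟩ : p.OO) :=
    Subtype.ext e2
  have e4 : q'.1 = (⟨_, _, h1'⟩ : p.OO) ^ n - p.tO ^ ((n - 1) * b) * (⟨_, _, h1'⟩ : p.OO) :=
    Subtype.ext e1
  have htt : x.1 (p.FrO p.tO) = x.1 p.tO := ((mem_S_iff p H _).mp p.t_mem_S x).symm
  rw [e3, e4] at h3
  simp only [map_sub, map_mul, map_pow, htt] at h3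
  have := Fact.mk hn
  rw [sub_pow_char]
  linear_combination h3

end Roots

/-- the equality of two expressions of powers of `t`. -/
theorem res_t_pow (p : FrobPencil 𝔇) (b : ℕ) : 𝔇.res (p.t ^ b) = (p.tb, p.tb) ^ b := by
  rw [map_pow, p.res_t]

namespace FTors

variable {n : ℕ} {Λ : LamData 𝔇 n} (τ : FTors 𝔇 n Λ) (p : FrobPencil 𝔇)

/-- `u ≡ 1` modulo `λ` -/
theorem pow_mul_sub_one_mem [HasPrincipalDivisors L F] {a b : ℕ} {u h : 𝔇.O} {y : 𝔇.A} (hy : (y : L) ≠ 0)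
    (hu : (u : F) ∈ riemannRochSpace (p.G a b + τ.D)) (hh : u ^ n * τ.f = 1 + 𝔇.cst y ^ n * h) :
    (h : F) ∈ riemannRochSpace (p.G (n * a) (n * b) + (Tors.zero 𝔇 1).D) := by
  have h1 := τ.pow_mul_mem hu
  rw [p.G_smul] at h1
  have h2 : (1 : F) ∈ riemannRochSpace (p.G (n * a) (n * b)) := one_mem_rr (p.G_nonneg _ _)
  have h3 : (h : F) = ((y : L) ^ n)⁻¹ • ((u : F) ^ n * (τ.f : F) - 1) := by
    have h4 := congrArg (fun z : 𝔇.O => (z : F)) hh
    simp only [Subring.coe_mul, Subring.coe_pow, Subring.coe_add, Subring.coe_one, 𝔇.coe_cst] at h4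
    rw [h4, Algebra.smul_def, map_inv₀, map_pow]
    have : algebraMap L F (y : L) ≠ 0 := by simpa using hy
    field_simp
    ring
  rw [h3]
  have h5 : (Tors.zero 𝔇 1).D = 0 := rfl
  rw [h5, add_zero]
  exact Submodule.smul_mem _ _ (Submodule.sub_mem _ h1 h2)

variable [IsFF L F] [IsFF k F₁] [HasPrincipalDivisors L F] [HasPrincipalDivisors k F₁]
  [IsAlgClosed k] [CharP k n] {g g₁ : ℤ} (H : FrobPencil.Hyp p g g₁)

include H in
/-- the gluing data is trivial -/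
theorem exists_trivGlue (hn : n.Prime) : ∃ m₁, p.TrivGlue τ.toTors m₁ := by
  obtain ⟨c, hc⟩ := p.exists_isGlue H.hRR H.hRR₁ H.hpos hn.ne_zero τ.toTors
  refine FrobPencil.trivGlue_of_eq_one H.hRR H.hRR₁ H.hpos hc fun x => ?_
  apply pow_inj_of_charP hn
  rw [hc.1 x, one_pow]

include H in
/-- **Approximation of `1` modulo `λ`.** -/
theorem exists_approx (hn : n.Prime) {m₁ m₀ : ℕ} (h₁ : p.TrivGlue τ.toTors m₁)
    (h₀ : p.TrivGlue (Tors.zero 𝔇 1) m₀) {a b : ℕ} (hab : m₁ ≤ a + b) (hab' : m₀ ≤ a + b)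
    (hgood : p.Good a b 1) :
    ∃ u b' : 𝔇.O, (u : F) ∈ riemannRochSpace (p.G a b + τ.D) ∧ u = 1 + 𝔇.cst Λ.lam * b' := by
  have hfd := finiteDimensional_rr H.hRR (p.G a b + τ.D)
  have hone : 𝔇.res 1 ∈ 𝔇.red (riemannRochSpace (p.G a b + τ.D)) := by
    rw [map_one]
    exact (h₁.mem_red_iff p H.hRR hn.ne_zero hab 1).mpr hgood
  obtain ⟨u, y, b', huV, hy, hu, hb'⟩ := exists_dist 𝔇 _ 1 hone
  by_cases hy0 : (y : L) = 0
  · refine ⟨u, 0, huV, ?_⟩
    have : y = 0 := Subtype.ext hy0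
    rw [hu, this, cst_zero, zero_mul, mul_zero]
  have hb'' := hb'.resolve_left hy0
  rcases dvd_or y Λ.lam hy0 Λ.lam_ne with ⟨z, hz⟩ | ⟨μ, hμ, hμ0⟩
  · exact ⟨u, 𝔇.cst z * b', huV, by rw [hu, hz, cst_mul, mul_assoc]⟩
  · exfalso
    apply hb''
    obtain ⟨r, hr, hr0⟩ := τ.pow_mul_eq hn hμ hy (b := b')
    rw [← hu] at hr
    have hmem := τ.pow_mul_sub_one_mem p hy0 huV hr
    have hres : 𝔇.res (b' ^ n + 𝔇.cst Λ.c₀ * 𝔇.cst μ ^ (n - 1) * b' + r) = (𝔇.res b') ^ n := by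
      have hn1 : n - 1 ≠ 0 := by have := hn.two_le; omega
      rw [map_add, map_add, hr0, map_mul, map_mul, map_pow, map_pow, 𝔇.res_cst μ, hμ0, map_zero,
        zero_pow hn1]
      ring
    have h3 := 𝔇.res_mem_red hmem
    rw [hres] at h3
    have hle : m₀ ≤ n * a + n * b := by
      rw [← mul_add]
      exact hab'.trans (Nat.le_mul_of_pos_left _ hn.pos)
    have h4 := (h₀.mem_red_iff p H.hRR one_ne_zero hle _).mp h3
    have h5 := good_of_pow p H hn h4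
    exact (h₁.mem_red_iff p H.hRR hn.ne_zero hab _).mpr h5

include H in
/-- values of the approximation -/
theorem approx_artin (hn : n.Prime) {m₀ : ℕ}
    (h₀ : p.TrivGlue (Tors.zero 𝔇 1) m₀) {a b : ℕ} (hab' : m₀ ≤ a + b) {u b' : 𝔇.O}
    (hu : (u : F) ∈ riemannRochSpace (p.G a b + τ.D)) (hub : u = 1 + 𝔇.cst Λ.lam * b') :
    ∃ r : p.OO × p.OO, r ∈ (p.P (a + b)).prod (p.P (a + b)) ∧
      p.ii r = (p.tb, p.tb) ^ b * 𝔇.res b' ∧
      ∀ x : p.Pt, (x.1 r.2 - x.1 (p.FrO r.1)) ^ n = x.1 p.tO ^ ((n - 1) * b) *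
        (x.1 r.2 - x.1 (p.FrO r.1)) := by
  have hμ : Λ.lam = Λ.lam * 1 := (mul_one _).symm
  obtain ⟨r, hr, hr0⟩ := τ.pow_mul_eq hn hμ Λ.π_lam (b := b')
  rw [← hub] at hr
  have hmem := τ.pow_mul_sub_one_mem p Λ.lam_ne hu hr
  have hres : 𝔇.res (b' ^ n + 𝔇.cst Λ.c₀ * 𝔇.cst 1 ^ (n - 1) * b' + r) =
      (𝔇.res b') ^ n - 𝔇.res b' := by
    rw [map_add, map_add, hr0, map_mul, map_mul, map_pow, map_pow, cst_one, 𝔇.res_cst, Λ.π_c₀]
    simp only [map_neg, map_one, one_pow, mul_one, add_zero, neg_mul, one_mul]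
    rw [sub_eq_add_neg]
  have h3 := 𝔇.res_mem_red hmem
  rw [hres] at h3
  have hle : m₀ ≤ n * a + n * b := by
    rw [← mul_add]
    exact hab'.trans (Nat.le_mul_of_pos_left _ hn.pos)
  have h4 := (h₀.mem_red_iff p H.hRR one_ne_zero hle _).mp h3
  exact good_artin p H hn h4

end FTors

end Fermat.Agent.LLp
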