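import Fermat.Agent.LLp.Rat

/-!
# Rational witnesses and comparison of slopes
-/

set_option autoImplicit false

noncomputable section

open AlgebraicCurve Module IntermediateField

namespace Fermat.Agent.LLp

open Fermat.Agent.BadRed
open Fermat.Agent.FunField Fermat.Agent.FunField.PlaceLemmas Fermat.Agent.Deuring

variable {L k : Type*} [Field L] [Field k]
variable {F F₁ : Type*} [Field F] [Field F₁] [Algebra L F] [Algebra k F₁]
  {T : TwoVal L k F F₁} {n : ℕ} {p : FrobPencil T.toRData} {𝒰 : UData T n}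
  {Λ : LamData T.toRData n}

/-- a rational witness -/
structure Wit (R : RatData p 𝒰 Λ) (D : Divisor L F) (g : F) where
  m : ℕ
  w : F
  hw : w ∈ riemannRochSpace (m • p.E + D)
  hJ : ∀ s ∈ R.J, s • w = w
  c : L
  hc : c ≠ 0
  h₁ : Unit₁ T.V₁ (c • w * g)
  h₂ : Unit₁ T.V₂ (c • w * g)
  hns : ∀ (m' : ℕ) (w' : F), w' ∈ riemannRochSpace (m' • p.E + D) →
        ∀ (h₁' : w' * g ∈ T.V₁.O) (h₂' : w' * g ∈ T.V₂.O), T.V₁.r ⟨_, h₁'⟩ = 0 →
          T.V₂.r ⟨_, h₂'⟩ ≠ T.V₂.r ⟨_, h₂.1⟩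

theorem smul_mem_rr (s : SemilinearAut L F) {D : Divisor L F} {f : F}
    (h : f ∈ riemannRochSpace D) : s • f ∈ riemannRochSpace (s • D) := by
  rcases eq_or_ne f 0 with rfl | hf
  · rw [smul_zero]; exact Submodule.zero_mem _
  have hsf : s • f ≠ 0 := fun h0 => hf ((smul_eq_zero_iff_eq s).mp h0)
  rw [mem_rr_of_ne hf] at h
  rw [mem_rr_of_ne hsf]
  intro v
  have := SemilinearAut.ord_smul s (s⁻¹ • v) f
  rw [smul_inv_smul] at this
  rw [this, SemilinearAut.divisor_smul_apply]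
  exact h _

theorem smul_E_add (R : RatData p 𝒰 Λ) {s : SemilinearAut L F} (hs : s ∈ R.I) (m : ℕ)
    (D : Divisor L F) : s • (m • p.E + D) = m • p.E + s • D := by
  have h2 : s • (m • p.E) = m • (s • p.E) :=
    map_nsmul (DistribSMul.toAddMonoidHom (Divisor L F) s) m p.E
  rw [smul_add, h2, R.hE s hs]

/-- **Existence of rational witnesses.** -/
theorem exists_wit [IsFF L F] [IsFF k F₁] [HasPrincipalDivisors L F] [IsAlgClosed L]
    [HasPrincipalDivisors k F₁] [IsAlgClosed k]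
    {G g₁ : ℤ} (H : FrobPencil.Hyp p G g₁) (R : RatData p 𝒰 Λ) {D : Divisor L F}
    (hD : ∀ s ∈ R.J, s • D = D) {g : F} (hg0 : g ≠ 0)
    (hns : NonSplit p D g) : Nonempty (Wit R D g) := by
  classical
  obtain ⟨m, w, hw, h₁, h₂, hsp⟩ := hns
  obtain ⟨δ₁, hδ₁⟩ := exists_isVl (V := T.V₁) hg0
  obtain ⟨δ₂, hδ₂⟩ := exists_isVl (V := T.V₂) hg0
  have hfd : FiniteDimensional L (riemannRochSpace (m • p.E + D)) :=
    finiteDimensional_rr H.hRR _
  obtain ⟨b, hbV, hb₁, hb₂, hli, hbc⟩ := R.orth (riemannRochSpace (m • p.E + D)) hfd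
    (fun s hs v hv => by
      have := smul_mem_rr s hv
      rwa [smul_E_add R (R.hJI hs), hD s hs] at this)
    δ₁⁻¹ δ₂⁻¹ (inv_ne_zero hδ₁.1) (inv_ne_zero hδ₂.1)
  -- the products `b j * g`
  have hprod : ∀ (V : ResVal T.A T.π F F₁) (δ : L) (hδ : IsVl V g δ) (j) (hb : δ⁻¹ • b j ∈ V.O),
      ∃ h : b j * g ∈ V.O, V.r ⟨_, h⟩ = V.r ⟨_, hb⟩ * V.r ⟨δ • g, hδ.2.1⟩ := by
    intro V δ hδ j hb
    have e : b j * g = (δ⁻¹ • b j) * (δ • g) := by
      rw [smul_mul_smul_comm, inv_mul_cancel₀ hδ.1, one_smul]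
    have h : b j * g ∈ V.O := by rw [e]; exact mul_mem hb hδ.2.1
    refine ⟨h, ?_⟩
    have : (⟨_, h⟩ : V.O) = ⟨_, hb⟩ * ⟨δ • g, hδ.2.1⟩ := Subtype.ext e
    rw [this, map_mul]
  choose hp₁ ep₁ using fun j => hprod T.V₁ δ₁ hδ₁ j (hb₁ j)
  choose hp₂ ep₂ using fun j => hprod T.V₂ δ₂ hδ₂ j (hb₂ j)
  let cb : Fin (finrank L (riemannRochSpace (m • p.E + D))) → T.toRData.O := fun j =>
    ⟨b j * g, hp₁ j, hp₂ j⟩
  have hcb : LinearIndependent k (fun j => T.toRData.res (cb j)) := by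
    rw [Fintype.linearIndependent_iff] at hli ⊢
    intro x hx
    apply hli x
    have e1 := congrArg Prod.fst hx
    have e2 := congrArg Prod.snd hx
    rw [Prod.fst_sum] at e1
    rw [Prod.snd_sum] at e2
    have f1 : (∑ j, x j • T.V₁.r ⟨_, hb₁ j⟩) * T.V₁.r ⟨δ₁ • g, hδ₁.2.1⟩ = 0 := by
      rw [Finset.sum_mul]
      refine Eq.trans (Finset.sum_congr rfl fun j _ => ?_) e1
      rw [smul_mul_assoc, ← ep₁ j]
      rfl
    have f2 : (∑ j, x j • T.V₂.r ⟨_, hb₂ j⟩) * T.V₂.r ⟨δ₂ • g, hδ₂.2.1⟩ = 0 := by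
      rw [Finset.sum_mul]
      refine Eq.trans (Finset.sum_congr rfl fun j _ => ?_) e2
      rw [smul_mul_assoc, ← ep₂ j]
      rfl
    have f1' := (mul_eq_zero.mp f1).resolve_right hδ₁.2.2
    have f2' := (mul_eq_zero.mp f2).resolve_right hδ₂.2.2
    apply Prod.ext
    · rw [Prod.fst_sum]; exact f1'
    · rw [Prod.snd_sum]; exact f2'
  -- expand `w`
  have hliL := T.toRData.linearIndependent_of_res cb hcb
  have hliL' : LinearIndependent L b := by
    rw [Fintype.linearIndependent_iff] at hliL ⊢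
    intro x hx
    apply hliL x
    have : ∑ j, x j • ((cb j : T.toRData.O) : F) = (∑ j, x j • b j) * g := by
      rw [Finset.sum_mul]
      exact Finset.sum_congr rfl fun j _ => (smul_mul_assoc _ _ _).symm
    rw [this, hx, zero_mul]
  have hliV : LinearIndependent L (fun j => (⟨b j, hbV j⟩ : riemannRochSpace (m • p.E + D))) := by
    apply LinearIndependent.of_comp (riemannRochSpace (m • p.E + D)).subtype
    exact hliL'
  have htop := hliV.span_eq_top_of_card_eq_finrank' (by simp)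
  have hwmem : (⟨w, hw⟩ : riemannRochSpace (m • p.E + D)) ∈
      Submodule.span L (Set.range fun j => (⟨b j, hbV j⟩ : riemannRochSpace (m • p.E + D))) := by
    rw [htop]; trivial
  obtain ⟨x, hx⟩ := (Submodule.mem_span_range_iff_exists_fun L).mp hwmem
  have hx' : w = ∑ j, x j • b j := by
    have := congrArg Subtype.val hx
    simpa using this.symm
  have hwg : w * g = ∑ j, x j • ((cb j : T.toRData.O) : F) := by
    rw [hx', Finset.sum_mul]
    exact Finset.sum_congr rfl fun j _ => smul_mul_assoc _ _ _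
  have hxA : ∀ j, x j ∈ T.toRData.A := T.toRData.coeff_mem cb hcb x (by
    rw [← hwg]; exact ⟨h₁, h₂⟩)
  -- some basis vector is a witness
  by_cases hcase : ∃ j, ∀ (m' : ℕ) (w' : F), w' ∈ riemannRochSpace (m' • p.E + D) →
        ∀ (h₁' : w' * g ∈ T.V₁.O) (h₂' : w' * g ∈ T.V₂.O), T.V₁.r ⟨_, h₁'⟩ = 0 →
          T.V₂.r ⟨_, h₂'⟩ ≠ T.V₂.r ⟨b j * g, hp₂ j⟩
  · obtain ⟨j, hj⟩ := hcase
    obtain ⟨c, hc, hcJ⟩ := hbc j
    have hcc : c⁻¹ • (c • b j) = b j := by rw [smul_smul, inv_mul_cancel₀ hc, one_smul]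
    have hr1 : T.V₁.r ⟨b j * g, hp₁ j⟩ ≠ 0 := fun h0 => hj m (b j) (hbV j) (hp₁ j) (hp₂ j) h0 rfl
    have hr2 : T.V₂.r ⟨b j * g, hp₂ j⟩ ≠ 0 := by
      intro h0
      have h01 : (0 : F) * g ∈ T.V₁.O := by rw [zero_mul]; exact zero_mem _
      have h02 : (0 : F) * g ∈ T.V₂.O := by rw [zero_mul]; exact zero_mem _
      have e1 : (⟨0 * g, h01⟩ : T.V₁.O) = 0 := Subtype.ext (zero_mul _)
      have e2 : (⟨0 * g, h02⟩ : T.V₂.O) = 0 := Subtype.ext (zero_mul _)
      refine hj 0 0 (Submodule.zero_mem _) h01 h02 ?_ ?_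
      · rw [e1, map_zero]
      · rw [e2, map_zero, h0]
    have hU₁ : Unit₁ T.V₁ (c⁻¹ • (c • b j) * g) := by rw [hcc]; exact ⟨hp₁ j, hr1⟩
    have hU₂ : Unit₁ T.V₂ (c⁻¹ • (c • b j) * g) := by rw [hcc]; exact ⟨hp₂ j, hr2⟩
    refine ⟨⟨m, c • b j, Submodule.smul_mem _ _ (hbV j), hcJ, c⁻¹, inv_ne_zero hc, hU₁, hU₂, ?_⟩⟩
    intro m' w' hw' h₁' h₂' h0 heq
    apply hj m' w' hw' h₁' h₂' h0
    rw [heq]
    congr 1
    exact Subtype.ext (congrArg (· * g) hcc)
  · exfalso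
    push Not at hcase
    choose m' w' hw' h₁' h₂' e0 e2 using hcase
    set W : F := ∑ j, x j • w' j with hW
    set M := Finset.univ.sup m' with hM
    have hWmem : W ∈ riemannRochSpace (M • p.E + D) := by
      refine Submodule.sum_mem _ fun j _ => Submodule.smul_mem _ _ ?_
      exact FunField.rr_mono (add_le_add_left (p.E_mono (Finset.le_sup (Finset.mem_univ j))) _) (hw' j)
    have hWg : W * g = ∑ j, algebraMap L F (x j) * (w' j * g) := by
      rw [hW, Finset.sum_mul]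
      exact Finset.sum_congr rfl fun j _ => by rw [smul_mul_assoc, Algebra.smul_def]
    have hW₁ : W * g ∈ T.V₁.O := by
      rw [hWg]
      exact sum_mem fun j _ => mul_mem ((T.V₁.mem_iff _).mpr (hxA j)) (h₁' j)
    have hW₂ : W * g ∈ T.V₂.O := by
      rw [hWg]
      exact sum_mem fun j _ => mul_mem ((T.V₂.mem_iff _).mpr (hxA j)) (h₂' j)
    let xA : Fin (finrank L (riemannRochSpace (m • p.E + D))) → T.A := fun j => ⟨x j, hxA j⟩
    have hr₁ : T.V₁.r ⟨W * g, hW₁⟩ = 0 := by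
      have e : (⟨W * g, hW₁⟩ : T.V₁.O) = ∑ j, T.V₁.cst (xA j) * ⟨_, h₁' j⟩ := by
        apply Subtype.ext
        push_cast
        exact hWg
      rw [e, map_sum]
      refine Finset.sum_eq_zero fun j _ => ?_
      rw [map_mul, e0 j, mul_zero]
    have hr₂ : T.V₂.r ⟨W * g, hW₂⟩ = T.V₂.r ⟨w * g, h₂⟩ := by
      have e : (⟨W * g, hW₂⟩ : T.V₂.O) = ∑ j, T.V₂.cst (xA j) * ⟨_, h₂' j⟩ := by
        apply Subtype.ext
        push_cast
        exact hWg
      have e' : (⟨w * g, h₂⟩ : T.V₂.O) = ∑ j, T.V₂.cst (xA j) * ⟨_, hp₂ j⟩ := by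
        apply Subtype.ext
        push_cast
        rw [hwg]
        exact Finset.sum_congr rfl fun j _ => Algebra.smul_def _ _
      rw [e, e', map_sum, map_sum]
      refine Finset.sum_congr rfl fun j _ => ?_
      rw [map_mul, map_mul, e2 j]
    exact hsp M W hWmem hW₁ hW₂ hr₁ hr₂

end Fermat.Agent.LLp
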